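import Mathlib.RingTheory.DiscreteValuationRing.Basic
import Mathlib.RingTheory.AdicCompletion.Basic
import Mathlib.RingTheory.LocalRing.ResidueField.Basic
import Mathlib.RingTheory.DedekindDomain.IntegralClosure
import Mathlib.RingTheory.Henselian
import Mathlib.RingTheory.DedekindDomain.PID
import Mathlib.RingTheory.AdicCompletion.Noetherian
import Mathlib.LinearAlgebra.FreeModule.PID
import Mathlib.RingTheory.UniqueFactorizationDomain.Multiplicity
import Mathlib.Tactic.LinearCombination

/-!
# Finite extensions of complete discrete valuation rings of characteristic zero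
-/

set_option autoImplicit false

namespace Fermat.Agent.RepLemmas

open Polynomial in
/-- Two maximal ideals containing an ideal `I` of a Dedekind domain complete at `I` coincide. -/
theorem eq_of_isMaximal_of_adicComplete {S : Type*} [CommRing S] [IsDedekindDomain S]
    (I : Ideal S) [IsAdicComplete I S] (hI : I ≠ ⊥) (P Q : Ideal S) [P.IsMaximal] [Q.IsMaximal]
    (hP : I ≤ P) (hQ : I ≤ Q) : P = Q := by
  by_contra hne
  have hP0 : P ≠ ⊥ := ne_bot_of_le_ne_bot hI hP
  obtain ⟨n, R, hPR, hIeq⟩ :=
    WfDvdMonoid.max_power_factor hI (Ideal.prime_of_isPrime hP0 inferInstance).irreducible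
  have hn : n ≠ 0 := by
    rintro rfl
    exact hPR (Ideal.dvd_iff_le.mpr (by rw [pow_zero, one_mul] at hIeq; exact hIeq ▸ hP))
  have hPR1 : P ⊔ R = ⊤ := (‹P.IsMaximal›.out).2 _
    (lt_of_le_of_ne le_sup_left fun h => hPR (Ideal.dvd_iff_le.mpr (sup_eq_left.mp h.symm)))
  have htop : P ^ n ⊔ R = ⊤ := Ideal.pow_sup_eq_top hPR1
  obtain ⟨x, hx, y, hy, hxy⟩ := Submodule.mem_sup.mp (htop ▸ Submodule.mem_top :
    (1 : S) ∈ P ^ n ⊔ R)
  have hxP : x ∈ P := Ideal.pow_le_self hn hx
  have hyQ : y ∈ Q := by
    have hQp : Q.IsPrime := inferInstance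
    have hmem : P ^ n * R ≤ Q := hIeq ▸ hQ
    rcases (Ideal.IsPrime.mul_le hQp).mp hmem with h | h
    · exact absurd (‹P.IsMaximal›.eq_of_le hQp.ne_top (hQp.le_of_pow_le h)) hne
    · exact h hy
  have hxyI : x * y ∈ I := hIeq ▸ Ideal.mul_mem_mul hx hy
  have hyy : y ^ 2 - y ∈ I := by
    have : y ^ 2 - y = -(x * y) := by linear_combination y * hxy
    rw [this]; exact I.neg_mem hxyI
  obtain ⟨a, ha, hay⟩ := HenselianRing.is_henselian (I := I) (X ^ 2 - X : S[X])
    (monic_X_pow_sub (by simp)) y (by simpa using hyy) (IsUnit.of_mul_eq_one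
      (Ideal.Quotient.mk I ((X ^ 2 - X : S[X]).derivative.eval y)) (by
    rw [← map_mul, ← map_one (Ideal.Quotient.mk I), Ideal.Quotient.mk_eq_mk_iff_sub_mem]
    have : (X ^ 2 - X : S[X]).derivative.eval y * (X ^ 2 - X : S[X]).derivative.eval y - 1 =
        4 * (y ^ 2 - y) := by simp; ring
    rw [this]; exact I.mul_mem_left _ hyy))
  have ha' : a = 0 ∨ a = 1 := by
    simp only [IsRoot, eval_sub, eval_pow, eval_X] at ha
    rcases mul_eq_zero.mp (show a * (a - 1) = 0 by linear_combination ha) with h | h
    · exact Or.inl h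
    · exact Or.inr (sub_eq_zero.mp h)
  rcases ha' with rfl | rfl
  · have hyP : y ∈ P := by simpa using hP hay
    exact ‹P.IsMaximal›.ne_top (P.eq_top_iff_one.mpr (hxy ▸ P.add_mem hxP hyP))
  · have : (1 : S) ∈ Q := by simpa using Q.add_mem (hQ hay) hyQ
    exact ‹Q.IsMaximal›.ne_top (Q.eq_top_iff_one.mpr this)

/-- A free module of finite rank over an adically complete ring is complete. -/
theorem isAdicComplete_of_basis {O M ι : Type*} [CommRing O] [AddCommGroup M] [Module O M]
    [Fintype ι] (b : Module.Basis ι O M) (I : Ideal O) [IsAdicComplete I O] :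
    IsAdicComplete I M := by
  have hmem : ∀ (n : ℕ) (x : M),
      x ∈ (I ^ n • ⊤ : Submodule O M) ↔ ∀ i, b.repr x i ∈ I ^ n := by
    intro n x
    refine ⟨fun hx => ?_, fun hx => ?_⟩
    · refine Submodule.smul_induction_on hx (fun r hr m _ i => ?_) fun u v hu hv i => ?_
      · simpa using (I ^ n).mul_mem_right _ hr
      · simpa using (I ^ n).add_mem (hu i) (hv i)
    · rw [← b.sum_repr x]
      exact Submodule.sum_mem _ fun i _ => Submodule.smul_mem_smul (hx i) Submodule.mem_top
  have hO : ∀ (n : ℕ) (x : O), x ∈ (I ^ n • ⊤ : Submodule O O) ↔ x ∈ I ^ n := fun n x => by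
    simp
  refine { haus' := fun x hx => ?_, prec' := fun f hf => ?_ }
  · refine b.repr.injective (Finsupp.ext fun i => ?_)
    rw [map_zero, Finsupp.zero_apply]
    refine IsHausdorff.haus (inferInstance : IsHausdorff I O) _ fun n => ?_
    rw [SModEq.zero, hO]
    exact (hmem n x).mp (SModEq.zero.mp (hx n)) i
  · have hf' : ∀ i, ∃ L : O, ∀ n, b.repr (f n) i ≡ L [SMOD (I ^ n • ⊤ : Submodule O O)] := by
      intro i
      refine IsPrecomplete.prec (inferInstance : IsPrecomplete I O) fun {m n} hmn => ?_
      rw [SModEq.sub_mem, hO]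
      simpa using (hmem m _).mp (SModEq.sub_mem.mp (hf hmn)) i
    choose L hL using hf'
    refine ⟨∑ i, L i • b i, fun n => ?_⟩
    rw [SModEq.sub_mem, hmem]
    intro i
    rw [map_sub, Finsupp.sub_apply, b.repr_sum_self]
    exact (hO n _).mp (SModEq.sub_mem.mp (hL i n))

/-- The integral closure of a complete DVR in a finite separable extension of its fraction field
is a complete DVR, finite over the base. -/
theorem integralClosure_isDVR (O : Type*) [CommRing O] [IsDomain O] [IsDiscreteValuationRing O]
    [IsAdicComplete (IsLocalRing.maximalIdeal O) O] (K : Type*) [Field K] [Algebra O K]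
    [IsFractionRing O K] (K' : Type*) [Field K'] [Algebra K K'] [Algebra O K']
    [IsScalarTower O K K'] [FiniteDimensional K K'] [Algebra.IsSeparable K K'] :
    ∃ _ : IsDiscreteValuationRing (integralClosure O K'),
      Module.Finite O (integralClosure O K') ∧
      IsLocalHom (algebraMap O (integralClosure O K')) ∧
      Function.Injective (algebraMap O (integralClosure O K')) ∧
      IsFractionRing (integralClosure O K') K' ∧
      IsAdicComplete (IsLocalRing.maximalIdeal (integralClosure O K')) (integralClosure O K') ∧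
      (Finite (IsLocalRing.ResidueField O) →
        Finite (IsLocalRing.ResidueField (integralClosure O K'))) := by
  let S := integralClosure O K'
  have hinjK : Function.Injective (algebraMap O K') := by
    rw [IsScalarTower.algebraMap_eq O K K']
    exact (algebraMap K K').injective.comp (IsFractionRing.injective O K)
  have hinj : Function.Injective (algebraMap O S) := fun x y h =>
    hinjK (congrArg (fun z : S => (z : K')) h)
  have : FaithfulSMul O S := (faithfulSMul_iff_algebraMap_injective O S).mpr hinj
  have hfin : Module.Finite O S := IsIntegralClosure.finite O K K' S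
  have hfrac : IsFractionRing S K' := integralClosure.isFractionRing_of_finite_extension K K'
  have : IsDedekindDomain S := integralClosure.isDedekindDomain O K K'
  have hnf : ¬ IsField S := fun h =>
    IsDiscreteValuationRing.not_isField O (isField_of_isIntegral_of_isField hinj h)
  let I : Ideal S := (IsLocalRing.maximalIdeal O).map (algebraMap O S)
  have hI0 : I ≠ ⊥ := by
    rw [Ne, Ideal.map_eq_bot_iff_of_injective hinj]
    exact IsDiscreteValuationRing.not_a_field O
  have : IsAdicComplete (IsLocalRing.maximalIdeal O) S :=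
    isAdicComplete_of_basis (Module.Free.chooseBasis O S) _
  have : IsHausdorff I S := IsHausdorff.map_algebraMap_iff.mpr inferInstance
  have : IsPrecomplete I S := IsPrecomplete.map_algebraMap_iff.mpr inferInstance
  have : IsAdicComplete I S := { }
  have hle : ∀ P : Ideal S, P.IsMaximal → I ≤ P := fun P hP =>
    Ideal.map_le_iff_le_comap.mpr (by
      have := Ideal.isMaximal_comap_of_isIntegral_of_isMaximal (R := O) P
      rw [IsLocalRing.eq_maximalIdeal this])
  have hloc : IsLocalRing S := by
    obtain ⟨P, hP⟩ := Ideal.exists_maximal S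
    refine IsLocalRing.of_unique_max_ideal ⟨P, hP, fun Q hQ => ?_⟩
    exact eq_of_isMaximal_of_adicComplete I hI0 Q P (hle Q hQ) (hle P hP)
  have : IsPrincipalIdealRing S := IsPrincipalIdealRing.of_finite_maximals
    ((Set.finite_singleton (IsLocalRing.maximalIdeal S)).subset fun P hP =>
      IsLocalRing.eq_maximalIdeal hP)
  have hdvr : IsDiscreteValuationRing S :=
    { not_a_field' := fun h => hnf (IsLocalRing.isField_iff_maximalIdeal_eq.mpr h) }
  have hlocal : IsLocalHom (algebraMap O S) :=
    RingHom.IsIntegral.isLocalHom (Algebra.IsIntegral.isIntegral) hinj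
  obtain ⟨ϖ, hϖ⟩ := IsDiscreteValuationRing.exists_irreducible S
  obtain ⟨e, he⟩ := IsDiscreteValuationRing.ideal_eq_span_pow_irreducible hI0 hϖ
  have he' : I = IsLocalRing.maximalIdeal S ^ e := by
    rw [he, hϖ.maximalIdeal_eq, Ideal.span_singleton_pow]
  have he1 : 1 ≤ e := by
    rcases Nat.eq_zero_or_pos e with h | h
    · have h' := hle _ (IsLocalRing.maximalIdeal.isMaximal S)
      rw [he', h, pow_zero, Ideal.one_eq_top, top_le_iff] at h'
      exact absurd h' (IsLocalRing.maximalIdeal.isMaximal S).ne_top
    · exact h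
  refine ⟨hdvr, hfin, hlocal, hinj, hfrac, ?_, fun hk => ?_⟩
  · refine { prec' := fun f hf => ?_ }
    obtain ⟨L, hL⟩ := IsPrecomplete.prec (inferInstance : IsPrecomplete I S)
      (f := fun n => f (e * n)) fun {m n} hmn => by
        rw [he', ← pow_mul]
        exact hf (Nat.mul_le_mul_left e hmn)
    refine ⟨L, fun n => (hf (Nat.le_mul_of_pos_left n he1)).trans ?_⟩
    have h2 := hL n
    rw [he', ← pow_mul] at h2
    exact h2.mono (Submodule.pow_smul_top_le _ _ (Nat.le_mul_of_pos_left n he1))
  · exact IsLocalRing.ResidueField.finite_of_finite (R := O) (S := S) hk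

end Fermat.Agent.RepLemmas
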