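import Fermat.Agent.RepLemmas.Carayol
import Mathlib.FieldTheory.IntermediateField.Adjoin.Basic
import Mathlib.LinearAlgebra.Matrix.Notation
import Mathlib.Tactic.LinearCombination
import Mathlib.Tactic.IntervalCases
import Mathlib.Tactic.Abel
import Mathlib.RingTheory.Artinian.Module

/-!
# Groups all of whose elements satisfy quadratic equations (Boston–Lenstra–Ribet)

If `ρ : G →* Mat_m(k)` and a character `ω` are such that every `ρ g` is a root of some
`X² - t X + ω g`, then there is a 2-dimensional semisimple representation `σ` over a finite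
extension of `k` with characteristic polynomial `X² - t X + ω g` at `g`.
-/

set_option autoImplicit false

namespace Fermat.Agent.RepLemmas

open Polynomial

/-- `a` is a root of `X² - t X + w`. -/
def QuadRel {R A : Type*} [CommRing R] [Ring A] [Algebra R A] (a : A) (t w : R) : Prop :=
  a * a - t • a + w • (1 : A) = 0

theorem quadRel_iff_aeval {R A : Type*} [CommRing R] [Ring A] [Algebra R A] (a : A) (t w : R) :
    QuadRel a t w ↔ aeval a (X ^ 2 - C t * X + C w) = 0 := by
  simp [QuadRel, pow_two, Algebra.smul_def]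

theorem QuadRel.exists_pow {R A : Type*} [CommRing R] [Ring A] [Algebra R A] {a : A} {t w : R}
    (h : QuadRel a t w) (j : ℕ) : ∃ t', QuadRel (a ^ j) t' (w ^ j) := by
  unfold QuadRel at h ⊢
  set b := t • (1 : A) - a with hb
  have hab : a * b = w • 1 := by
    rw [hb, mul_sub, mul_smul_comm, mul_one]
    exact sub_eq_iff_eq_add.mpr (eq_add_of_sub_eq (by linear_combination (norm := abel) -h))
  have hcomm : Commute a b := ((Commute.one_right a).smul_right t).sub_right (Commute.refl a)
  have hsum : ∀ j, ∃ s : R, a ^ j + b ^ j = s • (1 : A) := by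
    intro j
    induction j using Nat.twoStepInduction with
    | zero => exact ⟨2, by simp [two_smul]⟩
    | one => exact ⟨t, by simp [hb]⟩
    | more j h₀ h₁ =>
      obtain ⟨s₀, hs₀⟩ := h₀
      obtain ⟨s₁, hs₁⟩ := h₁
      refine ⟨t * s₁ - w * s₀, ?_⟩
      have hba : b * a = w • 1 := hcomm.eq.symm.trans hab
      have key : (a + b) * (a ^ (j + 1) + b ^ (j + 1)) =
          a ^ (j + 2) + b ^ (j + 2) + w • (a ^ j + b ^ j) := by
        rw [add_mul, mul_add, mul_add, ← pow_succ', ← pow_succ',
          show a * b ^ (j + 1) = w • b ^ j by rw [pow_succ', ← mul_assoc, hab, smul_one_mul],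
          show b * a ^ (j + 1) = w • a ^ j by rw [pow_succ', ← mul_assoc, hba, smul_one_mul],
          smul_add]
        abel
      rw [hs₁, hs₀, show a + b = t • 1 by simp [hb], smul_one_mul, smul_smul, smul_smul] at key
      rw [sub_smul, eq_sub_iff_add_eq]
      exact key.symm
  obtain ⟨s, hs⟩ := hsum j
  refine ⟨s, ?_⟩
  have : b ^ j * a ^ j = w ^ j • 1 := by
    rw [← hcomm.symm.mul_pow, ← hcomm.eq, hab, smul_pow, one_pow]
  rw [← smul_one_mul s (a ^ j), ← hs, add_mul, this]
  abel

theorem QuadRel.map {R A B : Type*} [CommRing R] [Ring A] [Algebra R A] [Ring B] [Algebra R B]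
    (φ : A →ₐ[R] B) {a : A} {t w : R} (h : QuadRel a t w) : QuadRel (φ a) t w := by
  have := congrArg φ h
  simpa [QuadRel] using this

/-- The quadratic relation spreads from `f` to conjugates of powers of `f`. -/
theorem exists_quadRel_of_conj_pow {G R A : Type*} [Group G] [CommRing R] [Ring A] [Algebra R A]
    (ρ : G →* A) (ω : G →* R) {g f x : G} (j : ℕ) (hρ : ρ g = ρ (x * f ^ j * x⁻¹))
    (hω : ω g = ω (f ^ j)) (hf : ∃ t, QuadRel (ρ f) t (ω f)) :
    ∃ t, QuadRel (ρ g) t (ω g) := by
  obtain ⟨t, ht⟩ := hf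
  obtain ⟨t', ht'⟩ := ht.exists_pow j
  refine ⟨t', ?_⟩
  have hxx : ρ x⁻¹ * ρ x = 1 := by rw [← map_mul, inv_mul_cancel, map_one]
  have hxx' : ρ x * ρ x⁻¹ = 1 := by rw [← map_mul, mul_inv_cancel, map_one]
  rw [hρ, hω, map_mul, map_mul, map_pow, map_pow]
  have h2 := congrArg (fun y => ρ x * y * ρ x⁻¹) (show _ = (0 : A) from ht')
  simp only [mul_zero, zero_mul, mul_sub, mul_add, sub_mul, add_mul, mul_smul_comm,
    smul_mul_assoc, mul_one, hxx'] at h2
  unfold QuadRel
  have hsq : ρ x * ρ f ^ j * ρ x⁻¹ * (ρ x * ρ f ^ j * ρ x⁻¹) =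
      ρ x * (ρ f ^ j * ρ f ^ j) * ρ x⁻¹ := by
    simp only [mul_assoc]
    rw [← mul_assoc (ρ x⁻¹) (ρ x), hxx, one_mul]
  rwa [hsq]

section Helpers

variable {G k : Type*} [Group G] [Field k]

/-- The diagonal representation `χ ⊕ ψ`. -/
def diagHom (χ ψ : G →* k) : G →* Matrix (Fin 2) (Fin 2) k where
  toFun g := Matrix.diagonal ![χ g, ψ g]
  map_one' := by ext a b; fin_cases a <;> fin_cases b <;> simp
  map_mul' g h := by ext a b; fin_cases a <;> fin_cases b <;> simp

theorem diagHom_apply (χ ψ : G →* k) (g : G) :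
    diagHom χ ψ g = Matrix.diagonal ![χ g, ψ g] := rfl

/-- The character `ω / χ`. -/
def quotChar (χ ω : G →* k) : G →* k where
  toFun g := ω g * χ g⁻¹
  map_one' := by simp
  map_mul' g h := by rw [map_mul, mul_inv_rev, map_mul]; ring

theorem quotChar_apply (χ ω : G →* k) (g : G) : quotChar χ ω g = ω g * χ g⁻¹ := rfl

theorem trace_of_root (χ ω : G →* k) (g : G) {t : k} (h : χ g * χ g - t * χ g + ω g = 0) :
    χ g + ω g * χ g⁻¹ = t := by
  have h1 : χ g * χ g⁻¹ = 1 := by rw [← map_mul, mul_inv_cancel, map_one]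
  linear_combination χ g⁻¹ * h - (χ g - t) * h1

theorem quadRel_of_intertwine {m n : Type*} [Fintype m] [DecidableEq m] [Fintype n]
    [DecidableEq n] {ι : Matrix m n k} {π : Matrix n m k} (hπι : π * ι = 1)
    {X : Matrix m m k} {Y : Matrix n n k} (hι : X * ι = ι * Y) {t w : k} (h : QuadRel X t w) :
    QuadRel Y t w := by
  have h1 := congrArg (fun Z => π * Z * ι) (show _ = (0 : Matrix m m k) from h)
  simp only [Matrix.mul_zero, Matrix.zero_mul, Matrix.mul_add, Matrix.mul_sub, Matrix.add_mul,
    Matrix.sub_mul, Matrix.mul_smul, Matrix.smul_mul, Matrix.mul_one, Matrix.mul_assoc, hι,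
    hπι] at h1
  simp only [← Matrix.mul_assoc X ι, hι, Matrix.mul_assoc, ← Matrix.mul_assoc π ι, hπι,
    Matrix.one_mul] at h1
  exact h1

/-- An absolutely irreducible group of matrices all of whose elements satisfy such quadratic
relations has size at most two. -/
theorem card_le_two_of_quadRel {n : Type*} [Fintype n] [DecidableEq n] (r : G →* Matrix n n k)
    (ω : G →* k) (hspan : Submodule.span k (Set.range r) = ⊤)
    (h : ∀ g, ∃ t, QuadRel (r g) t (ω g)) : Fintype.card n ≤ 2 := by
  choose t ht using h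
  have hinv : ∀ g, ω g • r g⁻¹ = t g • 1 - r g := by
    intro g
    have h1 := congrArg (fun Z => r g⁻¹ * Z) (show _ = (0 : Matrix n n k) from ht g)
    simp only [mul_zero, mul_add, mul_sub, mul_smul_comm, mul_one, ← mul_assoc, ← map_mul,
      inv_mul_cancel, map_one, one_mul] at h1
    linear_combination (norm := abel) h1
  let J : Matrix n n k → Matrix n n k → Matrix n n k := fun X Y => X * Y + Y * X
  have hgh : ∀ g h, ∃ e : k, J (r g) (r h) = t h • r g + t g • r h + e • 1 := by
    intro g h
    refine ⟨t (g * h) - t g * t h, ?_⟩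
    have h1 : ω (g * h) • r (g * h)⁻¹ = (ω h • r h⁻¹) * (ω g • r g⁻¹) := by
      rw [mul_inv_rev, map_mul, map_mul, smul_mul_smul_comm, mul_comm (ω g)]
    rw [hinv, hinv, hinv, map_mul] at h1
    simp only [mul_sub, sub_mul, smul_mul_assoc, mul_smul_comm, one_mul, mul_one, smul_sub,
      smul_smul] at h1
    simp only [J, sub_smul]
    simp only [mul_comm (t g) (t h)] at h1 ⊢
    linear_combination (norm := abel) -h1
  have hX : ∀ X : Matrix n n k, ∃ a : k, ∀ h, ∃ e : k, J X (r h) = t h • X + a • r h + e • 1 := by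
    intro X
    induction (hspan ▸ Submodule.mem_top : X ∈ Submodule.span k (Set.range r))
      using Submodule.span_induction with
    | mem x hx => obtain ⟨g, rfl⟩ := hx; exact ⟨t g, hgh g⟩
    | zero => exact ⟨0, fun h => ⟨0, by simp [J]⟩⟩
    | add x y _ _ hx hy =>
      obtain ⟨a, ha⟩ := hx
      obtain ⟨b, hb⟩ := hy
      refine ⟨a + b, fun h => ?_⟩
      obtain ⟨e₁, h₁⟩ := ha h
      obtain ⟨e₂, h₂⟩ := hb h
      refine ⟨e₁ + e₂, ?_⟩
      simp only [J, add_mul, mul_add, smul_add, add_smul] at h₁ h₂ ⊢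
      linear_combination (norm := abel) h₁ + h₂
    | smul c x _ hx =>
      obtain ⟨a, ha⟩ := hx
      refine ⟨c * a, fun h => ?_⟩
      obtain ⟨e, he⟩ := ha h
      refine ⟨c * e, ?_⟩
      simp only [J, smul_mul_assoc, mul_smul_comm, ← smul_add, smul_smul] at he ⊢
      rw [he]
      simp only [smul_add, smul_smul, mul_comm (t h) c]
  have hXY : ∀ X Y : Matrix n n k, ∃ a b e : k, J X Y = b • X + a • Y + e • 1 := by
    intro X Y
    obtain ⟨a, ha⟩ := hX X
    refine ⟨a, ?_⟩
    induction (hspan ▸ Submodule.mem_top : Y ∈ Submodule.span k (Set.range r))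
      using Submodule.span_induction with
    | mem y hy => obtain ⟨h, rfl⟩ := hy; exact ⟨t h, ha h⟩
    | zero => exact ⟨0, 0, by simp [J]⟩
    | add y y' _ _ hy hy' =>
      obtain ⟨b₁, e₁, h₁⟩ := hy
      obtain ⟨b₂, e₂, h₂⟩ := hy'
      refine ⟨b₁ + b₂, e₁ + e₂, ?_⟩
      simp only [J, add_mul, mul_add, smul_add, add_smul] at h₁ h₂ ⊢
      linear_combination (norm := abel) h₁ + h₂
    | smul c y _ hy =>
      obtain ⟨b, e, he⟩ := hy
      refine ⟨c * b, c * e, ?_⟩
      simp only [J, smul_mul_assoc, mul_smul_comm, ← smul_add, smul_smul] at he ⊢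
      rw [he]
      simp only [smul_add, smul_smul, mul_comm a c]
  by_contra hn
  obtain ⟨u, v, w, huv, huw, hvw⟩ := Fintype.two_lt_card_iff.mp (not_le.mp hn)
  obtain ⟨a, b, e, he⟩ := hXY (Matrix.single u v 1) (Matrix.single v w 1)
  have h1 := congrFun (congrFun he u) w
  simp [J, Matrix.single_apply, huv, huw, hvw, huw.symm, huv.symm, hvw.symm] at h1

/-- In dimension two the quadratic relations determine trace and determinant. -/
theorem trace_det_of_quadRel (r : G →* Matrix (Fin 2) (Fin 2) k) (ω : G →* k)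
    (hspan : Submodule.span k (Set.range r) = ⊤) (h : ∀ g, ∃ t, QuadRel (r g) t (ω g))
    (g : G) {t : k} (ht : QuadRel (r g) t (ω g)) :
    (r g).trace = t ∧ (r g).det = ω g := by
  have hCH : ∀ X : Matrix (Fin 2) (Fin 2) k, X * X - X.trace • X + X.det • 1 = 0 := by
    intro X
    ext i j
    fin_cases i <;> fin_cases j <;>
      simp [Matrix.mul_apply, Matrix.trace_fin_two, Matrix.det_fin_two] <;> ring
  have hns : ∀ X : Matrix (Fin 2) (Fin 2) k, (∀ c : k, X ≠ c • 1) → ∀ s w : k,
      QuadRel X s w → X.trace = s ∧ X.det = w := by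
    intro X hX s w hs
    have h1 : (X.trace - s) • X = (X.det - w) • (1 : Matrix (Fin 2) (Fin 2) k) := by
      have := hCH X
      unfold QuadRel at hs
      simp only [sub_smul]
      linear_combination (norm := abel) hs - this
    by_cases hs0 : X.trace - s = 0
    · refine ⟨sub_eq_zero.mp hs0, sub_eq_zero.mp ?_⟩
      rw [hs0, zero_smul] at h1
      simpa using (congrFun (congrFun h1 0) 0).symm
    · exfalso
      refine hX ((X.trace - s)⁻¹ * (X.det - w)) ?_
      rw [← smul_smul, ← h1, smul_smul, inv_mul_cancel₀ hs0, one_smul]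
  by_cases hg : ∀ c : k, r g ≠ c • 1
  · exact hns _ hg t (ω g) ht
  push Not at hg
  obtain ⟨c, hc⟩ := hg
  obtain ⟨g', hg'⟩ : ∃ g', ∀ c : k, r g' ≠ c • 1 := by
    by_contra hall
    push Not at hall
    have hle : Submodule.span k (Set.range r) ≤ k ∙ (1 : Matrix (Fin 2) (Fin 2) k) := by
      rw [Submodule.span_le]
      rintro _ ⟨g', rfl⟩
      obtain ⟨c', hc'⟩ := hall g'
      exact Submodule.mem_span_singleton.mpr ⟨c', hc'.symm⟩
    obtain ⟨a, ha⟩ := Submodule.mem_span_singleton.mp (hle
      (hspan ▸ Submodule.mem_top :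
        Matrix.single (0 : Fin 2) 1 (1 : k) ∈ Submodule.span k (Set.range r)))
    simpa using congrFun (congrFun ha 0) 1
  have hc0 : c ≠ 0 := by
    rintro rfl
    have h1 : r g * r g⁻¹ = 1 := by rw [← map_mul, mul_inv_cancel, map_one]
    rw [hc, zero_smul, zero_mul] at h1
    exact zero_ne_one h1
  obtain ⟨t', ht'⟩ := h g'
  obtain ⟨t'', ht''⟩ := h (g * g')
  have e1 := (hns _ hg' t' (ω g') ht').2
  have e2 := (hns _ (fun d hd => hg' (c⁻¹ * d) (by
    rw [map_mul, hc, smul_one_mul] at hd
    rw [← smul_smul, ← hd, smul_smul, inv_mul_cancel₀ hc0, one_smul])) t'' _ ht'').2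
  rw [map_mul, Matrix.det_mul, map_mul, e1] at e2
  have hω : ω g' ≠ 0 := fun h0 => by
    have h1 : ω g' * ω g'⁻¹ = 1 := by rw [← map_mul, mul_inv_cancel, map_one]
    simp [h0] at h1
  have hdet : (r g).det = ω g := mul_right_cancel₀ hω e2
  refine ⟨?_, hdet⟩
  have h1 := congrFun (congrFun (show _ = (0 : Matrix (Fin 2) (Fin 2) k) from ht) 0) 0
  rw [← hdet, hc] at h1
  simp [Matrix.mul_apply, Matrix.det_fin_two] at h1
  rw [hc]
  simp [Matrix.trace_fin_two]
  exact mul_right_cancel₀ hc0 (by linear_combination h1)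

theorem aeval_map_matrix {L m : Type*} [Field L] [Algebra k L] [Fintype m] [DecidableEq m]
    (X : Matrix m m k) (P : k[X]) :
    Polynomial.aeval (X.map (algebraMap k L)) P =
      (Polynomial.aeval X P).map (algebraMap k L) :=
  Polynomial.aeval_algHom_apply (Algebra.ofId k L).mapMatrix X P

/-- Left multiplication by a rectangular matrix. -/
def mulLeftMap {m n l : Type*} [Fintype m] (π : Matrix n m k) :
    Matrix m l k →ₗ[k] Matrix n l k where
  toFun X := π * X
  map_add' := Matrix.mul_add π
  map_smul' c X := Matrix.mul_smul π c X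

/-- Right multiplication by a rectangular matrix. -/
def mulRightMap {m n l : Type*} [Fintype m] (ι : Matrix m n k) :
    Matrix l m k →ₗ[k] Matrix l n k where
  toFun X := X * ι
  map_add' X Y := Matrix.add_mul X Y ι
  map_smul' c X := Matrix.smul_mul c X ι

end Helpers

section Attached

variable {G k L m : Type*} [Group G] [Field k] [Field L] [Algebra k L] [Fintype m] [DecidableEq m]

/-- `σ` is the 2-dimensional semisimple representation attached to `(ρ, ω)`: either `σ` is
absolutely irreducible and embeds in `ρ ⊗ L`, or `σ = χ ⊕ ω/χ` for an eigencharacter `χ` of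
`ρ ⊗ L`. -/
structure QuadAttached (ρ : G →* Matrix m m k) (ω : G →* k)
    (σ : G →* Matrix (Fin 2) (Fin 2) L) : Prop where
  trace_eq : ∀ g t, QuadRel (ρ g) t (ω g) → (σ g).trace = algebraMap k L t
  det_eq : ∀ g, (σ g).det = algebraMap k L (ω g)
  constituent :
    (Submodule.span L (Set.range σ) = ⊤ ∧
      ∃ (ι : Matrix m (Fin 2) L) (π : Matrix (Fin 2) m L), π * ι = 1 ∧
        ∀ g, (ρ g).map (algebraMap k L) * ι = ι * σ g) ∨
    ∃ (χ : G →* L) (v : m → L) (i : m), v i = 1 ∧
      (∀ g, ((ρ g).map (algebraMap k L)).mulVec v = χ g • v) ∧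
      ∀ g, σ g = Matrix.diagonal ![χ g, algebraMap k L (ω g) * χ g⁻¹]

variable {ρ : G →* Matrix m m k} {ω : G →* k} {σ : G →* Matrix (Fin 2) (Fin 2) L}

theorem QuadAttached.charpoly_eq (h : QuadAttached ρ ω σ) {g : G} {t : k}
    (ht : QuadRel (ρ g) t (ω g)) :
    (σ g).charpoly = X ^ 2 - C (algebraMap k L t) * X + C (algebraMap k L (ω g)) := by
  rw [Matrix.charpoly_fin_two, h.trace_eq g t ht, h.det_eq]

theorem QuadAttached.eq_one (h : QuadAttached ρ ω σ) {g : G} (h1 : ρ g = 1) (h2 : ω g = 1) :
    σ g = 1 := by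
  rcases h.constituent with ⟨-, ι, π, hπ, hι⟩ | ⟨χ, v, i, hvi, hv, hσ⟩
  · have := hι g
    rw [h1] at this
    calc σ g = π * ι * σ g := by rw [hπ, one_mul]
      _ = 1 := by rw [Matrix.mul_assoc, ← this]; simp [hπ]
  · have hχ : χ g = 1 := by
      have := congrFun (hv g) i
      simpa [h1, hvi] using this.symm
    have hχ' : χ g⁻¹ = 1 := by
      have : χ g⁻¹ * χ g = 1 := by rw [← map_mul, inv_mul_cancel, map_one]
      simpa [hχ] using this
    rw [hσ, h2, hχ, hχ']
    ext a b
    fin_cases a <;> fin_cases b <;> simp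

/-- Uniform linear expression of `σ` in terms of `ρ`, used for continuity and boundedness. -/
theorem QuadAttached.exists_linear (h : QuadAttached ρ ω σ) :
    ∃ L₁ L₂ : Matrix m m L →ₗ[L] Matrix (Fin 2) (Fin 2) L, ∀ g,
      σ g = L₁ ((ρ g).map (algebraMap k L)) +
        algebraMap k L (ω g) • L₂ ((ρ g⁻¹).map (algebraMap k L)) := by
  rcases h.constituent with ⟨-, ι, π, hπ, hι⟩ | ⟨χ, v, i, hvi, hv, hσ⟩
  · refine ⟨(mulRightMap ι).comp (mulLeftMap π), 0, fun g => ?_⟩
    simp [mulRightMap, mulLeftMap, Matrix.mul_assoc, hι, ← Matrix.mul_assoc π ι (σ g), hπ]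
  · let e : Matrix m m L →ₗ[L] L :=
      (LinearMap.proj i).comp ((LinearMap.applyₗ v).comp Matrix.toLin'.toLinearMap)
    have he : ∀ g, e ((ρ g).map (algebraMap k L)) = χ g := fun g => by
      simp [e, Matrix.toLin'_apply, hv g, hvi]
    refine ⟨(Matrix.singleLinearMap L 0 0).comp e, (Matrix.singleLinearMap L 1 1).comp e,
      fun g => ?_⟩
    simp only [LinearMap.comp_apply, he, hσ]
    ext a b
    fin_cases a <;> fin_cases b <;> simp [-algebraMap_smul]

/-- Either `σ` is killed by every polynomial killing `ρ`, or it is the sum of two characters, the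
first of which is. -/
theorem QuadAttached.aeval (h : QuadAttached ρ ω σ) :
    (∀ g, ∀ P : k[X], Polynomial.aeval (ρ g) P = 0 → Polynomial.aeval (σ g) P = 0) ∨
    ∃ χ : G →* L, (∀ g, (σ g).charpoly = (X - C (χ g)) * (X - C (algebraMap k L (ω g) * χ g⁻¹))) ∧
      ∀ g, ∀ P : k[X], Polynomial.aeval (ρ g) P = 0 → Polynomial.aeval (χ g) P = 0 := by
  rcases h.constituent with ⟨-, ι, π, hπ, hι⟩ | ⟨χ, v, i, hvi, hv, hσ⟩
  · left
    intro g P hP
    have key : ∀ Q : k[X], Polynomial.aeval ((ρ g).map (algebraMap k L)) Q * ι =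
        ι * Polynomial.aeval (σ g) Q := by
      intro Q
      induction Q using Polynomial.induction_on' with
      | add P Q hP hQ => simp [Matrix.add_mul, Matrix.mul_add, hP, hQ]
      | monomial j c =>
        simp only [aeval_monomial, Algebra.algebraMap_eq_smul_one, smul_one_mul, Matrix.smul_mul,
          Matrix.mul_smul]
        congr 1
        induction j with
        | zero => simp
        | succ j ih =>
          rw [pow_succ, pow_succ, Matrix.mul_assoc, hι, ← Matrix.mul_assoc, ih, Matrix.mul_assoc]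
    have h0 := key P
    rw [aeval_map_matrix, hP, Matrix.map_zero _ (map_zero _), Matrix.zero_mul] at h0
    calc Polynomial.aeval (σ g) P = π * ι * Polynomial.aeval (σ g) P := by rw [hπ, one_mul]
      _ = 0 := by rw [Matrix.mul_assoc, ← h0, Matrix.mul_zero]
  · right
    refine ⟨χ, fun g => ?_, fun g P hP => ?_⟩
    · rw [hσ, Matrix.charpoly_diagonal, Fin.prod_univ_two]
      rfl
    · have key : ∀ Q : k[X], (Polynomial.aeval ((ρ g).map (algebraMap k L)) Q).mulVec v =
          Polynomial.aeval (χ g) Q • v := by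
        intro Q
        induction Q using Polynomial.induction_on' with
        | add P Q hP hQ => simp [Matrix.add_mulVec, add_smul, hP, hQ]
        | monomial j c =>
          simp only [aeval_monomial, Algebra.algebraMap_eq_smul_one, smul_one_mul,
            Matrix.smul_mulVec, smul_assoc]
          congr 1
          induction j with
          | zero => simp
          | succ j ih =>
            rw [pow_succ, ← Matrix.mulVec_mulVec, hv, Matrix.mulVec_smul, ih, smul_smul,
              pow_succ, mul_comm]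
      have h0 := congrFun (key P) i
      rw [aeval_map_matrix, hP, Matrix.map_zero _ (map_zero _), Matrix.zero_mulVec] at h0
      simpa [hvi] using h0.symm

end Attached

/-- **Boston–Lenstra–Ribet**, algebraically closed coefficients. -/
theorem exists_quadAttached {G k m : Type*} [Group G] [Field k] [IsAlgClosed k] [Fintype m]
    [DecidableEq m] [Nonempty m] (ρ : G →* Matrix m m k) (ω : G →* k)
    (h : ∀ g, ∃ t, QuadRel (ρ g) t (ω g)) :
    ∃ σ : G →* Matrix (Fin 2) (Fin 2) k, QuadAttached ρ ω σ := by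
  choose t ht using h
  obtain ⟨W, ⟨hWne, hWst⟩, hWmin⟩ := (wellFounded_lt (α := Submodule k (m → k))).has_min
    {W | W ≠ ⊥ ∧ ∀ g, ∀ x ∈ W, (ρ g).mulVec x ∈ W}
    ⟨⊤, top_ne_bot, fun _ _ _ => Submodule.mem_top⟩
  obtain ⟨d, hd⟩ : ∃ d, Module.finrank k W = d := ⟨_, rfl⟩
  let b : Module.Basis (Fin d) k W := Module.finBasisOfFinrankEq k W hd
  let ι : Matrix m (Fin d) k := fun a j => (b j : m → k) a
  have hinj : LinearMap.ker (Matrix.toLin' ι) = ⊥ := by
    rw [LinearMap.ker_eq_bot']
    intro x hx
    have h1 : ∑ j, x j • b j = 0 := by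
      ext a
      have := congrFun hx a
      simpa [Matrix.mulVec, dotProduct, ι, mul_comm] using this
    funext j
    exact Fintype.linearIndependent_iff.mp b.linearIndependent x h1 j
  obtain ⟨πl, hπl⟩ := (Matrix.toLin' ι).exists_leftInverse_of_injective hinj
  let π : Matrix (Fin d) m k := LinearMap.toMatrix' πl
  have hπι : π * ι = 1 := by
    have : LinearMap.toMatrix' (πl.comp (Matrix.toLin' ι)) = 1 := by
      rw [hπl, LinearMap.toMatrix'_id]
    rwa [LinearMap.toMatrix'_comp, LinearMap.toMatrix'_toLin'] at this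
  have hmem : ∀ x : Fin d → k, ι.mulVec x ∈ W := by
    intro x
    have : ι.mulVec x = ((∑ j, x j • b j : W) : m → k) := by
      ext a; simp [Matrix.mulVec, dotProduct, ι, mul_comm]
    rw [this]; exact SetLike.coe_mem _
  have hrange : ∀ y ∈ W, ι.mulVec (π.mulVec y) = y := by
    intro y hy
    have : ι.mulVec (b.repr ⟨y, hy⟩) = y := by
      have h1 : ι.mulVec (b.repr ⟨y, hy⟩) =
          ((∑ j, b.repr ⟨y, hy⟩ j • b j : W) : m → k) := by
        ext a; simp [Matrix.mulVec, dotProduct, ι, mul_comm, -Module.Basis.sum_repr]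
      rw [h1, b.sum_repr]
    conv_lhs => rw [← this]
    rw [Matrix.mulVec_mulVec _ π, hπι, Matrix.one_mulVec]
    exact this
  let r : G →* Matrix (Fin d) (Fin d) k :=
    { toFun := fun g => π * ρ g * ι
      map_one' := by rw [map_one, Matrix.mul_one, hπι]
      map_mul' := fun g h => by
        refine Matrix.ext_of_mulVec_single fun j => ?_
        simp only [← Matrix.mulVec_mulVec, map_mul]
        rw [hrange _ (hWst h _ (hmem _))] }
  have hι : ∀ g, ρ g * ι = ι * r g := fun g => by
    refine Matrix.ext_of_mulVec_single fun j => ?_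
    simp only [r, MonoidHom.coe_mk, OneHom.coe_mk, ← Matrix.mulVec_mulVec]
    rw [hrange _ (hWst g _ (hmem _))]
  have hr : ∀ g, QuadRel (r g) (t g) (ω g) := fun g => quadRel_of_intertwine hπι (hι g) (ht g)
  have hd0 : 0 < d := by
    rcases Nat.eq_zero_or_pos d with h0 | h0
    · exact absurd (Submodule.finrank_eq_zero.mp (hd.trans h0)) hWne
    · exact h0
  have : Nonempty (Fin d) := ⟨⟨0, hd0⟩⟩
  have hspan : Submodule.span k (Set.range r) = ⊤ := by
    refine span_range_eq_top_of_forall_stable fun U hU => ?_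
    rw [or_iff_not_imp_left]
    intro hUne
    have hle : U.map (Matrix.toLin' ι) ≤ W := by rintro _ ⟨x, -, rfl⟩; exact hmem x
    have hst : U.map (Matrix.toLin' ι) ∈
        {W : Submodule k (m → k) | W ≠ ⊥ ∧ ∀ g, ∀ x ∈ W, (ρ g).mulVec x ∈ W} := by
      refine ⟨fun h0 => hUne ?_, ?_⟩
      · exact Submodule.map_injective_of_injective (f := Matrix.toLin' ι)
          (LinearMap.ker_eq_bot.mp hinj) (h0.trans (Submodule.map_bot _).symm)
      · rintro g _ ⟨x, hx, rfl⟩
        refine ⟨(r g).mulVec x, hU g x hx, ?_⟩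
        simp [Matrix.mulVec_mulVec, hι]
    have heq : U.map (Matrix.toLin' ι) = W := hle.eq_of_not_lt (hWmin _ hst)
    refine eq_top_iff.mpr fun x _ => ?_
    obtain ⟨y, hy, hyx⟩ : ι.mulVec x ∈ U.map (Matrix.toLin' ι) := heq ▸ hmem x
    rwa [← LinearMap.ker_eq_bot.mp hinj hyx]
  have hd2 : d ≤ 2 := by simpa using card_le_two_of_quadRel r ω hspan fun g => ⟨_, hr g⟩
  interval_cases d
  · let χ : G →* k :=
      { toFun := fun g => r g 0 0
        map_one' := by simp
        map_mul' := fun g h => by simp [Matrix.mul_apply] }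
    have hv : ∀ g, (ρ g).mulVec (fun a => ι a 0) = χ g • fun a => ι a 0 := fun g => by
      funext a
      have := congrFun (congrFun (hι g) a) 0
      simpa [Matrix.mul_apply, Matrix.mulVec, dotProduct, χ, mul_comm] using this
    obtain ⟨a, ha⟩ : ∃ a, ι a 0 ≠ 0 := by
      by_contra hno
      push Not at hno
      have := congrFun (congrFun hπι 0) 0
      simp [Matrix.mul_apply, hno] at this
    refine ⟨diagHom χ (quotChar χ ω), ?_, ?_, Or.inr ⟨χ, (ι a 0)⁻¹ • fun c => ι c 0, a, ?_, ?_, ?_⟩⟩
    · intro g t' ht'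
      have := congrFun (congrFun (quadRel_of_intertwine hπι (hι g) ht') 0) 0
      simp [QuadRel, Matrix.mul_apply] at this
      simpa [diagHom_apply, Matrix.trace_fin_two, quotChar_apply] using
        trace_of_root χ ω g (by linear_combination this)
    · intro g
      have h1 : χ g * χ g⁻¹ = 1 := by rw [← map_mul, mul_inv_cancel, map_one]
      rw [diagHom_apply, Matrix.det_diagonal, Fin.prod_univ_two]
      simp only [Matrix.cons_val_zero, Matrix.cons_val_one, quotChar_apply,
        Algebra.algebraMap_self, RingHom.id_apply]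
      linear_combination (ω g) * h1
    · simp [ha]
    · intro g
      simp only [Algebra.algebraMap_self, RingHom.coe_id, Matrix.map_id, Matrix.mulVec_smul, hv g,
        smul_smul, mul_comm]
    · intro g; simp [diagHom_apply, quotChar_apply]
  · refine ⟨r, fun g t' ht' => ?_, fun g => ?_, Or.inl ⟨hspan, ι, π, hπι, fun g => ?_⟩⟩
    · simpa using (trace_det_of_quadRel r ω hspan (fun g => ⟨_, hr g⟩) g
        (quadRel_of_intertwine hπι (hι g) ht')).1
    · simpa using (trace_det_of_quadRel r ω hspan (fun g => ⟨_, hr g⟩) g (hr g)).2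
    · simpa using hι g

/-- **Boston–Lenstra–Ribet**: over any field, `σ` is defined over a finite extension. -/
theorem exists_quadAttached_finite {G k m : Type*} [Group G] [Field k] [Fintype m]
    [DecidableEq m] [Nonempty m] (K : Type*) [Field K] [IsAlgClosed K] [Algebra k K]
    [Algebra.IsAlgebraic k K]
    (ρ : G →* Matrix m m k) (ω : G →* k) (h : ∀ g, ∃ t, QuadRel (ρ g) t (ω g)) :
    ∃ k' : IntermediateField k K, FiniteDimensional k k' ∧
      ∃ σ : G →* Matrix (Fin 2) (Fin 2) k', QuadAttached ρ ω σ := by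
  let f : k →+* K := algebraMap k K
  let ρK : G →* Matrix m m K := f.mapMatrix.toMonoidHom.comp ρ
  let ωK : G →* K := f.toMonoidHom.comp ω
  have hrel : ∀ g t, QuadRel (ρ g) t (ω g) → QuadRel (ρK g) (f t) (ωK g) := by
    intro g t ht
    have h1 := congrArg f.mapMatrix ht
    simpa [QuadRel, ρK, ωK, Matrix.map_smul', Matrix.map_add, Matrix.map_sub] using h1
  obtain ⟨σK, hσK⟩ := exists_quadAttached ρK ωK fun g => by
    obtain ⟨t, ht⟩ := h g
    exact ⟨f t, hrel g t ht⟩
  have hfd : ∀ S : Set K, S.Finite → FiniteDimensional k (IntermediateField.adjoin k S) :=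
    fun S hS => by
      have := hS.to_subtype
      exact IntermediateField.finiteDimensional_adjoin fun x _ => Algebra.IsIntegral.isIntegral x
  rcases hσK.constituent with ⟨hspan, ι, π, hπ, hι⟩ | ⟨χ, v, i, hvi, hv, hσ⟩
  · let S : Set K := Set.range (fun p : m × Fin 2 => ι p.1 p.2) ∪
      Set.range (fun p : Fin 2 × m => π p.1 p.2)
    let k' := IntermediateField.adjoin k S
    let e : k' →+* K := algebraMap k' K
    let ι' : Matrix m (Fin 2) k' := fun a j =>
      ⟨ι a j, IntermediateField.subset_adjoin k S (Or.inl ⟨(a, j), rfl⟩)⟩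
    let π' : Matrix (Fin 2) m k' := fun j a =>
      ⟨π j a, IntermediateField.subset_adjoin k S (Or.inr ⟨(j, a), rfl⟩)⟩
    have heι : ι'.map e = ι := rfl
    have heπ : π'.map e = π := rfl
    have hmap : ∀ g, (π' * (ρ g).map (algebraMap k k') * ι').map e = σK g := by
      intro g
      rw [Matrix.map_mul, Matrix.map_mul, heι, heπ, Matrix.map_map]
      have := hι g
      simp only [Algebra.algebraMap_self, RingHom.coe_id, Matrix.map_id] at this
      rw [Matrix.mul_assoc, show (ρ g).map (⇑e ∘ ⇑(algebraMap k k')) = ρK g from rfl, this,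
        ← Matrix.mul_assoc, hπ, one_mul]
    let σ : G →* Matrix (Fin 2) (Fin 2) k' :=
      { toFun := fun g => π' * (ρ g).map (algebraMap k k') * ι'
        map_one' := Matrix.map_injective e.injective (by
          dsimp only
          rw [hmap, map_one, Matrix.map_one _ (map_zero e) (map_one e)])
        map_mul' := fun g h => Matrix.map_injective e.injective (by
          dsimp only
          rw [hmap, Matrix.map_mul, hmap, hmap, map_mul]) }
    have hσ' : ∀ g, (σ g).map e = σK g := hmap
    refine ⟨k', hfd S ((Set.finite_range _).union (Set.finite_range _)), σ, ?_, ?_,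
      Or.inl ⟨?_, ι', π', ?_, ?_⟩⟩
    · intro g t ht
      apply e.injective
      rw [AddMonoidHom.map_trace, hσ', hσK.trace_eq g _ (hrel g t ht)]
      rfl
    · intro g
      apply e.injective
      rw [RingHom.map_det, RingHom.mapMatrix_apply, hσ', hσK.det_eq]
      rfl
    · refine span_eq_top_of_map_span_eq_top e (fun g => σ g) ?_
      simpa only [hσ'] using hspan
    · exact Matrix.map_injective e.injective (by
        dsimp only
        rw [Matrix.map_mul, heι, heπ, hπ, Matrix.map_one _ (map_zero e) (map_one e)])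
    · intro g
      refine Matrix.map_injective e.injective ?_
      dsimp only
      rw [Matrix.map_mul, Matrix.map_mul, Matrix.map_map, heι, hσ']
      have := hι g
      simp only [Algebra.algebraMap_self, RingHom.coe_id, Matrix.map_id] at this
      exact this
  · let k' := IntermediateField.adjoin k (Set.range v)
    let e : k' →+* K := algebraMap k' K
    let v' : m → k' := fun a => ⟨v a, IntermediateField.subset_adjoin k _ ⟨a, rfl⟩⟩
    have hχ : ∀ g, e ((((ρ g).map (algebraMap k k')).mulVec v') i) = χ g := by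
      intro g
      rw [RingHom.map_mulVec, Matrix.map_map]
      have := congrFun (hv g) i
      simp only [Pi.smul_apply, hvi, smul_eq_mul, mul_one, Algebra.algebraMap_self,
        RingHom.coe_id, Matrix.map_id] at this
      rw [← this]
      rfl
    let χ' : G →* k' :=
      { toFun := fun g => (((ρ g).map (algebraMap k k')).mulVec v') i
        map_one' := e.injective (by rw [hχ, map_one, map_one])
        map_mul' := fun g h => e.injective (by rw [hχ, map_mul e, hχ, hχ, map_mul]) }
    let ω' : G →* k' := (algebraMap k k').toMonoidHom.comp ω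
    have hdiag : ∀ g, (diagHom χ' (quotChar χ' ω') g).map e = σK g := by
      intro g
      rw [hσ, diagHom_apply, Matrix.diagonal_map (map_zero e)]
      congr 1
      funext j
      fin_cases j
      · simp [χ', hχ]
      · change e (ω' g * χ' g⁻¹) = algebraMap K K (ωK g) * χ g⁻¹
        rw [map_mul, show e (χ' g⁻¹) = χ g⁻¹ from hχ g⁻¹]
        rfl
    refine ⟨k', hfd _ (Set.finite_range v), diagHom χ' (quotChar χ' ω'), ?_, ?_,
      Or.inr ⟨χ', v', i, ?_, ?_, ?_⟩⟩
    · intro g t ht
      apply e.injective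
      rw [AddMonoidHom.map_trace, hdiag, hσK.trace_eq g _ (hrel g t ht)]
      rfl
    · intro g
      apply e.injective
      rw [RingHom.map_det, RingHom.mapMatrix_apply, hdiag, hσK.det_eq]
      rfl
    · exact e.injective (by rw [map_one]; exact hvi)
    · intro g
      funext a
      apply e.injective
      rw [RingHom.map_mulVec, Matrix.map_map, Pi.smul_apply, smul_eq_mul, map_mul e]
      have := congrFun (hv g) a
      simp only [Algebra.algebraMap_self, RingHom.coe_id, Matrix.map_id] at this
      rw [show e (χ' g) = χ g from hχ g]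
      exact this
    · intro g; simp [diagHom_apply, quotChar_apply, ω']

end Fermat.Agent.RepLemmas
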