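import Mathlib.RingTheory.PrincipalIdealDomain
import Mathlib.LinearAlgebra.FreeModule.PID
import Mathlib.RingTheory.Localization.FractionRing
import Mathlib.LinearAlgebra.Matrix.NonsingularInverse
import Mathlib.RingTheory.Localization.Module
import Mathlib.LinearAlgebra.StdBasis

/-!
# Stable lattices for bounded representations
-/

set_option autoImplicit false

namespace Fermat.Agent.RepLemmas

/-- A representation over the fraction field of a principal ideal domain with bounded denominators
has a stable lattice; the second part transports congruences (hence continuity). -/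
theorem exists_stable_lattice {G O K n : Type*} [Monoid G] [CommRing O] [IsDomain O]
    [IsPrincipalIdealRing O] [Field K] [Algebra O K] [IsFractionRing O K] [Fintype n]
    [DecidableEq n] (ρ : G →* Matrix n n K) (d : O) (hd : d ≠ 0)
    (hρ : ∀ g i j, algebraMap O K d * ρ g i j ∈ Set.range (algebraMap O K)) :
    ∃ (P : (Matrix n n K)ˣ) (ρ' : G →* Matrix n n O) (c : O), c ≠ 0 ∧
      (∀ g, (ρ' g).map (algebraMap O K) =
        ((P⁻¹ : (Matrix n n K)ˣ) : Matrix n n K) * ρ g * (P : Matrix n n K)) ∧
      ∀ (g : G) (I : Ideal O),
        (∀ i j, ∃ a ∈ I, ρ g i j - (1 : Matrix n n K) i j = algebraMap O K (c * a)) →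
        ∀ i j, ρ' g i j - (1 : Matrix n n O) i j ∈ I := by
  classical
  have hinj : Function.Injective (algebraMap O K) := IsFractionRing.injective O K
  have hdK : algebraMap O K d ≠ 0 := fun h => hd (hinj (by rw [h, map_zero]))
  -- the lattice generated by the orbit of the standard one
  let col : G × n → (n → K) := fun p i => ρ p.1 i p.2
  let M : Submodule O (n → K) := Submodule.span O (Set.range col)
  let f : (n → O) →ₗ[O] (n → K) :=
    { toFun := fun v i => (algebraMap O K d)⁻¹ * algebraMap O K (v i)
      map_add' := fun u v => by ext i; simp [mul_add]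
      map_smul' := fun a v => by ext i; simp [Algebra.smul_def]; ring }
  have hle : M ≤ LinearMap.range f := by
    refine Submodule.span_le.mpr ?_
    rintro _ ⟨⟨g, j⟩, rfl⟩
    choose a ha using fun i => hρ g i j
    exact ⟨a, funext fun i => by simp [f, col, ha, hdK]⟩
  have : Module.Finite O M := by
    have : IsNoetherian O (LinearMap.range f) := isNoetherian_range f
    have : Module.Finite O (Submodule.comap (LinearMap.range f).subtype M) :=
      Module.Finite.iff_fg.mpr (IsNoetherian.noetherian _)
    exact Module.Finite.equiv (Submodule.comapSubtypeEquivOfLe hle)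
  have : IsDomain K := inferInstance
  have : Module.IsTorsionFree O K :=
    Module.IsTorsionFree.of_smul_eq_zero fun r x h => by
      rw [Algebra.smul_def, mul_eq_zero] at h
      exact h.imp_left fun h' => hinj (by rw [h', map_zero])
  obtain ⟨m, b⟩ := Module.basisOfFiniteTypeTorsionFree' (R := O) (M := M)
  let v : Fin m → (n → K) := fun k => (b k : n → K)
  have hmemM : ∀ g j, col (g, j) ∈ M := fun g j => Submodule.subset_span ⟨(g, j), rfl⟩
  have hexp : ∀ x ∈ M, ∃ a : Fin m → O, x = ∑ k, algebraMap O K (a k) • v k := by
    intro x hx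
    refine ⟨fun k => b.repr ⟨x, hx⟩ k, ?_⟩
    have := congrArg Subtype.val (b.sum_repr ⟨x, hx⟩)
    simp only [AddSubmonoidClass.coe_finsetSum, Submodule.coe_smul] at this
    simpa only [algebraMap_smul] using this.symm
  have hone : ∀ j, (Pi.single j (1 : K) : n → K) ∈ M := by
    intro j
    have : col (1, j) = Pi.single j 1 := by
      funext i; simp [col, Matrix.one_apply, Pi.single_apply]
    exact this ▸ hmemM 1 j
  -- it is a lattice
  have hvli : LinearIndependent K v := by
    have hO : LinearIndependent O v :=
      b.linearIndependent.map' M.subtype (Submodule.ker_subtype M)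
    exact (LinearIndependent.iff_fractionRing O K).mp hO
  have hvsp : ⊤ ≤ Submodule.span K (Set.range v) := by
    rw [← (Pi.basisFun K n).span_eq]
    refine Submodule.span_le.mpr ?_
    rintro _ ⟨j, rfl⟩
    obtain ⟨a, ha⟩ := hexp _ (hone j)
    rw [SetLike.mem_coe, Pi.basisFun_apply, ha]
    exact Submodule.sum_mem _ fun k _ => Submodule.smul_mem _ _ (Submodule.subset_span ⟨k, rfl⟩)
  let B : Module.Basis (Fin m) K (n → K) := Module.Basis.mk hvli hvsp
  let e : Fin m ≃ n := B.indexEquiv (Pi.basisFun K n)
  -- change of basis matrix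
  let P₀ : Matrix n n K := Matrix.of fun i j => v (e.symm j) i
  choose aQ haQ using fun j => hexp _ (hone j)
  let Q : Matrix n n O := Matrix.of fun i j => aQ j (e.symm i)
  have hPQ : P₀ * Q.map (algebraMap O K) = 1 := by
    ext i j
    have h1 := congrFun (haQ j) i
    simp only [Finset.sum_apply, Pi.smul_apply, smul_eq_mul, Pi.single_apply] at h1
    rw [Matrix.mul_apply, Matrix.one_apply, h1]
    refine Fintype.sum_equiv e.symm _ _ fun k => ?_
    simp [P₀, Q, mul_comm]
  let P : (Matrix n n K)ˣ := ⟨P₀, Q.map (algebraMap O K), hPQ, mul_eq_one_comm.mp hPQ⟩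
  have hstab : ∀ g j, ∃ a : Fin m → O, (ρ g).mulVec (v j) = ∑ k, algebraMap O K (a k) • v k := by
    intro g j
    refine hexp _ ?_
    have hmap : M ≤ Submodule.comap ((Matrix.mulVecLin (ρ g)).restrictScalars O) M := by
      refine Submodule.span_le.mpr ?_
      rintro _ ⟨⟨h, l⟩, rfl⟩
      have : (ρ g).mulVec (col (h, l)) = col (g * h, l) := by
        funext i; simp [col, Matrix.mulVec, dotProduct, map_mul, Matrix.mul_apply]
      simpa [this] using hmemM (g * h) l
    exact hmap (b j).2
  choose aS haS using hstab
  let S : G → Matrix n n O := fun g => Matrix.of fun i j => aS g (e.symm j) (e.symm i)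
  have hS : ∀ g, (S g).map (algebraMap O K) =
      ((P⁻¹ : (Matrix n n K)ˣ) : Matrix n n K) * ρ g * (P : Matrix n n K) := by
    intro g
    have : ρ g * P₀ = P₀ * (S g).map (algebraMap O K) := by
      ext i j
      have h1 := congrFun (haS g (e.symm j)) i
      simp only [Finset.sum_apply, Pi.smul_apply, smul_eq_mul, Matrix.mulVec, dotProduct] at h1
      rw [Matrix.mul_apply, Matrix.mul_apply]
      refine h1.trans (Fintype.sum_equiv e _ _ fun k => ?_)
      simp [P₀, S, mul_comm]
    rw [mul_assoc]
    change _ = Q.map (algebraMap O K) * (ρ g * P₀)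
    rw [this, ← mul_assoc, mul_eq_one_comm.mp hPQ, one_mul]
  have hminj : Function.Injective fun A : Matrix n n O => A.map (algebraMap O K) :=
    fun A A' h => Matrix.map_injective hinj h
  refine ⟨P, { toFun := S, map_one' := hminj ?_, map_mul' := fun g h => hminj ?_ }, d, hd, hS,
    fun g I hI i j => ?_⟩
  · simp only [hS, map_one, mul_one, Units.inv_mul, Matrix.map_one, map_zero]
  · simp only [Matrix.map_mul, hS, map_mul]
    simp only [mul_assoc, Units.mul_inv_cancel_left]
  · -- congruences
    choose a haI ha using hI
    have hR : ∀ i j, ∃ r, algebraMap O K d * P₀ i j = algebraMap O K r := by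
      intro i j
      obtain ⟨w, hw⟩ := hle (b (e.symm j)).2
      refine ⟨w i, ?_⟩
      have hwi : (algebraMap O K d)⁻¹ * algebraMap O K (w i) = P₀ i j := congrFun hw i
      rw [← hwi, ← mul_assoc, mul_inv_cancel₀ hdK, one_mul]
    choose R hR using hR
    have hA : S g - 1 = Q * Matrix.of a * Matrix.of R := by
      apply hminj
      have hX : ρ g - 1 = algebraMap O K d • (Matrix.of a).map (algebraMap O K) := by
        ext i j; simp [ha, map_mul]
      have hRm : (Matrix.of R).map (algebraMap O K) = algebraMap O K d • P₀ := by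
        ext i j; simp [hR]
      simp only [Matrix.map_mul, Matrix.map_sub _ (map_sub (algebraMap O K)), hS, hRm,
        Matrix.map_one _ (map_zero _) (map_one _)]
      calc ((P⁻¹ : (Matrix n n K)ˣ) : Matrix n n K) * ρ g * (P : Matrix n n K) - 1
          = Q.map (algebraMap O K) * (ρ g - 1) * P₀ := by
            rw [mul_sub, mul_one, sub_mul, mul_eq_one_comm.mp hPQ]; rfl
        _ = _ := by rw [hX]; simp [mul_assoc]
    show (S g - 1) i j ∈ I
    rw [hA, Matrix.mul_apply]
    refine I.sum_mem fun k _ => I.mul_mem_right _ ?_
    rw [Matrix.mul_apply]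
    exact I.sum_mem fun l _ => I.mul_mem_left _ (haI l k)

end Fermat.Agent.RepLemmas
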