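import Fermat.Agent.RepLemmas.BrauerNesbitt
import Fermat.Agent.RepLemmas.Quadratic
import Fermat.Agent.GaloisMod.QuadraticRep
import Fermat.Agent.RepLemmas.Lattice
import Fermat.Agent.RepLemmas.DVRExtension
import Fermat.Prelude.Def_GaloisRep_Adic
import Mathlib.FieldTheory.Perfect
import Mathlib.RingTheory.AdicCompletion.Noetherian
import Mathlib.Tactic.ComputeDegree

/-!
# The representation lemmas for `Gal(ℚbar/ℚ)` in the Prelude's packaging
-/

set_option autoImplicit false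

namespace Fermat.Agent.RepLemmas

open Polynomial
open scoped TensorProduct

local notation "G" => (AlgebraicClosure ℚ ≃ₐ[ℚ] AlgebraicClosure ℚ)

section Helpers

theorem span_range_toMatrixHom_eq_top_iff {H A V n : Type*} [Monoid H] [CommRing A]
    [AddCommGroup V] [Module A V] [Fintype n] [DecidableEq n] (b : Module.Basis n A V)
    (ρ : H →* Module.End A V) :
    Submodule.span A (Set.range (toMatrixHom b ρ)) = ⊤ ↔
      Submodule.span A (Set.range ρ) = ⊤ := by
  let E := (LinearMap.toMatrixAlgEquiv b).toLinearEquiv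
  have h : (Submodule.span A (Set.range ρ)).map (E : Module.End A V →ₗ[A] Matrix n n A) =
      Submodule.span A (Set.range (toMatrixHom b ρ)) := by
    rw [Submodule.map_span, ← Set.range_comp]
    rfl
  rw [← h]
  refine ⟨fun h' => ?_, fun h' => ?_⟩
  · refine Submodule.map_injective_of_injective
      (f := (E : Module.End A V →ₗ[A] Matrix n n A)) E.injective ?_
    rw [h', Submodule.map_top, LinearEquiv.range]
  · rw [h', Submodule.map_top, LinearEquiv.range]

theorem matrix_trace_det_of_charpoly_eq {R : Type*} [CommRing R]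
    {M₁ M₂ : Matrix (Fin 2) (Fin 2) R} (h : M₁.charpoly = M₂.charpoly) :
    M₁.trace = M₂.trace ∧ M₁.det = M₂.det := by
  refine ⟨?_, ?_⟩
  · rw [Matrix.trace_eq_neg_charpoly_coeff M₁, Matrix.trace_eq_neg_charpoly_coeff M₂, h]
  · rw [Matrix.det_eq_sign_charpoly_coeff M₁, Matrix.det_eq_sign_charpoly_coeff M₂, h]

theorem matrix_trace_pow_eq {R : Type*} [CommRing R] {M₁ M₂ : Matrix (Fin 2) (Fin 2) R}
    (ht : M₁.trace = M₂.trace) (hd : M₁.det = M₂.det) (j : ℕ) :
    (M₁ ^ j).trace = (M₂ ^ j).trace := by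
  have hCH : ∀ (M : Matrix (Fin 2) (Fin 2) R) (j : ℕ),
      (M ^ (j + 2)).trace = M.trace * (M ^ (j + 1)).trace - M.det * (M ^ j).trace := by
    intro M j
    have h2 : M * M = M.trace • M - M.det • (1 : Matrix (Fin 2) (Fin 2) R) := by
      ext i j
      fin_cases i <;> fin_cases j <;>
        simp [Matrix.mul_apply, Matrix.trace_fin_two, Matrix.det_fin_two] <;> ring
    rw [pow_add, pow_two, h2, Matrix.mul_sub, Matrix.mul_smul, Matrix.mul_smul, Matrix.mul_one,
      ← pow_succ, Matrix.trace_sub, Matrix.trace_smul, Matrix.trace_smul]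
    rfl
  induction j using Nat.twoStepInduction with
  | zero => simp
  | one => simpa using ht
  | more j h₀ h₁ => rw [hCH, hCH, h₀, h₁, ht, hd]

theorem aeval_units_conj {R A : Type*} [CommRing R] [Ring A] [Algebra R A] (P : Aˣ) (x : A)
    (Q : R[X]) :
    Polynomial.aeval (((P⁻¹ : Aˣ) : A) * x * (P : A)) Q =
      ((P⁻¹ : Aˣ) : A) * Polynomial.aeval x Q * (P : A) := by
  induction Q using Polynomial.induction_on' with
  | add p q hp hq => simp [hp, hq, mul_add, add_mul]
  | monomial j c =>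
    rw [Polynomial.aeval_monomial, Polynomial.aeval_monomial, Units.conj_pow']
    simp only [Algebra.algebraMap_eq_smul_one, smul_mul_assoc, one_mul, mul_smul_comm]

theorem quadRel_iff_add_inv {H O A : Type*} [Group H] [CommRing O] [Ring A] [Algebra O A]
    (ρ : H →* A) (ω : H →* O) (g : H) (t : O) :
    QuadRel (ρ g) t (ω g) ↔ ρ g + ω g • ρ g⁻¹ = t • (1 : A) := by
  have e₁ : ρ g⁻¹ * ρ g = 1 := by rw [← map_mul, inv_mul_cancel, map_one]
  have e₂ : ρ g * ρ g⁻¹ = 1 := by rw [← map_mul, mul_inv_cancel, map_one]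
  constructor
  · intro h
    have h' := congrArg (ρ g⁻¹ * ·) h
    simp only [mul_add, mul_sub, ← mul_assoc, e₁, one_mul, mul_smul_comm, mul_one, mul_zero] at h'
    rwa [sub_add_eq_add_sub, sub_eq_zero] at h'
  · intro h
    have h' := congrArg (ρ g * ·) h
    simp only [mul_add, mul_smul_comm, e₂, mul_one] at h'
    unfold QuadRel
    rw [sub_add_eq_add_sub, h', sub_self]

theorem charpoly_map_eq_of_congr {A : Type} [CommRing A] [IsLocalRing A] (ρ : GaloisRepAdic A)
    (n : ℕ) (σ σ' : G)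
    (h : ∀ v, ρ.ρ (σ'⁻¹ * σ) v - v ∈
      (IsLocalRing.maximalIdeal A ^ n) • (⊤ : Submodule A ρ.V)) :
    (ρ.ρ σ).charpoly.map (Ideal.Quotient.mk (IsLocalRing.maximalIdeal A ^ n)) =
      (ρ.ρ σ').charpoly.map (Ideal.Quotient.mk (IsLocalRing.maximalIdeal A ^ n)) := by
  let b := Module.finBasisOfFinrankEq A ρ.V ρ.finrank_eq
  rw [← LinearMap.charpoly_toMatrix (ρ.ρ σ) b, ← LinearMap.charpoly_toMatrix (ρ.ρ σ') b,
    ← Matrix.charpoly_map, ← Matrix.charpoly_map]
  congr 1
  ext i j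
  rw [Matrix.map_apply, Matrix.map_apply, Ideal.Quotient.eq, LinearMap.toMatrix_apply,
    LinearMap.toMatrix_apply]
  have h1 : ρ.ρ σ (b j) - ρ.ρ σ' (b j) = ρ.ρ σ' (ρ.ρ (σ'⁻¹ * σ) (b j) - b j) := by
    rw [map_sub, ← Module.End.mul_apply, ← map_mul, mul_inv_cancel_left]
  have h2 : ∀ w ∈ (IsLocalRing.maximalIdeal A ^ n) • (⊤ : Submodule A ρ.V),
      b.repr (ρ.ρ σ' w) i ∈ IsLocalRing.maximalIdeal A ^ n := by
    intro w hw
    refine Submodule.smul_induction_on hw (fun r hr x _ => ?_) fun x y hx hy => ?_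
    · simpa using Ideal.mul_mem_right _ _ hr
    · simpa using Ideal.add_mem _ hx hy
  rw [← Finsupp.sub_apply, ← map_sub, h1]
  exact h2 _ (h (b j))

/-- The residual representation of a matrix homomorphism. -/
noncomputable def residualRepOfMatrix {k : Type} [Field k] (r : G →* Matrix (Fin 2) (Fin 2) k)
    (hr : GaloisFactorsThroughFiniteLevel r) : ResidualGaloisRep k where
  V := Fin 2 → k
  finrank_eq := by simp
  ρ := (Matrix.toLinAlgEquiv' (R := k) (n := Fin 2)).toAlgHom.toRingHom.toMonoidHom.comp r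
  factorsThroughFiniteLevel := by
    obtain ⟨L, hL, h⟩ := hr
    exact ⟨L, hL, fun σ hσ => by simp [h σ hσ]⟩

theorem residualRepOfMatrix_charpoly {k : Type} [Field k] (r : G →* Matrix (Fin 2) (Fin 2) k)
    (hr : GaloisFactorsThroughFiniteLevel r) (g : G) :
    ((residualRepOfMatrix r hr).ρ g).charpoly = (r g).charpoly :=
  Matrix.charpoly_toLin' (r g)

theorem residualRepOfMatrix_eq_one {k : Type} [Field k] (r : G →* Matrix (Fin 2) (Fin 2) k)
    (hr : GaloisFactorsThroughFiniteLevel r) {g : G} (h : r g = 1) :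
    (residualRepOfMatrix r hr).ρ g = 1 := by
  change Matrix.toLinAlgEquiv' (r g) = 1
  rw [h, map_one]

theorem factors_of_ker {M M' M'' : Type} [MulOneClass M] [MulOneClass M'] [MulOneClass M'']
    {ρ : G →* M} {ω : G →* M'} (hρ : GaloisFactorsThroughFiniteLevel ρ)
    (hω : GaloisFactorsThroughFiniteLevel ω) (σ : G →* M'')
    (h : ∀ g, ρ g = 1 → ω g = 1 → σ g = 1) : GaloisFactorsThroughFiniteLevel σ := by
  obtain ⟨L₁, hL₁, e₁⟩ := hρ
  obtain ⟨L₂, hL₂, e₂⟩ := hω
  exact ⟨L₁ ⊔ L₂, inferInstance, fun g hg => h g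
    (e₁ g fun x hx => hg x (le_sup_left (a := L₁) (b := L₂) hx))
    (e₂ g fun x hx => hg x (le_sup_right (a := L₁) (b := L₂) hx))⟩

/-- The adic representation of a continuous matrix homomorphism. -/
noncomputable def galoisRepAdicOfMatrix {A : Type} [CommRing A] [IsLocalRing A]
    (r : G →* Matrix (Fin 2) (Fin 2) A)
    (hr : ∀ n : ℕ, ∃ L : IntermediateField ℚ (AlgebraicClosure ℚ), FiniteDimensional ℚ L ∧
      ∀ g : G, (∀ x ∈ L, g x = x) → ∀ i j,
        r g i j - (1 : Matrix (Fin 2) (Fin 2) A) i j ∈ IsLocalRing.maximalIdeal A ^ n) :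
    GaloisRepAdic A where
  V := Fin 2 → A
  finrank_eq := by simp
  ρ := (Matrix.toLinAlgEquiv' (R := A) (n := Fin 2)).toAlgHom.toRingHom.toMonoidHom.comp r
  isAdicContinuous := by
    intro n
    obtain ⟨L, hL, h⟩ := hr n
    refine ⟨L, hL, fun g hg v => ?_⟩
    change (r g).mulVec v - v ∈ _
    have h1 : (r g).mulVec v - v = (r g - 1).mulVec v := by
      rw [Matrix.sub_mulVec, Matrix.one_mulVec]
    rw [h1, pi_eq_sum_univ' ((r g - 1).mulVec v)]
    refine Submodule.sum_mem _ fun i _ => Submodule.smul_mem_smul ?_ Submodule.mem_top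
    simp only [Matrix.mulVec, dotProduct]
    exact Ideal.sum_mem _ fun j _ => Ideal.mul_mem_right _ _ (h g hg i j)

theorem galoisRepAdicOfMatrix_charpoly {A : Type} [CommRing A] [IsLocalRing A]
    (r : G →* Matrix (Fin 2) (Fin 2) A) (hr) (g : G) :
    ((galoisRepAdicOfMatrix r hr).ρ g).charpoly = (r g).charpoly :=
  Matrix.charpoly_toLin' (r g)

theorem galoisRepAdicOfMatrix_eq_one {A : Type} [CommRing A] [IsLocalRing A]
    (r : G →* Matrix (Fin 2) (Fin 2) A) (hr) {g : G} (h : r g = 1) :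
    (galoisRepAdicOfMatrix r hr).ρ g = 1 := by
  change Matrix.toLinAlgEquiv' (r g) = 1
  rw [h, map_one]

theorem galoisRepAdicOfMatrix_aeval {A : Type} [CommRing A] [IsLocalRing A]
    (r : G →* Matrix (Fin 2) (Fin 2) A) (hr) (g : G) {Q : A[X]}
    (h : Polynomial.aeval (r g) Q = 0) :
    Polynomial.aeval ((galoisRepAdicOfMatrix r hr).ρ g) Q = 0 := by
  change Polynomial.aeval ((Matrix.toLinAlgEquiv' (R := A) (n := Fin 2)).toAlgHom (r g)) Q = 0
  rw [Polynomial.aeval_algHom_apply, h, map_zero]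

/-- A representation over the fraction field given linearly by an integral one has an integral
model, with continuity transported. -/
theorem exists_integral_model {H S F m : Type*} [Group H] [CommRing S] [IsDomain S]
    [IsDiscreteValuationRing S] [Field F] [Algebra S F] [IsFractionRing S F] [Fintype m]
    [DecidableEq m] (ρS : H →* Matrix m m S) (ωS : H →* S) (σ : H →* Matrix (Fin 2) (Fin 2) F)
    (L₁ L₂ : Matrix m m F →ₗ[F] Matrix (Fin 2) (Fin 2) F)
    (hL : ∀ g, σ g = L₁ ((ρS g).map (algebraMap S F)) +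
      algebraMap S F (ωS g) • L₂ ((ρS g⁻¹).map (algebraMap S F))) :
    ∃ (P : (Matrix (Fin 2) (Fin 2) F)ˣ) (σS : H →* Matrix (Fin 2) (Fin 2) S),
      (∀ g, (σS g).map (algebraMap S F) =
        ((P⁻¹ : (Matrix (Fin 2) (Fin 2) F)ˣ) : Matrix (Fin 2) (Fin 2) F) * σ g *
          (P : Matrix (Fin 2) (Fin 2) F)) ∧
      ∀ n, ∃ N, ∀ g, (∀ i j, (ρS g - 1) i j ∈ IsLocalRing.maximalIdeal S ^ N) →
        (∀ i j, (ρS g⁻¹ - 1) i j ∈ IsLocalRing.maximalIdeal S ^ N) →
        ωS g - 1 ∈ IsLocalRing.maximalIdeal S ^ N →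
        ∀ i j, σS g i j - (1 : Matrix (Fin 2) (Fin 2) S) i j ∈
          IsLocalRing.maximalIdeal S ^ n := by
  set e := algebraMap S F
  have heinj : Function.Injective e := IsFractionRing.injective S F
  let coef : (Fin 2 × (m × m)) × (Fin 2 × Fin 2) → F := fun q =>
    ((![L₁, L₂] q.1.1) (Matrix.single q.1.2.1 q.1.2.2 1)) q.2.1 q.2.2
  obtain ⟨⟨d, hd⟩, hdint⟩ :=
    IsLocalization.exist_integer_multiples_of_finite (nonZeroDivisors S) coef
  have hd0 : d ≠ 0 := nonZeroDivisors.ne_zero hd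
  have key : ∀ (J : Ideal S) (l : Fin 2) (M : Matrix m m S), (∀ i j, M i j ∈ J) → ∀ u w,
      ∃ z ∈ J, e d * ((![L₁, L₂] l) (M.map e)) u w = e z := by
    intro J l M hM u w
    choose y hy using fun i j => hdint ((l, (i, j)), (u, w))
    refine ⟨∑ i, ∑ j, M i j * y i j,
      J.sum_mem fun i _ => J.sum_mem fun j _ => J.mul_mem_right _ (hM i j), ?_⟩
    conv_lhs => rw [Matrix.matrix_eq_sum_single (M.map e)]
    simp only [map_sum, Matrix.sum_apply, Finset.mul_sum, map_mul]
    refine Finset.sum_congr rfl fun i _ => Finset.sum_congr rfl fun j _ => ?_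
    rw [show Matrix.single i j ((M.map e) i j) = (M.map e) i j • Matrix.single i j 1 by simp,
      map_smul, Matrix.smul_apply, smul_eq_mul,
      show e (y i j) = d • coef ((l, (i, j)), (u, w)) from hy i j, Algebra.smul_def]
    simp only [Matrix.map_apply, coef, e]
    ring
  have hbound : ∀ g u w, e d * σ g u w ∈ Set.range e := by
    intro g u w
    obtain ⟨z₁, -, hz₁⟩ := key ⊤ 0 (ρS g) (fun _ _ => trivial) u w
    obtain ⟨z₂, -, hz₂⟩ := key ⊤ 1 (ρS g⁻¹) (fun _ _ => trivial) u w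
    refine ⟨z₁ + ωS g * z₂, ?_⟩
    rw [hL g, Matrix.add_apply, Matrix.smul_apply, smul_eq_mul, map_add, map_mul, ← hz₁, ← hz₂]
    simp only [Matrix.cons_val_zero, Matrix.cons_val_one]
    ring
  obtain ⟨P, σS, c, hc, hP, hcong⟩ := exists_stable_lattice σ d hd0 hbound
  refine ⟨P, σS, hP, fun n => ?_⟩
  obtain ⟨ϖ, hϖ⟩ := IsDiscreteValuationRing.exists_irreducible S
  obtain ⟨v, u, huv⟩ :=
    IsDiscreteValuationRing.eq_unit_mul_pow_irreducible (mul_ne_zero hd0 hc) hϖ
  refine ⟨v + n, fun g hg hg' hw => hcong g _ fun i j => ?_⟩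
  obtain ⟨z₁, hz₁, e₁⟩ := key _ 0 (ρS g - 1) hg i j
  obtain ⟨z₂, hz₂, e₂⟩ := key _ 1 (ρS g⁻¹ - 1) hg' i j
  obtain ⟨z₃, -, e₃⟩ := key ⊤ 1 (1 : Matrix m m S) (fun _ _ => trivial) i j
  have hz : z₁ + ωS g * z₂ + (ωS g - 1) * z₃ ∈ IsLocalRing.maximalIdeal S ^ (v + n) :=
    Ideal.add_mem _ (Ideal.add_mem _ hz₁ (Ideal.mul_mem_left _ _ hz₂))
      (Ideal.mul_mem_right _ _ hw)
  rw [hϖ.maximalIdeal_eq, Ideal.span_singleton_pow, Ideal.mem_span_singleton] at hz
  obtain ⟨y, hy⟩ := hz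
  refine ⟨((u⁻¹ : Sˣ) : S) * (ϖ ^ n * y), ?_, ?_⟩
  · rw [hϖ.maximalIdeal_eq, Ideal.span_singleton_pow, Ideal.mem_span_singleton]
    exact ⟨((u⁻¹ : Sˣ) : S) * y, by ring⟩
  · have hed : e d ≠ 0 := fun h0 => hd0 (heinj (by rw [h0, map_zero]))
    refine mul_left_cancel₀ hed ?_
    have hdc : d * (c * (((u⁻¹ : Sˣ) : S) * (ϖ ^ n * y))) = ϖ ^ (v + n) * y := by
      rw [← mul_assoc, huv, pow_add]
      calc ((u : S) * ϖ ^ v) * (((u⁻¹ : Sˣ) : S) * (ϖ ^ n * y))
          = ((u : S) * ((u⁻¹ : Sˣ) : S)) * (ϖ ^ v * ϖ ^ n * y) := by ring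
        _ = ϖ ^ v * ϖ ^ n * y := by rw [Units.mul_inv, one_mul]
    rw [← map_mul, hdc, ← hy]
    rw [show (1 : Matrix (Fin 2) (Fin 2) F) = σ 1 from (map_one σ).symm, hL g, hL 1, inv_one,
      map_one ρS, map_one ωS, map_one e, one_smul]
    simp only [Matrix.map_sub e (fun x y => map_sub e x y), map_sub, Matrix.sub_apply,
      Matrix.cons_val_zero, Matrix.cons_val_one, mul_sub] at e₁ e₂ e₃
    simp only [Matrix.add_apply, Matrix.smul_apply, smul_eq_mul, map_add, map_mul, map_sub,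
      map_one]
    linear_combination e₁ + e (ωS g) * e₂ + (e (ωS g) - 1) * e₃

end Helpers

section Carayol

variable {A : Type} [CommRing A] [IsLocalRing A]

theorem residual_span_eq_top_of_isAbsolutelyIrreducible {k : Type} [Field k]
    (ρ : ResidualGaloisRep k) (h : ρ.IsAbsolutelyIrreducible) :
    Submodule.span k (Set.range ρ.ρ) = ⊤ := by
  let K := AlgebraicClosure k
  let b := Module.finBasisOfFinrankEq k ρ.V ρ.finrank_eq
  have hirr : IsIrred (ρ.baseChange K).ρ :=
    ⟨Module.nontrivial_of_finrank_eq_succ (ρ.baseChange K).finrank_eq, h⟩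
  have h1 := (span_range_toMatrixHom_eq_top_iff (Algebra.TensorProduct.basis K b)
    (ρ.baseChange K).ρ).mpr (span_range_eq_top_of_isIrred hirr)
  have h2 : ∀ g, toMatrixHom (Algebra.TensorProduct.basis K b) (ρ.baseChange K).ρ g =
      (toMatrixHom b ρ.ρ g).map (algebraMap k K) :=
    fun g => LinearMap.toMatrix_baseChange K (ρ.ρ g) b b
  refine (span_range_toMatrixHom_eq_top_iff b ρ.ρ).mp
    (span_eq_top_of_map_span_eq_top (algebraMap k K) _ ?_)
  rw [show (fun g => (toMatrixHom b ρ.ρ g).map (algebraMap k K)) =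
    fun g => toMatrixHom (Algebra.TensorProduct.basis K b) (ρ.baseChange K).ρ g
      from funext fun g => (h2 g).symm]
  exact h1

theorem span_eq_top_of_residual_isAbsolutelyIrreducible (ρ : GaloisRepAdic A)
    (h : ρ.residual.IsAbsolutelyIrreducible) : Submodule.span A (Set.range ρ.ρ) = ⊤ := by
  let b := Module.finBasisOfFinrankEq A ρ.V ρ.finrank_eq
  refine (span_range_toMatrixHom_eq_top_iff b ρ.ρ).mp (span_eq_top_of_residue _ ?_)
  have h1 := (span_range_toMatrixHom_eq_top_iff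
    (Algebra.TensorProduct.basis (IsLocalRing.ResidueField A) b) ρ.residual.ρ).mpr
      (residual_span_eq_top_of_isAbsolutelyIrreducible ρ.residual h)
  have h2 : ∀ g, toMatrixHom (Algebra.TensorProduct.basis (IsLocalRing.ResidueField A) b)
      ρ.residual.ρ g = (toMatrixHom b ρ.ρ g).map (IsLocalRing.residue A) :=
    fun g => LinearMap.toMatrix_baseChange (IsLocalRing.ResidueField A) (ρ.ρ g) b b
  rw [show (fun g => (toMatrixHom b ρ.ρ g).map (IsLocalRing.residue A)) =
    fun g => toMatrixHom (Algebra.TensorProduct.basis (IsLocalRing.ResidueField A) b)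
      ρ.residual.ρ g from funext fun g => (h2 g).symm]
  exact h1

theorem isAbsolutelyIrreducible_of_span_eq_top {k : Type} [Field k]
    (ρ : ResidualGaloisRep k) (h : Submodule.span k (Set.range ρ.ρ) = ⊤) :
    ρ.IsAbsolutelyIrreducible := by
  let K := AlgebraicClosure k
  let b := Module.finBasisOfFinrankEq k ρ.V ρ.finrank_eq
  have h2 : ∀ g, toMatrixHom (Algebra.TensorProduct.basis K b) (ρ.baseChange K).ρ g =
      (toMatrixHom b ρ.ρ g).map (algebraMap k K) :=
    fun g => LinearMap.toMatrix_baseChange K (ρ.ρ g) b b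
  have h1 := map_span_eq_top (algebraMap k K) _
    ((span_range_toMatrixHom_eq_top_iff b ρ.ρ).mpr h)
  rw [show (fun g => (toMatrixHom b ρ.ρ g).map (algebraMap k K)) =
    fun g => toMatrixHom (Algebra.TensorProduct.basis K b) (ρ.baseChange K).ρ g
      from funext fun g => (h2 g).symm] at h1
  have : Nontrivial (ρ.baseChange K).V :=
    Module.nontrivial_of_finrank_eq_succ (ρ.baseChange K).finrank_eq
  exact (isIrred_of_span_eq_top ((span_range_toMatrixHom_eq_top_iff _ _).mp h1)).2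

/-- **Carayol** for `GaloisRepAdic`, with traces. -/
theorem isEquiv_of_trace_eq (ρ₁ ρ₂ : GaloisRepAdic A)
    (h : ρ₁.residual.IsAbsolutelyIrreducible) (htr : ∀ σ, ρ₁.trace σ = ρ₂.trace σ) :
    ρ₁.IsEquiv ρ₂ := by
  obtain ⟨e, he⟩ := exists_linearEquiv_of_trace_eq
    (Module.finBasisOfFinrankEq A ρ₁.V ρ₁.finrank_eq)
    (Module.finBasisOfFinrankEq A ρ₂.V ρ₂.finrank_eq) ρ₁.ρ ρ₂.ρ
    (span_eq_top_of_residual_isAbsolutelyIrreducible ρ₁ h) htr
  exact ⟨⟨e, he⟩⟩

/-- **Carayol** for `GaloisRepAdic`, with characteristic polynomials. -/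
theorem isEquiv_of_charpoly_eq (ρ₁ ρ₂ : GaloisRepAdic A)
    (h : ρ₁.residual.IsAbsolutelyIrreducible)
    (hcp : ∀ σ, (ρ₁.ρ σ).charpoly = (ρ₂.ρ σ).charpoly) : ρ₁.IsEquiv ρ₂ := by
  refine isEquiv_of_trace_eq ρ₁ ρ₂ h fun σ => ?_
  let b₁ := Module.finBasisOfFinrankEq A ρ₁.V ρ₁.finrank_eq
  let b₂ := Module.finBasisOfFinrankEq A ρ₂.V ρ₂.finrank_eq
  unfold GaloisRepAdic.trace
  rw [LinearMap.trace_eq_matrix_trace A b₁, LinearMap.trace_eq_matrix_trace A b₂]
  have := hcp σ
  rw [← LinearMap.charpoly_toMatrix (ρ₁.ρ σ) b₁, ← LinearMap.charpoly_toMatrix (ρ₂.ρ σ) b₂] at this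
  exact (matrix_trace_det_of_charpoly_eq this).1

/-- Schur's lemma for residually absolutely irreducible representations. -/
theorem exists_eq_smul_of_commute (ρ : GaloisRepAdic A)
    (h : ρ.residual.IsAbsolutelyIrreducible) (f : Module.End A ρ.V)
    (hf : ∀ σ, f * ρ.ρ σ = ρ.ρ σ * f) : ∃ c : A, f = c • (1 : Module.End A ρ.V) := by
  let b := Module.finBasisOfFinrankEq A ρ.V ρ.finrank_eq
  obtain ⟨c, hc⟩ := exists_eq_scalar_of_commute (fun g => toMatrixHom b ρ.ρ g)
    ((span_range_toMatrixHom_eq_top_iff b ρ.ρ).mpr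
      (span_eq_top_of_residual_isAbsolutelyIrreducible ρ h))
    (LinearMap.toMatrixAlgEquiv b f) fun g => by
      change LinearMap.toMatrixAlgEquiv b f * LinearMap.toMatrixAlgEquiv b (ρ.ρ g) =
        LinearMap.toMatrixAlgEquiv b (ρ.ρ g) * LinearMap.toMatrixAlgEquiv b f
      rw [← map_mul, ← map_mul, hf]
  exact ⟨c, (LinearMap.toMatrixAlgEquiv b).injective (by rw [hc, map_smul, map_one])⟩

/-- **Brauer–Nesbitt** for residual representations. -/
theorem residual_isEquiv_of_charpoly_eq {k : Type} [Field k] (ρ₁ ρ₂ : ResidualGaloisRep k)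
    (h : ρ₁.IsIrreducible) (hcp : ∀ σ, (ρ₁.ρ σ).charpoly = (ρ₂.ρ σ).charpoly) :
    ρ₁.IsEquiv ρ₂ := by
  obtain ⟨e, he⟩ := exists_linearEquiv_of_charpoly_eq ρ₁.ρ ρ₂.ρ ρ₁.finrank_eq ρ₂.finrank_eq
    ⟨Module.nontrivial_of_finrank_eq_succ ρ₁.finrank_eq, h⟩ hcp
  exact ⟨⟨e, he⟩⟩

/-- Characteristic polynomials that agree on elements approximating every element agree
everywhere. -/
theorem charpoly_eq_of_approx [IsNoetherianRing A] (ρ₁ ρ₂ : GaloisRepAdic A)
    (h : ∀ L : IntermediateField ℚ (AlgebraicClosure ℚ), FiniteDimensional ℚ L →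
      ∀ σ : G, ∃ σ' : G, (∀ x ∈ L, σ' x = σ x) ∧
        (ρ₁.ρ σ').charpoly = (ρ₂.ρ σ').charpoly) (σ : G) :
    (ρ₁.ρ σ).charpoly = (ρ₂.ρ σ).charpoly := by
  have hmem : ∀ p ∈ Finset.range 2 ∪ {2}, ∀ n, ((ρ₁.ρ σ).charpoly - (ρ₂.ρ σ).charpoly).coeff p ∈
      IsLocalRing.maximalIdeal A ^ n := by
    intro p _ n
    obtain ⟨L₁, hL₁, hc₁⟩ := ρ₁.isAdicContinuous n
    obtain ⟨L₂, hL₂, hc₂⟩ := ρ₂.isAdicContinuous n
    have : FiniteDimensional ℚ L₁ := hL₁
    have : FiniteDimensional ℚ L₂ := hL₂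
    obtain ⟨σ', hσ', hcp⟩ := h (L₁ ⊔ L₂) inferInstance σ
    have hfix : ∀ x ∈ L₁ ⊔ L₂, (σ'⁻¹ * σ) x = x := fun x hx => by
      change σ'⁻¹ (σ x) = x
      rw [← hσ' x hx, ← AlgEquiv.mul_apply, inv_mul_cancel, AlgEquiv.one_apply]
    have e₁ := charpoly_map_eq_of_congr ρ₁ n σ σ' fun v =>
      hc₁ _ (fun x hx => hfix x (le_sup_left (a := L₁) (b := L₂) hx)) v
    have e₂ := charpoly_map_eq_of_congr ρ₂ n σ σ' fun v =>
      hc₂ _ (fun x hx => hfix x (le_sup_right (a := L₁) (b := L₂) hx)) v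
    rw [← Ideal.Quotient.eq_zero_iff_mem, ← Polynomial.coeff_map, Polynomial.map_sub, e₁, e₂, hcp,
      sub_self, Polynomial.coeff_zero]
  have hz : ∀ p, ((ρ₁.ρ σ).charpoly - (ρ₂.ρ σ).charpoly).coeff p = 0 := by
    intro p
    by_cases hp : p ∈ Finset.range 2 ∪ {2}
    · refine IsHausdorff.haus (inferInstance : IsHausdorff (IsLocalRing.maximalIdeal A) A) _
        fun n => ?_
      rw [SModEq.zero]
      simpa using hmem p hp n
    · have hd : ∀ ρ : GaloisRepAdic A, (ρ.ρ σ).charpoly.natDegree = 2 := fun ρ => by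
        rw [LinearMap.charpoly_natDegree, ρ.finrank_eq]
      simp only [Finset.mem_union, Finset.mem_range, Finset.mem_singleton, not_or, not_lt] at hp
      rw [Polynomial.coeff_sub, Polynomial.coeff_eq_zero_of_natDegree_lt,
        Polynomial.coeff_eq_zero_of_natDegree_lt, sub_zero] <;> rw [hd] <;> omega
  exact sub_eq_zero.mp (Polynomial.ext fun p => by rw [hz, Polynomial.coeff_zero])

end Carayol

/-- Equal characteristic polynomials pass to conjugates of powers (dimension 2). -/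
theorem charpoly_conj_pow_eq {H R V₁ V₂ : Type*} [Group H] [CommRing R] [Nontrivial R]
    [AddCommGroup V₁] [Module R V₁] [Module.Free R V₁] [Module.Finite R V₁]
    [AddCommGroup V₂] [Module R V₂] [Module.Free R V₂] [Module.Finite R V₂]
    (h₁ : Module.finrank R V₁ = 2) (h₂ : Module.finrank R V₂ = 2)
    (ρ₁ : H →* Module.End R V₁) (ρ₂ : H →* Module.End R V₂) {f : H}
    (hf : (ρ₁ f).charpoly = (ρ₂ f).charpoly) (x : H) (j : ℕ) :
    (ρ₁ (x * f ^ j * x⁻¹)).charpoly = (ρ₂ (x * f ^ j * x⁻¹)).charpoly := by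
  let b₁ := Module.finBasisOfFinrankEq R V₁ h₁
  let b₂ := Module.finBasisOfFinrankEq R V₂ h₂
  rw [← LinearMap.charpoly_toMatrix (ρ₁ f) b₁, ← LinearMap.charpoly_toMatrix (ρ₂ f) b₂] at hf
  rw [← LinearMap.charpoly_toMatrix _ b₁, ← LinearMap.charpoly_toMatrix _ b₂]
  obtain ⟨ht, hd⟩ := matrix_trace_det_of_charpoly_eq hf
  let r₁ := toMatrixHom b₁ ρ₁
  let r₂ := toMatrixHom b₂ ρ₂
  change (r₁ (x * f ^ j * x⁻¹)).charpoly = (r₂ (x * f ^ j * x⁻¹)).charpoly
  have hconj : ∀ r : H →* Matrix (Fin 2) (Fin 2) R,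
      (r (x * f ^ j * x⁻¹)).charpoly = (r f ^ j).charpoly := by
    intro r
    rw [← map_pow, map_mul, map_mul, Matrix.charpoly_mul_comm, ← mul_assoc, ← map_mul,
      inv_mul_cancel, map_one, one_mul]
  rw [hconj, hconj, Matrix.charpoly_fin_two, Matrix.charpoly_fin_two, Matrix.det_pow,
    Matrix.det_pow, show (r₁ f).det = (r₂ f).det from hd,
    show (r₁ f ^ j).trace = (r₂ f ^ j).trace from matrix_trace_pow_eq ht hd j]

/-- Residual representation attached to quadratic relations, algebraically closed coefficients. -/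
theorem exists_residualGaloisRep_of_quadRel {k : Type} [Field k] [IsAlgClosed k] {V : Type}
    [AddCommGroup V] [Module k V] [FiniteDimensional k V] [Nontrivial V]
    (ρ : G →* Module.End k V) (ω : G →* k) (hρ : GaloisFactorsThroughFiniteLevel ρ)
    (hω : GaloisFactorsThroughFiniteLevel ω) (h : ∀ g, ∃ t, QuadRel (ρ g) t (ω g)) :
    ∃ σ : ResidualGaloisRep k,
      (∀ g t, QuadRel (ρ g) t (ω g) →
        (σ.ρ g).charpoly = X ^ 2 - C t * X + C (ω g)) ∧
      ∀ g, ρ g = 1 → ω g = 1 → σ.ρ g = 1 := by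
  let d := Module.finrank k V
  let b := Module.finBasis k V
  have : Nonempty (Fin d) := ⟨⟨0, Module.finrank_pos⟩⟩
  obtain ⟨σ, hσ⟩ := exists_quadAttached (toMatrixHom b ρ) ω fun g => by
    obtain ⟨t, ht⟩ := h g
    exact ⟨t, ht.map (LinearMap.toMatrixAlgEquiv b).toAlgHom⟩
  have h1 : ∀ g, ρ g = 1 → ω g = 1 → σ g = 1 := fun g hg hω => hσ.eq_one
    (show LinearMap.toMatrixAlgEquiv b (ρ g) = 1 by rw [hg, map_one]) hω
  refine ⟨residualRepOfMatrix σ (factors_of_ker hρ hω σ h1), fun g t ht => ?_,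
    fun g hg hω => residualRepOfMatrix_eq_one σ _ (h1 g hg hω)⟩
  rw [residualRepOfMatrix_charpoly,
    hσ.charpoly_eq (ht.map (LinearMap.toMatrixAlgEquiv b).toAlgHom)]
  simp

/-- Residual representation attached to quadratic relations, finite coefficients. -/
theorem exists_residualGaloisRep_of_quadRel_finite {k : Type} [Field k] [Finite k] {V : Type}
    [AddCommGroup V] [Module k V] [FiniteDimensional k V] [Nontrivial V]
    (ρ : G →* Module.End k V) (ω : G →* k) (hρ : GaloisFactorsThroughFiniteLevel ρ)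
    (hω : GaloisFactorsThroughFiniteLevel ω) (h : ∀ g, ∃ t, QuadRel (ρ g) t (ω g)) :
    ∃ σ : ResidualGaloisRep k,
      (∀ g t, QuadRel (ρ g) t (ω g) →
        (σ.ρ g).charpoly = X ^ 2 - C t * X + C (ω g)) ∧
      ∀ g, ρ g = 1 → ω g = 1 → σ.ρ g = 1 := by
  obtain ⟨σ, h1, -, h2⟩ := Fermat.Agent.GaloisMod.exists_matrixRep_of_quadRel ρ ω h
  exact ⟨residualRepOfMatrix σ (factors_of_ker hρ hω σ h1),
    fun g t ht => (residualRepOfMatrix_charpoly σ _ g).trans (h2 g t ht),
    fun g hg hω => residualRepOfMatrix_eq_one σ _ (h1 g hg hω)⟩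

/-- The quadratic relation is closed: it holds at `g` if it holds at arbitrarily good
approximations of `g`. -/
theorem exists_quadRel_of_approx {O : Type*} [CommRing O] (I : Ideal O) [IsHausdorff I O]
    {H : Type*} [Group H] {m : Type*} [Fintype m] [DecidableEq m] [Nonempty m]
    (ρ : H →* Matrix m m O) (ω : H →* O) (g : H)
    (h : ∀ n : ℕ, ∃ g' : H, (∀ i j, ρ g' i j - ρ g i j ∈ I ^ n) ∧
      (∀ i j, ρ g'⁻¹ i j - ρ g⁻¹ i j ∈ I ^ n) ∧ ω g' - ω g ∈ I ^ n ∧
      ∃ t, QuadRel (ρ g') t (ω g')) :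
    ∃ t, QuadRel (ρ g) t (ω g) := by
  obtain ⟨i₀⟩ := ‹Nonempty m›
  let Y : H → Matrix m m O := fun x => ρ x + ω x • ρ x⁻¹
  refine ⟨Y g i₀ i₀, (quadRel_iff_add_inv ρ ω g _).mpr ?_⟩
  ext i j
  rw [← sub_eq_zero]
  refine IsHausdorff.haus (inferInstance : IsHausdorff I O) _ fun n => ?_
  obtain ⟨g', hρ, hρ', hω, t, ht⟩ := h n
  rw [quadRel_iff_add_inv] at ht
  have hY : ∀ i j, Ideal.Quotient.mk (I ^ n) (Y g i j) = Ideal.Quotient.mk (I ^ n) (Y g' i j) := by
    intro i j
    have e1 := Ideal.Quotient.eq.mpr (hρ i j)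
    have e2 := Ideal.Quotient.eq.mpr (hρ' i j)
    have e3 := Ideal.Quotient.eq.mpr hω
    simp [Y, e1, e2, e3]
  rw [SModEq.zero, smul_eq_mul, Ideal.mul_top, ← Ideal.Quotient.eq_zero_iff_mem, map_sub,
    Matrix.smul_apply, smul_eq_mul, map_mul, show (ρ g + ω g • ρ g⁻¹) i j = Y g i j from rfl,
    hY, hY, show Y g' = t • 1 from ht]
  simp

/-- Adic representation attached to quadratic relations: exists over the integers of a finite
extension. -/
theorem exists_galoisRepAdic_of_quadRel (O : Type) [CommRing O] [IsDomain O]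
    [IsDiscreteValuationRing O] [IsAdicComplete (IsLocalRing.maximalIdeal O) O]
    [Finite (IsLocalRing.ResidueField O)] [CharZero O]
    {m : Type} [Fintype m] [DecidableEq m] [Nonempty m]
    (ρ : G →* Matrix m m O) (ω : G →* O)
    (hρ : ∀ n : ℕ, ∃ L : IntermediateField ℚ (AlgebraicClosure ℚ), FiniteDimensional ℚ L ∧
      ∀ g : G, (∀ x ∈ L, g x = x) →
        (∀ i j, ρ g i j - (1 : Matrix m m O) i j ∈ IsLocalRing.maximalIdeal O ^ n) ∧
        ω g - 1 ∈ IsLocalRing.maximalIdeal O ^ n)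
    (h : ∀ g, ∃ t, QuadRel (ρ g) t (ω g)) :
    ∃ (O'' : Type) (_ : CommRing O'') (_ : IsDomain O'') (_ : IsDiscreteValuationRing O'')
      (_ : IsAdicComplete (IsLocalRing.maximalIdeal O'') O'')
      (_ : Finite (IsLocalRing.ResidueField O'')) (_ : CharZero O'')
      (_ : Algebra O O'') (_ : Module.Finite O O'') (_ : IsLocalHom (algebraMap O O'')),
      Function.Injective (algebraMap O O'') ∧
      ∃ σ : GaloisRepAdic O'',
        (∀ g t, QuadRel (ρ g) t (ω g) →
          (σ.ρ g).charpoly = X ^ 2 - C (algebraMap O O'' t) * X + C (algebraMap O O'' (ω g))) ∧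
        (∀ g, ρ g = 1 → ω g = 1 → σ.ρ g = 1) ∧
        ((∀ g, ∀ P : O[X], Polynomial.aeval (ρ g) P = 0 →
            Polynomial.aeval (σ.ρ g) (P.map (algebraMap O O'')) = 0) ∨
          ∃ χ : G →* O'',
            (∀ g, (σ.ρ g).charpoly =
              (X - C (χ g)) * (X - C (algebraMap O O'' (ω g) * χ g⁻¹))) ∧
            ∀ g, ∀ P : O[X], Polynomial.aeval (ρ g) P = 0 →
              Polynomial.aeval (χ g) P = 0) := by
  let K := FractionRing O
  let KB := AlgebraicClosure K
  let ρK : G →* Matrix m m K := (algebraMap O K).mapMatrix.toMonoidHom.comp ρ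
  let ωK : G →* K := (algebraMap O K).toMonoidHom.comp ω
  have hinjO : Function.Injective (algebraMap O K) := IsFractionRing.injective O K
  have hrelK : ∀ g t, QuadRel (ρ g) t (ω g) → QuadRel (ρK g) (algebraMap O K t) (ωK g) := by
    intro g t ht
    have h1 := congrArg (algebraMap O K).mapMatrix ht
    simpa [QuadRel, ρK, ωK, Matrix.map_smul', Matrix.map_add, Matrix.map_sub] using h1
  obtain ⟨k', hk', σ, hσ⟩ := exists_quadAttached_finite KB ρK ωK fun g => by
    obtain ⟨t, ht⟩ := h g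
    exact ⟨_, hrelK g t ht⟩
  have : FiniteDimensional K k' := hk'
  have : CharZero K := charZero_of_injective_algebraMap hinjO
  have : Algebra.IsSeparable K k' := Algebra.IsAlgebraic.isSeparable_of_perfectField
  obtain ⟨hdvr, hfin, hloc, hinj, hfrac, hcompl, hres⟩ := integralClosure_isDVR O K k'
  let S := integralClosure O k'
  let e : S →+* k' := algebraMap S k'
  have heinj : Function.Injective e := Subtype.val_injective
  let a : O →+* S := algebraMap O S
  have htow : ∀ x : O, e (a x) = algebraMap K k' (algebraMap O K x) := fun x =>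
    (IsScalarTower.algebraMap_apply O K k' x)
  have : CharZero S := charZero_of_injective_algebraMap hinj
  have hρK : ∀ g, (ρK g).map (algebraMap K k') = (ρ g).map (e.comp a) := fun g => by
    ext i j; simp [ρK, htow]
  let ρS : G →* Matrix m m S := a.mapMatrix.toMonoidHom.comp ρ
  let ωS : G →* S := a.toMonoidHom.comp ω
  have hρS : ∀ g, (ρK g).map (algebraMap K k') = (ρS g).map e := fun g => by
    ext i j; simp [ρK, ρS, htow]
  have hωS : ∀ g, algebraMap K k' (ωK g) = e (a (ω g)) := fun g => by simp [ωK, htow]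
  obtain ⟨L₁, L₂, hL⟩ := hσ.exists_linear
  obtain ⟨P, σS, hP, hcont'⟩ := exists_integral_model ρS ωS σ L₁ L₂ fun g => by
    rw [hL g, hρS, hρS, hωS]
    rfl
  have hP' : ∀ g, (σS g).map e =
      ((P⁻¹ : (Matrix (Fin 2) (Fin 2) k')ˣ) : Matrix (Fin 2) (Fin 2) k') * σ g *
        (P : Matrix (Fin 2) (Fin 2) k') := hP
  have hone : ∀ g, σ g = 1 → σS g = 1 := fun g hg => Matrix.map_injective heinj (by
    dsimp only
    rw [hP', hg, Matrix.map_one _ (map_zero e) (map_one e), Matrix.mul_one, Units.inv_mul])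
  have hmap : ∀ (N : ℕ) (x : O), x ∈ IsLocalRing.maximalIdeal O ^ N →
      a x ∈ IsLocalRing.maximalIdeal S ^ N := by
    intro N x hx
    have h1 := Ideal.mem_map_of_mem a hx
    rw [Ideal.map_pow] at h1
    exact Ideal.pow_right_mono (Ideal.map_le_iff_le_comap.mpr fun y hy =>
      Ideal.mem_comap.mpr (map_nonunit a y hy)) N h1
  have hcont : ∀ n : ℕ, ∃ L : IntermediateField ℚ (AlgebraicClosure ℚ), FiniteDimensional ℚ L ∧
      ∀ g : G, (∀ x ∈ L, g x = x) →
        ∀ i j, σS g i j - (1 : Matrix (Fin 2) (Fin 2) S) i j ∈ IsLocalRing.maximalIdeal S ^ n := by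
    intro n
    obtain ⟨N, hN⟩ := hcont' n
    obtain ⟨L, hLfin, hL'⟩ := hρ N
    refine ⟨L, hLfin, fun g hg => ?_⟩
    have hg' : ∀ x ∈ L, g⁻¹ x = x := fun x hx => by
      conv_lhs => rw [← hg x hx]
      rw [← AlgEquiv.mul_apply, inv_mul_cancel, AlgEquiv.one_apply]
    have hM : ∀ x : G, (∀ y ∈ L, x y = y) → ∀ i j,
        (ρS x - 1) i j ∈ IsLocalRing.maximalIdeal S ^ N := by
      intro x hx i j
      have h1 := hmap _ _ ((hL' x hx).1 i j)
      simpa [ρS, map_sub, Matrix.one_apply, apply_ite a] using h1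
    refine hN g (hM g hg) (hM _ hg') ?_
    simpa [ωS] using hmap _ _ (hL' g hg).2
  refine ⟨S, inferInstance, inferInstance, hdvr, hcompl, hres inferInstance, inferInstance,
    inferInstance, hfin, hloc, hinj, galoisRepAdicOfMatrix σS hcont, ?_, ?_, ?_⟩
  · intro g t ht
    rw [galoisRepAdicOfMatrix_charpoly]
    apply Polynomial.map_injective e heinj
    rw [← Matrix.charpoly_map, hP', Matrix.coe_units_inv, Matrix.charpoly_units_conj', hσ.charpoly_eq (hrelK g t ht)]
    simp [htow, ωK, a, S]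
  · intro g h1 h2
    refine galoisRepAdicOfMatrix_eq_one σS hcont (hone g (hσ.eq_one ?_ ?_))
    · simp [ρK, h1]
    · simp [ωK, h2]
  · have hρKP : ∀ g, ∀ Q : O[X], Polynomial.aeval (ρ g) Q = 0 →
        Polynomial.aeval (ρK g) (Q.map (algebraMap O K)) = 0 := fun g Q hQ => by
      rw [Polynomial.aeval_map_algebraMap,
        show ρK g = (Algebra.ofId O K).mapMatrix (ρ g) from rfl, Polynomial.aeval_algHom_apply,
        hQ, map_zero]
    rcases hσ.aeval with hl | ⟨χ, hχ₁, hχ₂⟩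
    · left
      intro g Q hQ
      refine galoisRepAdicOfMatrix_aeval σS hcont g ?_
      rw [Polynomial.aeval_map_algebraMap]
      apply Matrix.map_injective heinj
      dsimp only
      rw [Matrix.map_zero _ (map_zero e)]
      change (IsScalarTower.toAlgHom O S k').mapMatrix (Polynomial.aeval (σS g) Q) = 0
      rw [← Polynomial.aeval_algHom_apply,
        show (IsScalarTower.toAlgHom O S k').mapMatrix (σS g) = (σS g).map e from rfl, hP',
        aeval_units_conj]
      have h0 := hl g _ (hρKP g Q hQ)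
      rw [Polynomial.aeval_map_algebraMap] at h0
      rw [h0, mul_zero, zero_mul]
    · right
      have hint : ∀ g, χ g ∈ S := fun g => by
        obtain ⟨t, ht⟩ := h g
        refine (show IsIntegral O (χ g) from
          ⟨X ^ 2 - C t * X + C (ω g), by monicity!, ?_⟩)
        have h0 := hχ₂ g _ (hρKP g _ ((quadRel_iff_aeval (ρ g) t (ω g)).mp ht))
        rwa [Polynomial.aeval_map_algebraMap] at h0
      let χS : G →* S :=
        { toFun := fun g => ⟨χ g, hint g⟩
          map_one' := Subtype.ext (map_one χ)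
          map_mul' := fun g h => Subtype.ext (map_mul χ g h) }
      refine ⟨χS, fun g => ?_, fun g Q hQ => ?_⟩
      · rw [galoisRepAdicOfMatrix_charpoly]
        apply Polynomial.map_injective e heinj
        rw [← Matrix.charpoly_map, hP', Matrix.coe_units_inv, Matrix.charpoly_units_conj', hχ₁ g]
        simp [hωS, χS, e, a]
      · apply heinj
        rw [map_zero]
        change IsScalarTower.toAlgHom O S k' (Polynomial.aeval (χS g) Q) = 0
        rw [← Polynomial.aeval_algHom_apply]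
        have h0 := hχ₂ g _ (hρKP g Q hQ)
        rwa [Polynomial.aeval_map_algebraMap] at h0

end Fermat.Agent.RepLemmas
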