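import Fermat.Agent.RepLemmas.Carayol
import Fermat.Agent.RepLemmas.Quadratic
import Mathlib.Algebra.MonoidAlgebra.Basic
import Mathlib.Algebra.MonoidAlgebra.Module

/-!
# Boston–Lenstra–Ribet over a commutative ring

If `ρ₀ : G → M₂(A)` spans the matrix algebra and `V` is an `A[G]`-module on which every `g` is a
root of the characteristic polynomial of `ρ₀ g`, then the action on `V` factors through `ρ₀`:
`V` is a sum of copies of `ρ₀` (Morita).
-/

set_option autoImplicit false

namespace Fermat.Agent.RepLemmas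

open MonoidAlgebra

variable {A G : Type*} [CommRing A] [Group G]

/-- The quadratic relation of a two by two matrix (Cayley–Hamilton). -/
theorem quadRel_trace_det_ring (X : Matrix (Fin 2) (Fin 2) A) :
    QuadRel X X.trace X.det := by
  unfold QuadRel
  ext i j
  fin_cases i <;> fin_cases j <;>
    simp [Matrix.mul_apply, Matrix.trace_fin_two, Matrix.det_fin_two] <;> ring

theorem add_omega_inv_of_quadRel {B : Type*} [Ring B] [Algebra A B] (ρ : G →* B) (ω : G →* A)
    (g : G) (t : A) (h : QuadRel (ρ g) t (ω g)) : ρ g + ω g • ρ g⁻¹ = t • (1 : B) := by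
  have e₁ : ρ g⁻¹ * ρ g = 1 := by rw [← map_mul, inv_mul_cancel, map_one]
  have h' := congrArg (ρ g⁻¹ * ·) (show _ = (0 : B) from h)
  simp only [mul_add, mul_sub, ← mul_assoc, e₁, one_mul, mul_smul_comm, mul_one, mul_zero] at h'
  rwa [sub_add_eq_add_sub, sub_eq_zero] at h'

/-- The anti-involution `g ↦ ω g • g⁻¹` of the group algebra. -/
noncomputable def twistStar (ω : G →* A) : MonoidAlgebra A G →ₗ[A] MonoidAlgebra A G :=
  (MonoidAlgebra.basis G A).constr A fun g => MonoidAlgebra.single g⁻¹ (ω g)

theorem twistStar_single (ω : G →* A) (g : G) (a : A) :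
    twistStar ω (MonoidAlgebra.single g a) = MonoidAlgebra.single g⁻¹ (a * ω g) := by
  have h : MonoidAlgebra.single g a = a • MonoidAlgebra.single g (1 : A) := by simp
  rw [h, map_smul, ← MonoidAlgebra.basis_apply, twistStar, Module.Basis.constr_basis]
  simp

theorem twistStar_mul (ω : G →* A) (c d : MonoidAlgebra A G) :
    twistStar ω (c * d) = twistStar ω d * twistStar ω c := by
  induction c using MonoidAlgebra.induction_linear with
  | zero => simp
  | add x y hx hy => rw [add_mul, map_add, map_add, mul_add, hx, hy]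
  | single g a =>
    induction d using MonoidAlgebra.induction_linear with
    | zero => simp
    | add x y hx hy => rw [mul_add, map_add, map_add, add_mul, hx, hy]
    | single h b =>
      rw [MonoidAlgebra.single_mul_single, twistStar_single, twistStar_single, twistStar_single,
        MonoidAlgebra.single_mul_single, mul_inv_rev, map_mul]
      congr 1
      ring

theorem twistStar_twistStar (ω : G →* A) (c : MonoidAlgebra A G) :
    twistStar ω (twistStar ω c) = c := by
  induction c using MonoidAlgebra.induction_linear with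
  | zero => simp
  | add x y hx hy => rw [map_add, map_add, hx, hy]
  | single g a =>
    rw [twistStar_single, twistStar_single, inv_inv, mul_assoc, ← map_mul, mul_inv_cancel,
      map_one, mul_one]

section

variable {B : Type*} [Ring B] [Algebra A B] (ρ₀ : G →* Matrix (Fin 2) (Fin 2) A) (ρ : G →* B)

/-- The determinant character. -/
def detChar : G →* A := Matrix.detMonoidHom.comp ρ₀

theorem lift_add_twistStar (hρ : ∀ g, QuadRel (ρ g) (ρ₀ g).trace (ρ₀ g).det)
    (c : MonoidAlgebra A G) :
    MonoidAlgebra.lift A B G ρ c + MonoidAlgebra.lift A B G ρ (twistStar (detChar ρ₀) c) =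
      (MonoidAlgebra.lift A (Matrix (Fin 2) (Fin 2) A) G ρ₀ c).trace • (1 : B) := by
  induction c using MonoidAlgebra.induction_linear with
  | zero => simp
  | add x y hx hy =>
    rw [map_add, map_add, map_add, map_add, Matrix.trace_add, add_smul, ← hx, ← hy]
    abel
  | single g a =>
    rw [twistStar_single, MonoidAlgebra.lift_single, MonoidAlgebra.lift_single,
      MonoidAlgebra.lift_single, Matrix.trace_smul, smul_eq_mul, mul_smul a (detChar ρ₀ g),
      mul_smul a (ρ₀ g).trace, ← smul_add,
      add_omega_inv_of_quadRel ρ (detChar ρ₀) g _ (hρ g)]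

/-- The norm `c ↦ c c*` takes the same scalar values under `ρ` and under `ρ₀`. -/
theorem exists_lift_mul_twistStar (hρ : ∀ g, QuadRel (ρ g) (ρ₀ g).trace (ρ₀ g).det)
    (c : MonoidAlgebra A G) :
    ∃ δ : A, MonoidAlgebra.lift A B G ρ c * MonoidAlgebra.lift A B G ρ
        (twistStar (detChar ρ₀) c) = δ • 1 ∧
      MonoidAlgebra.lift A (Matrix (Fin 2) (Fin 2) A) G ρ₀ c *
        MonoidAlgebra.lift A (Matrix (Fin 2) (Fin 2) A) G ρ₀ (twistStar (detChar ρ₀) c) =
          δ • 1 := by
  induction c using MonoidAlgebra.induction_linear with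
  | zero => exact ⟨0, by simp, by simp⟩
  | single g a =>
    refine ⟨a * (a * detChar ρ₀ g), ?_, ?_⟩ <;>
      rw [twistStar_single, MonoidAlgebra.lift_single, MonoidAlgebra.lift_single,
        smul_mul_smul_comm, ← map_mul, mul_inv_cancel, map_one]
  | add x y hx hy =>
    obtain ⟨δ, hδ, hδ₀⟩ := hx
    obtain ⟨ε, hε, hε₀⟩ := hy
    refine ⟨δ + ε + (MonoidAlgebra.lift A (Matrix (Fin 2) (Fin 2) A) G ρ₀
      (x * twistStar (detChar ρ₀) y)).trace, ?_, ?_⟩
    · rw [add_smul, add_smul, ← hδ, ← hε, ← lift_add_twistStar ρ₀ ρ hρ, twistStar_mul,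
        twistStar_twistStar]
      simp only [map_add, map_mul, add_mul, mul_add]
      abel
    · rw [add_smul, add_smul, ← hδ₀, ← hε₀,
        ← lift_add_twistStar ρ₀ ρ₀ (fun g => quadRel_trace_det_ring _), twistStar_mul,
        twistStar_twistStar]
      simp only [map_add, map_mul, add_mul, mul_add]
      abel

/-- An element of the group algebra killed by `ρ₀` is killed by `ρ`. -/
theorem lift_eq_zero_of_lift_eq_zero (hspan : Submodule.span A (Set.range ρ₀) = ⊤)
    (hρ : ∀ g, QuadRel (ρ g) (ρ₀ g).trace (ρ₀ g).det) (c : MonoidAlgebra A G)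
    (hc : MonoidAlgebra.lift A (Matrix (Fin 2) (Fin 2) A) G ρ₀ c = 0) :
    MonoidAlgebra.lift A B G ρ c = 0 := by
  set L₀ := MonoidAlgebra.lift A (Matrix (Fin 2) (Fin 2) A) G ρ₀ with hL₀
  set L := MonoidAlgebra.lift A B G ρ with hL
  set s := twistStar (detChar ρ₀)
  have hsurj : Function.Surjective L₀ := by
    intro X
    induction (hspan ▸ Submodule.mem_top : X ∈ Submodule.span A (Set.range ρ₀))
      using Submodule.span_induction with
    | mem x hx => obtain ⟨g, rfl⟩ := hx; exact ⟨MonoidAlgebra.single g 1, by simp [hL₀]⟩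
    | zero => exact ⟨0, map_zero _⟩
    | add x y _ _ hx hy =>
      obtain ⟨a, rfl⟩ := hx
      obtain ⟨b, rfl⟩ := hy
      exact ⟨a + b, map_add _ _ _⟩
    | smul r x _ hx => obtain ⟨a, rfl⟩ := hx; exact ⟨r • a, map_smul _ _ _⟩
  have hneg : ∀ i, L₀ i = 0 → L (s i) = -L i := by
    intro i hi
    have h := lift_add_twistStar ρ₀ ρ hρ i
    rw [← hL₀, hi, Matrix.trace_zero, zero_smul] at h
    exact eq_neg_of_add_eq_zero_right h
  have hflip : ∀ x a, L₀ a = 0 → L x * L a = L a * L (s x) := by
    intro x a ha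
    have h1 := hneg (x * a) (by rw [map_mul, ha, mul_zero])
    rw [twistStar_mul, map_mul, map_mul, hneg a ha, neg_mul] at h1
    exact (neg_injective h1).symm
  have hsq : ∀ i, L₀ i = 0 → L i * L i = 0 := by
    intro i hi
    obtain ⟨δ, hδ, hδ₀⟩ := exists_lift_mul_twistStar ρ₀ ρ hρ i
    rw [← hL₀, hi, zero_mul] at hδ₀
    have hδ0 : δ = 0 := by simpa using (congrFun (congrFun hδ₀ 0) 0).symm
    rw [← hL, hδ0, zero_smul, hneg i hi, mul_neg, neg_eq_zero] at hδ
    exact hδ
  -- a commutator which is invertible under `ρ₀`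
  obtain ⟨x, hx⟩ := hsurj (Matrix.single 0 0 1)
  obtain ⟨y, hy⟩ := hsurj (Matrix.single 0 1 1 + Matrix.single 1 0 1)
  obtain ⟨w, hw⟩ := hsurj (Matrix.single 1 0 1 - Matrix.single 0 1 1)
  have hz : L (x * y - y * x) * L c = 0 := by
    have key : ∀ p q, L (p * q) * L c = L c * (L (s q * s p)) → L p * (L q * L c) =
        L c * (L (s q * s p)) := fun p q h => by rw [← mul_assoc, ← map_mul]; exact h
    rw [map_sub, sub_mul, sub_eq_zero]
    calc L (x * y) * L c = L x * (L c * L (s y)) := by rw [map_mul, mul_assoc, hflip y c hc]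
      _ = L c * L (s x) * L (s y) := by rw [← mul_assoc, hflip x c hc]
      _ = L c * L (s (y * x)) := by rw [twistStar_mul, map_mul, mul_assoc]
      _ = L (y * x) * L c := (hflip _ c hc).symm
  have h1 : L₀ (w * (x * y - y * x)) = 1 := by
    rw [map_mul, map_sub, map_mul, map_mul, hx, hy, hw]
    ext i j
    fin_cases i <;> fin_cases j <;> simp [Matrix.mul_apply, Matrix.single_apply]
  set i := w * (x * y - y * x) - 1 with hi
  have hi0 : L₀ i = 0 := by rw [hi, map_sub, h1, map_one, sub_self]
  have h2 : L i * L c = -L c := by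
    rw [hi, map_sub, map_mul, map_one, sub_mul, mul_assoc, hz, mul_zero, one_mul, zero_sub]
  calc L c = -(L i * L c) := by rw [h2, neg_neg]
    _ = L i * (L i * L c) := by rw [h2, mul_neg, h2, neg_neg]
    _ = 0 := by rw [← mul_assoc, hsq i hi0, zero_mul]

/-- **Boston–Lenstra–Ribet**: the action factors through the matrix algebra. -/
theorem exists_algHom_of_quadRel (hspan : Submodule.span A (Set.range ρ₀) = ⊤)
    (hρ : ∀ g, QuadRel (ρ g) (ρ₀ g).trace (ρ₀ g).det) :
    ∃ Φ : Matrix (Fin 2) (Fin 2) A →ₐ[A] B, ∀ g, Φ (ρ₀ g) = ρ g := by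
  let L₀ := MonoidAlgebra.lift A (Matrix (Fin 2) (Fin 2) A) G ρ₀
  let L := MonoidAlgebra.lift A B G ρ
  have hsurj : Function.Surjective L₀.toLinearMap := by
    rw [← LinearMap.range_eq_top, eq_top_iff, ← hspan, Submodule.span_le]
    rintro _ ⟨g, rfl⟩
    exact ⟨MonoidAlgebra.single g 1, by simp [L₀]⟩
  obtain ⟨sec, hsec⟩ : ∃ sec : Matrix (Fin 2) (Fin 2) A → MonoidAlgebra A G,
      ∀ X, L₀ (sec X) = X := ⟨fun X => (hsurj X).choose, fun X => (hsurj X).choose_spec⟩
  have heq : ∀ c X, L₀ c = X → L c = L (sec X) := fun c X h => by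
    have := lift_eq_zero_of_lift_eq_zero ρ₀ ρ hspan hρ (c - sec X)
      (by rw [map_sub]; exact sub_eq_zero.mpr (h.trans (hsec X).symm))
    rwa [map_sub, sub_eq_zero] at this
  refine ⟨{ toFun := fun X => L (sec X)
            map_one' := by rw [← heq 1 1 (map_one _), map_one]
            map_mul' := fun X Y => by
              rw [← heq (sec X * sec Y) (X * Y) (by rw [map_mul, hsec, hsec]), map_mul]
            map_zero' := by rw [← heq 0 0 (map_zero _), map_zero]
            map_add' := fun X Y => by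
              rw [← heq (sec X + sec Y) (X + Y) (by rw [map_add, hsec, hsec]), map_add]
            commutes' := fun r => by
              change L (sec _) = _
              rw [← heq (algebraMap A _ r) _ (L₀.commutes r)]
              exact L.commutes r }, fun g => ?_⟩
  change L (sec (ρ₀ g)) = ρ g
  rw [← heq (MonoidAlgebra.single g 1) (ρ₀ g) (by simp [L₀])]
  simp [L]

end

section Modules

variable {V : Type*} [AddCommGroup V] [Module A V]
  (Φ : Matrix (Fin 2) (Fin 2) A →ₐ[A] Module.End A V)

/-- The equivariant map `A² → V` attached to a vector `w` with `Φ E₀₀ w = w`. -/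
noncomputable def moritaMap (w : V) : (Fin 2 → A) →ₗ[A] V where
  toFun u := u 0 • Φ (Matrix.single 0 0 1) w + u 1 • Φ (Matrix.single 1 0 1) w
  map_add' u v := by simp only [Pi.add_apply, add_smul]; abel
  map_smul' r u := by simp [smul_add, smul_smul]

theorem moritaMap_equivariant (w : V) (X : Matrix (Fin 2) (Fin 2) A) (u : Fin 2 → A) :
    moritaMap Φ w (X.mulVec u) = Φ X (moritaMap Φ w u) := by
  have hX : ∀ k : Fin 2, X * Matrix.single k 0 1 =
      X 0 k • Matrix.single 0 0 1 + X 1 k • Matrix.single 1 0 1 := by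
    intro k
    ext i j
    fin_cases k <;> fin_cases i <;> fin_cases j <;> simp [Matrix.mul_apply, Matrix.single_apply]
  change _ = Φ X (u 0 • Φ (Matrix.single 0 0 1) w + u 1 • Φ (Matrix.single 1 0 1) w)
  rw [map_add (Φ X), map_smul, map_smul, ← Module.End.mul_apply, ← Module.End.mul_apply,
    ← map_mul, ← map_mul, hX, hX]
  simp only [moritaMap, LinearMap.coe_mk, AddHom.coe_mk, Matrix.mulVec, dotProduct,
    Fin.sum_univ_two, map_add, map_smul, LinearMap.add_apply, LinearMap.smul_apply, smul_add,
    smul_smul, add_smul]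
  simp only [mul_comm (u 0), mul_comm (u 1)]
  abel

theorem moritaMap_injective (w : V) (hw : ∀ a : A, a • Φ (Matrix.single 0 0 1) w = 0 → a = 0) :
    Function.Injective (moritaMap Φ w) := by
  rw [injective_iff_map_eq_zero]
  intro u hu
  have h : ∀ k : Fin 2, u k • Φ (Matrix.single 0 0 1) w = 0 := by
    intro k
    have h1 := congrArg (Φ (Matrix.single 0 k 1)) hu
    simp only [moritaMap, LinearMap.coe_mk, AddHom.coe_mk, map_add, map_smul, map_zero,
      ← Module.End.mul_apply, ← map_mul] at h1
    fin_cases k <;> simpa using h1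
  exact funext fun k => hw _ (h k)

/-- The components of a vector detect its annihilator. -/
theorem smul_eq_zero_iff_components (x : V) (a : A) :
    a • x = 0 ↔ ∀ k : Fin 2, a • Φ (Matrix.single 0 k 1) x = 0 := by
  refine ⟨fun h k => by rw [← map_smul, h, map_zero], fun h => ?_⟩
  have h1 : (1 : Matrix (Fin 2) (Fin 2) A) =
      Matrix.single 0 0 1 * Matrix.single 0 0 1 + Matrix.single 1 0 1 * Matrix.single 0 1 1 := by
    ext i j; fin_cases i <;> fin_cases j <;> simp [Matrix.mul_apply, Matrix.single_apply]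
  have h2 : x = Φ (Matrix.single 0 0 1) (Φ (Matrix.single 0 0 1) x) +
      Φ (Matrix.single 1 0 1) (Φ (Matrix.single 0 1 1) x) := by
    conv_lhs => rw [← Module.End.one_apply (R := A) x, ← map_one Φ, h1, map_add, map_mul, map_mul]
    rfl
  rw [h2, smul_add, ← map_smul (Φ (Matrix.single 0 0 1)) a,
    ← map_smul (Φ (Matrix.single 1 0 1)) a, h, h, map_zero, map_zero, add_zero]

variable {G : Type*} [Group G]

/-- **Boston–Lenstra–Ribet**, copy form: if `s` is a socle element of `A` (divisible by every
non-zero element) and `s • x ≠ 0`, then `V` contains a copy of `ρ₀`. -/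
theorem exists_injective_equivariant (ρ₀ : G →* Matrix (Fin 2) (Fin 2) A)
    (ρ : G →* Module.End A V) (hspan : Submodule.span A (Set.range ρ₀) = ⊤)
    (hρ : ∀ g, QuadRel (ρ g) (ρ₀ g).trace (ρ₀ g).det) (x : V) (s : A)
    (hs : ∀ a : A, a ≠ 0 → a ∣ s) (hx : s • x ≠ 0) :
    ∃ j : (Fin 2 → A) →ₗ[A] V, Function.Injective j ∧
      ∀ g u, j ((ρ₀ g).mulVec u) = ρ g (j u) := by
  obtain ⟨Φ, hΦ⟩ := exists_algHom_of_quadRel ρ₀ ρ hspan hρ
  obtain ⟨k, hk⟩ := not_forall.mp ((smul_eq_zero_iff_components Φ x s).not.mp hx)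
  refine ⟨moritaMap Φ (Φ (Matrix.single 0 k 1) x), moritaMap_injective Φ _ fun a ha => ?_,
    fun g u => by rw [← hΦ g]; exact moritaMap_equivariant Φ _ _ u⟩
  by_contra hne
  obtain ⟨b, rfl⟩ := hs a hne
  rw [← Module.End.mul_apply, ← map_mul] at ha
  simp only [Matrix.single_mul_single_same, mul_one] at ha
  exact hk (by rw [mul_comm, mul_smul, ha, smul_zero])

end Modules

end Fermat.Agent.RepLemmas
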