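import Fermat.Agent.RepLemmas.Carayol
import Mathlib.Algebra.MonoidAlgebra.Basic
import Mathlib.RingTheory.Henselian
import Mathlib.RingTheory.AdicCompletion.Noetherian
import Mathlib.Tactic.LinearCombination
import Mathlib.Tactic.ComputeDegree

/-!
# Carayol's descent of a representation to its ring of traces

`A → R` is a local homomorphism with `A` Henselian (e.g. finite, or complete); a two dimensional
representation over `R` with traces and determinants in `A`, whose residual representation is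
absolutely irreducible and has a model over the residue field of `A`, is conjugate to one with
values in `A`.  The same holds for any ring `R` whose residue fields all have two elements.
-/

set_option autoImplicit false

namespace Fermat.Agent.RepLemmas

open Polynomial

/-- `e X e = tr(e X) e - det e · adj X`. -/
theorem sandwich_eq {R : Type*} [CommRing R] (e X : Matrix (Fin 2) (Fin 2) R) :
    e * X * e = (e * X).trace • e - e.det • X.adjugate := by
  ext i j
  fin_cases i <;> fin_cases j <;>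
    simp [Matrix.mul_apply, Matrix.trace_fin_two, Matrix.det_fin_two, Matrix.adjugate_fin_two] <;>
    ring

theorem det_add_two {R : Type*} [CommRing R] (X Y : Matrix (Fin 2) (Fin 2) R) :
    (X + Y).det = X.det + Y.det + X.trace * Y.trace - (Y * X).trace := by
  simp [Matrix.det_fin_two, Matrix.trace_fin_two, Matrix.mul_apply]
  ring

/-- Trace-one, determinant-zero elements are idempotent. -/
theorem idem_of_trace_det {R : Type*} [CommRing R] {e : Matrix (Fin 2) (Fin 2) R}
    (ht : e.trace = 1) (hd : e.det = 0) : e * e = e := by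
  rw [Matrix.trace_fin_two] at ht
  rw [Matrix.det_fin_two] at hd
  ext i j
  fin_cases i <;> fin_cases j <;> simp [Matrix.mul_apply]
  · linear_combination e 0 0 * ht - hd
  · linear_combination e 0 1 * ht
  · linear_combination e 1 0 * ht
  · linear_combination e 1 1 * ht - hd

/-- A system of matrix units is conjugate to the standard one. -/
theorem exists_conj_of_units {R : Type*} [CommRing R] [IsLocalRing R]
    (u : Fin 2 → Fin 2 → Matrix (Fin 2) (Fin 2) R) (h1 : u 0 0 + u 1 1 = 1)
    (hmul : ∀ i j k l, u i j * u k l = if j = k then u i l else 0) :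
    ∃ P : (Matrix (Fin 2) (Fin 2) R)ˣ, ∀ i j,
      u i j = (P : Matrix (Fin 2) (Fin 2) R) * Matrix.single i j 1 *
        ((P⁻¹ : (Matrix (Fin 2) (Fin 2) R)ˣ) : Matrix (Fin 2) (Fin 2) R) := by
  let φ : Matrix (Fin 2) (Fin 2) R →ₐ[R] Matrix (Fin 2) (Fin 2) R := AlgHom.ofLinearMap
    { toFun := fun Y => ∑ i, ∑ j, Y i j • u i j
      map_add' := fun X Y => by simp only [Matrix.add_apply, add_smul, Finset.sum_add_distrib]
      map_smul' := fun c X => by
        simp only [Matrix.smul_apply, smul_eq_mul, mul_smul, Finset.smul_sum, RingHom.id_apply] }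
    (by simp [Fin.sum_univ_two, h1])
    (fun X Y => by
      simp only [LinearMap.coe_mk, AddHom.coe_mk, Fin.sum_univ_two, Matrix.mul_apply, add_mul,
        mul_add, smul_mul_smul_comm, hmul]
      norm_num [add_smul]
      abel)
  obtain ⟨P, hP⟩ := exists_conj_of_algHom φ
  refine ⟨P, fun i j => ?_⟩
  rw [← hP]
  fin_cases i <;> fin_cases j <;> simp [φ, Fin.sum_univ_two, Matrix.single_apply]

/-- A system of matrix units with a fixed unimodular vector is conjugate to the standard one. -/
theorem exists_conj_of_units_of_vector {R : Type*} [CommRing R]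
    (u : Fin 2 → Fin 2 → Matrix (Fin 2) (Fin 2) R)
    (hmul : ∀ i j k l, u i j * u k l = if j = k then u i l else 0) (v w : Fin 2 → R)
    (hv : Matrix.mulVec (u 0 0) v = v) (hw : dotProduct w v = 1) :
    ∃ P : (Matrix (Fin 2) (Fin 2) R)ˣ, ∀ i j,
      u i j = (P : Matrix (Fin 2) (Fin 2) R) * Matrix.single i j 1 *
        ((P⁻¹ : (Matrix (Fin 2) (Fin 2) R)ˣ) : Matrix (Fin 2) (Fin 2) R) := by
  let P : Matrix (Fin 2) (Fin 2) R := Matrix.of fun a k => Matrix.mulVec (u k 0) v a
  let Q : Matrix (Fin 2) (Fin 2) R := Matrix.of fun k b => Matrix.vecMul w (u 0 k) b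
  have hQP : Q * P = 1 := by
    ext k l
    rw [Matrix.mul_apply]
    change dotProduct (Matrix.vecMul w (u 0 k)) (Matrix.mulVec (u l 0) v) = _
    rw [← Matrix.dotProduct_mulVec, Matrix.mulVec_mulVec, hmul]
    split_ifs with h
    · rw [hv, hw, h, Matrix.one_apply_eq]
    · rw [Matrix.zero_mulVec, dotProduct_zero, Matrix.one_apply_ne h]
  have hcomm : ∀ i j, u i j * P = P * Matrix.single i j 1 := by
    intro i j
    ext a k
    rw [Matrix.mul_apply]
    change dotProduct (u i j a) (Matrix.mulVec (u k 0) v) = _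
    have e : dotProduct (u i j a) (Matrix.mulVec (u k 0) v) =
        Matrix.mulVec (u i j * u k 0) v a := by
      rw [← Matrix.mulVec_mulVec]; rfl
    rw [e, hmul]
    split_ifs with h
    · subst h; rw [Matrix.mul_single_apply_same, mul_one]; rfl
    · rw [Matrix.mul_single_apply_of_ne (hbj := Ne.symm h), Matrix.zero_mulVec]; rfl
  have hPQ : P * Q = 1 := mul_eq_one_comm.mp hQP
  refine ⟨⟨P, Q, hPQ, hQP⟩, fun i j => ?_⟩
  change u i j = P * Matrix.single i j 1 * Q
  rw [← hcomm, mul_assoc, hPQ, mul_one]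

/-- Matrix units conjugate to the standard ones, with traces in `A` against a representation,
conjugate that representation to one with values in `A`. -/
theorem exists_map_of_units {G A R : Type*} [Group G] [CommRing A] [CommRing R] (f : A →+* R)
    (hf : Function.Injective f) (r : G →* Matrix (Fin 2) (Fin 2) R)
    (u : Fin 2 → Fin 2 → Matrix (Fin 2) (Fin 2) R) (P : (Matrix (Fin 2) (Fin 2) R)ˣ)
    (hP : ∀ i j, u i j = (P : Matrix (Fin 2) (Fin 2) R) * Matrix.single i j 1 *
        ((P⁻¹ : (Matrix (Fin 2) (Fin 2) R)ˣ) : Matrix (Fin 2) (Fin 2) R))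
    (hmem : ∀ g i j, (r g * u i j).trace ∈ f.range) :
    ∃ r' : G →* Matrix (Fin 2) (Fin 2) A, ∀ g,
      r g = (P : Matrix (Fin 2) (Fin 2) R) * (r' g).map f *
        ((P⁻¹ : (Matrix (Fin 2) (Fin 2) R)ˣ) : Matrix (Fin 2) (Fin 2) R) := by
  have hcoord : ∀ g i j, ∃ a : A, f a =
      (((P⁻¹ : (Matrix (Fin 2) (Fin 2) R)ˣ) : (Matrix (Fin 2) (Fin 2) R)) * r g *
        (P : (Matrix (Fin 2) (Fin 2) R))) i j := by
    intro g i j
    obtain ⟨a, ha⟩ := RingHom.mem_range.mp (hmem g j i)
    refine ⟨a, ?_⟩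
    rw [ha, hP j i, ← mul_assoc, ← mul_assoc, Matrix.trace_mul_comm, ← mul_assoc, ← mul_assoc,
      Matrix.trace_mul_single]
    simp [mul_assoc]
  choose a ha using hcoord
  have hmap : ∀ g, (Matrix.of (a g)).map f = ((P⁻¹ : (Matrix (Fin 2) (Fin 2) R)ˣ) : (Matrix (Fin 2) (Fin 2) R)) * r g * (P : (Matrix (Fin 2) (Fin 2) R)) := fun g => by
    ext i j; exact ha g i j
  refine ⟨{ toFun := fun g => Matrix.of (a g)
            map_one' := Matrix.map_injective hf (by
              dsimp only
              rw [hmap, map_one, mul_one, Units.inv_mul, Matrix.map_one f (map_zero f) (map_one f)])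
            map_mul' := fun g h => Matrix.map_injective hf (by
              dsimp only
              rw [hmap, Matrix.map_mul, hmap, hmap, map_mul]
              simp only [mul_assoc, Units.mul_inv_cancel_left]) }, fun g => ?_⟩
  change r g = (P : (Matrix (Fin 2) (Fin 2) R)) * (Matrix.of (a g)).map f * _
  rw [hmap]
  simp only [mul_assoc, Units.mul_inv_cancel_left, Units.mul_inv, mul_one]

/-- Matrix units in the algebra spanned by a representation with traces in a Henselian local
ring whose residual representation is absolutely irreducible. -/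
theorem exists_units_of_trace_mem {G A R : Type*} [Group G] [CommRing A] [IsLocalRing A]
    [HenselianRing A (IsLocalRing.maximalIdeal A)] [CommRing R] (f : A →+* R)
    (r : G →* Matrix (Fin 2) (Fin 2) R)
    (rbar : G →* Matrix (Fin 2) (Fin 2) (IsLocalRing.ResidueField A))
    (hspan : Submodule.span (IsLocalRing.ResidueField A) (Set.range rbar) = ⊤)
    (htr : ∀ g, ∃ a, f a = (r g).trace ∧ IsLocalRing.residue A a = (rbar g).trace)
    (hdet : ∀ g, ∃ a, f a = (r g).det ∧ IsLocalRing.residue A a = (rbar g).det) :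
    ∃ u : Fin 2 → Fin 2 → Matrix (Fin 2) (Fin 2) R,
      u 0 0 + u 1 1 = 1 ∧ (∀ i j k l, u i j * u k l = if j = k then u i l else 0) ∧
      (u 0 0).trace = 1 ∧ (u 0 0).det = 0 ∧ ∀ g i j, (r g * u i j).trace ∈ f.range := by
  let : Algebra A R := f.toAlgebra
  let kA := IsLocalRing.ResidueField A
  let L := MonoidAlgebra.lift A (Matrix (Fin 2) (Fin 2) R) G r
  let Lb := MonoidAlgebra.lift A (Matrix (Fin 2) (Fin 2) kA) G rbar
  have hsm : ∀ (a : A) (X : Matrix (Fin 2) (Fin 2) R), a • X = f a • X := fun a X =>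
    (algebraMap_smul R a X).symm
  have hsmk : ∀ (a : A) (X : Matrix (Fin 2) (Fin 2) kA), a • X = IsLocalRing.residue A a • X :=
    fun a X => (algebraMap_smul kA a X).symm
  have hmem_tr : ∀ c, ∃ a, f a = (L c).trace ∧ IsLocalRing.residue A a = (Lb c).trace := by
    intro c
    induction c using MonoidAlgebra.induction_linear with
    | zero => exact ⟨0, by simp⟩
    | add x y hx hy =>
      obtain ⟨a, ha, ha'⟩ := hx
      obtain ⟨b, hb, hb'⟩ := hy
      exact ⟨a + b, by simp [ha, hb], by simp [ha', hb']⟩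
    | single g b =>
      obtain ⟨a, ha, ha'⟩ := htr g
      refine ⟨b * a, ?_, ?_⟩
      · simp only [L, MonoidAlgebra.lift_single]
        rw [hsm, Matrix.trace_smul, smul_eq_mul, ← ha, map_mul]
      · simp only [Lb, MonoidAlgebra.lift_single]
        rw [hsmk, Matrix.trace_smul, smul_eq_mul, ← ha', map_mul]
  have hmem_det : ∀ c, ∃ a, f a = (L c).det ∧ IsLocalRing.residue A a = (Lb c).det := by
    intro c
    induction c using MonoidAlgebra.induction_linear with
    | zero => exact ⟨0, by simp⟩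
    | add x y hx hy =>
      obtain ⟨a, ha, ha'⟩ := hx
      obtain ⟨b, hb, hb'⟩ := hy
      obtain ⟨i, hi, hi'⟩ := hmem_tr x
      obtain ⟨j, hj, hj'⟩ := hmem_tr y
      obtain ⟨k, hk, hk'⟩ := hmem_tr (y * x)
      refine ⟨a + b + i * j - k, ?_, ?_⟩
      · rw [map_add, det_add_two, ← map_mul L, ← ha, ← hb, ← hi, ← hj, ← hk]; simp
      · rw [map_add Lb, det_add_two, ← map_mul Lb, ← ha', ← hb', ← hi', ← hj', ← hk']; simp
    | single g b =>
      obtain ⟨a, ha, ha'⟩ := hdet g
      refine ⟨b ^ 2 * a, ?_, ?_⟩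
      · simp only [L, MonoidAlgebra.lift_single]
        rw [hsm, Matrix.det_smul, Fintype.card_fin, ← ha, map_mul, map_pow]
      · simp only [Lb, MonoidAlgebra.lift_single]
        rw [hsmk, Matrix.det_smul, Fintype.card_fin, ← ha', map_mul, map_pow]
  have hsurj : ∀ X, ∃ c, Lb c = X := by
    intro X
    induction (hspan ▸ Submodule.mem_top : X ∈ Submodule.span kA (Set.range rbar))
      using Submodule.span_induction with
    | mem x hx => obtain ⟨g, rfl⟩ := hx; exact ⟨MonoidAlgebra.single g 1, by simp [Lb]⟩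
    | zero => exact ⟨0, map_zero _⟩
    | add x y _ _ hx hy =>
      obtain ⟨a, rfl⟩ := hx
      obtain ⟨b, rfl⟩ := hy
      exact ⟨a + b, map_add _ _ _⟩
    | smul c x _ hx =>
      obtain ⟨a, rfl⟩ := hx
      obtain ⟨c, rfl⟩ := IsLocalRing.residue_surjective c
      exact ⟨c • a, by rw [map_smul]; exact (algebraMap_smul kA c _).symm⟩
  -- an idempotent of trace one
  obtain ⟨c₀, hc₀⟩ := hsurj (Matrix.single 0 0 1)
  obtain ⟨t, ht, ht'⟩ := hmem_tr c₀
  obtain ⟨d, hd, hd'⟩ := hmem_det c₀
  have htres : IsLocalRing.residue A t = 1 := by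
    rw [ht', hc₀]
    simp [Matrix.trace_fin_two]
  have hdres : IsLocalRing.residue A d = 0 := by
    rw [hd', hc₀]
    simp [Matrix.det_fin_two]
  obtain ⟨l, hl, hl0⟩ := HenselianRing.is_henselian (I := IsLocalRing.maximalIdeal A)
    (X ^ 2 - C t * X + C d : A[X]) (by monicity!) 0
    (by simpa using (IsLocalRing.residue_eq_zero_iff d).mp hdres)
    (by
      refine (isUnit_iff_ne_zero (G₀ := kA)).mpr ?_
      change IsLocalRing.residue A _ ≠ 0
      simp [htres])
  have hlres : IsLocalRing.residue A l = 0 := by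
    rw [IsLocalRing.residue_eq_zero_iff]; simpa using hl0
  have hu : IsUnit (t - 2 * l) := IsLocalRing.notMem_maximalIdeal.mp fun h => by
    rw [← IsLocalRing.residue_eq_zero_iff, map_sub, map_mul, hlres, mul_zero, sub_zero, htres] at h
    exact one_ne_zero h
  obtain ⟨v, hv⟩ : ∃ v : A, v * (t - 2 * l) = 1 := hu.exists_left_inv
  have hl' : l ^ 2 - t * l + d = 0 := by simpa using hl
  set ce : MonoidAlgebra A G := v • (c₀ - algebraMap A _ l) with hce
  set e := L ce with he
  have heform : e = f v • (L c₀ - f l • (1 : (Matrix (Fin 2) (Fin 2) R))) := by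
    rw [he, hce, map_smul, map_sub, AlgHom.commutes, Algebra.algebraMap_eq_smul_one, hsm, hsm l]
  have het : e.trace = 1 := by
    rw [heform, Matrix.trace_smul, Matrix.trace_sub, Matrix.trace_smul, ← ht]
    simp only [Matrix.trace_one, Fintype.card_fin, smul_eq_mul]
    have := congrArg f hv
    simp only [map_mul, map_sub, map_one, map_ofNat] at this
    push_cast
    linear_combination this
  have hed : e.det = 0 := by
    have h := hd
    rw [Matrix.det_fin_two] at h
    have h' : f t = L c₀ 0 0 + L c₀ 1 1 := by rw [ht, Matrix.trace_fin_two]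
    have h'' := congrArg f hl'
    simp only [map_add, map_sub, map_mul, map_pow, map_zero] at h''
    rw [heform, Matrix.det_fin_two]
    simp
    linear_combination f v ^ 2 * h'' - f v ^ 2 * h + f v ^ 2 * f l * h'
  have hee : e * e = e := idem_of_trace_det het hed
  have he't : (1 - e).trace = 1 := by
    rw [Matrix.trace_sub, Matrix.trace_one, het]; simp; norm_num
  have he'd : (1 - e).det = 0 := by
    rw [Matrix.trace_fin_two] at het
    rw [Matrix.det_fin_two] at hed
    rw [Matrix.det_fin_two]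
    simp
    linear_combination hed - het
  -- the off-diagonal units
  obtain ⟨c₁, hc₁⟩ := hsurj (Matrix.single 1 0 1)
  obtain ⟨c₂, hc₂⟩ := hsurj (Matrix.single 0 1 1)
  have hres_ce : Lb ce = Matrix.single 0 0 1 := by
    have hvres : IsLocalRing.residue A v = 1 := by
      have h := congrArg (IsLocalRing.residue A) hv
      simpa [map_sub, map_mul, hlres, htres] using h
    rw [hce, map_smul, map_sub, AlgHom.commutes, hc₀, Algebra.algebraMap_eq_smul_one, hsmk,
      hsmk l, hlres, hvres, zero_smul, sub_zero, one_smul]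
  let d₁ := ce * c₂ * (1 - ce)
  let d₂ := (1 - ce) * c₁ * ce
  obtain ⟨u, hu', hu''⟩ := hmem_tr (d₁ * d₂)
  have hures : IsLocalRing.residue A u = 1 := by
    rw [hu'']
    simp only [d₁, d₂, map_mul, map_sub, map_one, hres_ce, hc₁, hc₂]
    simp [Matrix.trace_fin_two, Matrix.mul_apply, Matrix.single_apply]
  obtain ⟨w, hw⟩ : ∃ w : A, w * u = 1 := IsUnit.exists_left_inv
    (IsLocalRing.notMem_maximalIdeal.mp fun h => by
      rw [← IsLocalRing.residue_eq_zero_iff, hures] at h
      exact one_ne_zero h)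
  have hd₁ : L d₁ = e * L c₂ * (1 - e) := by simp [d₁, he]
  have hd₂ : L d₂ = (1 - e) * L c₁ * e := by simp [d₂, he]
  have hee' : e * (1 - e) = 0 := by rw [mul_sub, mul_one, hee, sub_self]
  have he'e : (1 - e) * e = 0 := by rw [sub_mul, one_mul, hee, sub_self]
  have he'e' : (1 - e) * (1 - e) = 1 - e := by rw [mul_sub, mul_one, he'e, sub_zero]
  have h12 : L d₁ * L d₂ = f u • e := by
    have h : L d₁ * L d₂ = e * (L c₂ * (1 - e) * L c₁) * e := by
      rw [hd₁, hd₂]
      simp only [mul_assoc]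
      rw [← mul_assoc (1 - e) (1 - e), he'e']
    have hsand := sandwich_eq e (L c₂ * (1 - e) * L c₁)
    rw [hed, zero_smul, sub_zero, ← h] at hsand
    rw [hsand]
    congr 1
    have h2 : (L d₁ * L d₂).trace = (e * (L c₂ * (1 - e) * L c₁)).trace := by
      rw [h, Matrix.trace_mul_comm, ← mul_assoc, hee]
    rw [← h2, ← map_mul L, hu']
  have h21 : L d₂ * L d₁ = f u • (1 - e) := by
    have h : L d₂ * L d₁ = (1 - e) * (L c₁ * e * L c₂) * (1 - e) := by
      rw [hd₁, hd₂]
      simp only [mul_assoc]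
      rw [← mul_assoc e e, hee]
    have hsand := sandwich_eq (1 - e) (L c₁ * e * L c₂)
    rw [he'd, zero_smul, sub_zero, ← h] at hsand
    rw [hsand]
    congr 1
    have h2 : (L d₂ * L d₁).trace = ((1 - e) * (L c₁ * e * L c₂)).trace := by
      rw [h, Matrix.trace_mul_comm, ← mul_assoc, he'e']
    rw [← h2, Matrix.trace_mul_comm, ← map_mul L, hu']
  let cu : Fin 2 → Fin 2 → MonoidAlgebra A G := ![![ce, d₁], ![w • d₂, 1 - ce]]
  have hfw : f w * f u = 1 := by rw [← map_mul, hw, map_one]
  have hwd : L (w • d₂) = f w • L d₂ := by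
    rw [map_smul, hsm]
  refine ⟨fun i j => L (cu i j), by simp [cu], fun i j k m => ?_, by simpa [cu, ← he] using het,
    by simpa [cu, ← he] using hed, fun g i j => ?_⟩
  · have a1 : e * L d₁ = L d₁ := by rw [hd₁, ← mul_assoc, ← mul_assoc, hee]
    have a2 : L d₁ * (1 - e) = L d₁ := by rw [hd₁, mul_assoc, he'e']
    have a3 : (1 - e) * L d₁ = 0 := by rw [hd₁, ← mul_assoc, ← mul_assoc, he'e]; simp
    have a4 : L d₁ * e = 0 := by rw [hd₁, mul_assoc, he'e]; simp
    have b1 : (1 - e) * L d₂ = L d₂ := by rw [hd₂, ← mul_assoc, ← mul_assoc, he'e']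
    have b2 : L d₂ * e = L d₂ := by rw [hd₂, mul_assoc, hee]
    have b3 : e * L d₂ = 0 := by rw [hd₂, ← mul_assoc, ← mul_assoc, hee']; simp
    have b4 : L d₂ * (1 - e) = 0 := by rw [hd₂, mul_assoc, hee']; simp
    have c11 : L d₁ * L d₁ = 0 := by
      conv_lhs => arg 1; rw [← a2]
      rw [mul_assoc, a3, mul_zero]
    have c22 : L d₂ * L d₂ = 0 := by
      conv_lhs => arg 1; rw [← b2]
      rw [mul_assoc, b3, mul_zero]
    fin_cases i <;> fin_cases j <;> fin_cases k <;> fin_cases m <;>
      simp [cu, hwd, ← he, hee, hee', he'e, he'e', a1, a2, a3, a4, b1, b2, b3, b4, c11, c22,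
        h12, h21, smul_smul, hfw]
  · obtain ⟨a, ha, -⟩ := hmem_tr (MonoidAlgebra.single g 1 * cu i j)
    exact RingHom.mem_range.mpr ⟨a, by rw [ha, map_mul]; simp [L]⟩

/-- **Carayol**: descent to the ring of traces. -/
theorem exists_conj_map_of_trace_mem {G A R : Type*} [Group G] [CommRing A] [IsLocalRing A]
    [HenselianRing A (IsLocalRing.maximalIdeal A)] [CommRing R] [IsLocalRing R] (f : A →+* R)
    [IsLocalHom f] (hf : Function.Injective f) (r : G →* Matrix (Fin 2) (Fin 2) R)
    (htr : ∀ g, (r g).trace ∈ Set.range f) (hdet : ∀ g, (r g).det ∈ Set.range f)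
    (rbar : G →* Matrix (Fin 2) (Fin 2) (IsLocalRing.ResidueField A))
    (hspan : Submodule.span (IsLocalRing.ResidueField A) (Set.range rbar) = ⊤)
    (hres : ∀ g, IsLocalRing.ResidueField.map f (rbar g).trace =
      IsLocalRing.residue R (r g).trace) :
    ∃ (r' : G →* Matrix (Fin 2) (Fin 2) A) (P : (Matrix (Fin 2) (Fin 2) R)ˣ), ∀ g,
      r g = (P : Matrix (Fin 2) (Fin 2) R) * (r' g).map f *
        ((P⁻¹ : (Matrix (Fin 2) (Fin 2) R)ˣ) : Matrix (Fin 2) (Fin 2) R) := by
  let φ := IsLocalRing.ResidueField.map f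
  let rb₁ : G →* Matrix (Fin 2) (Fin 2) (IsLocalRing.ResidueField R) :=
    φ.mapMatrix.toMonoidHom.comp rbar
  let rb₂ : G →* Matrix (Fin 2) (Fin 2) (IsLocalRing.ResidueField R) :=
    (IsLocalRing.residue R).mapMatrix.toMonoidHom.comp r
  obtain ⟨Q, hQ⟩ := exists_conj_of_trace_eq rb₁ rb₂ (map_span_eq_top φ rbar hspan) fun g => by
    simpa [rb₁, rb₂, ← AddMonoidHom.map_trace, φ] using hres g
  obtain ⟨u, h1, hmul, -, -, hmem⟩ := exists_units_of_trace_mem f r rbar hspan
    (fun g => by
      obtain ⟨a, ha⟩ := htr g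
      refine ⟨a, ha, φ.injective ?_⟩
      rw [IsLocalRing.ResidueField.map_residue, ha, hres])
    (fun g => by
      obtain ⟨a, ha⟩ := hdet g
      refine ⟨a, ha, φ.injective ?_⟩
      rw [IsLocalRing.ResidueField.map_residue, ha]
      have h := congrArg Matrix.det (hQ g)
      rw [Matrix.det_units_conj] at h
      simpa [rb₁, rb₂, RingHom.map_det] using h)
  obtain ⟨P, hP⟩ := exists_conj_of_units u h1 hmul
  obtain ⟨r', hr'⟩ := exists_map_of_units f hf r u P hP hmem
  exact ⟨r', P, hr'⟩

/-- **Carayol**, into a ring all of whose residue fields have two elements. -/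
theorem exists_conj_map_of_trace_mem_two {G A R : Type*} [Group G] [CommRing A] [IsLocalRing A]
    [HenselianRing A (IsLocalRing.maximalIdeal A)] [CommRing R] (f : A →+* R)
    (hf : Function.Injective f)
    (hR : ∀ p : Ideal R, p.IsMaximal → ∀ x : R, x ∈ p ∨ x - 1 ∈ p)
    (r : G →* Matrix (Fin 2) (Fin 2) R)
    (rbar : G →* Matrix (Fin 2) (Fin 2) (IsLocalRing.ResidueField A))
    (hspan : Submodule.span (IsLocalRing.ResidueField A) (Set.range rbar) = ⊤)
    (htr : ∀ g, ∃ a, f a = (r g).trace ∧ IsLocalRing.residue A a = (rbar g).trace)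
    (hdet : ∀ g, ∃ a, f a = (r g).det ∧ IsLocalRing.residue A a = (rbar g).det) :
    ∃ (r' : G →* Matrix (Fin 2) (Fin 2) A) (P : (Matrix (Fin 2) (Fin 2) R)ˣ), ∀ g,
      r g = (P : Matrix (Fin 2) (Fin 2) R) * (r' g).map f *
        ((P⁻¹ : (Matrix (Fin 2) (Fin 2) R)ˣ) : Matrix (Fin 2) (Fin 2) R) := by
  obtain ⟨u, -, hmul, het, hed, hmem⟩ := exists_units_of_trace_mem f r rbar hspan htr hdet
  set e := u 0 0 with he
  have hee : e * e = e := idem_of_trace_det het hed
  rw [Matrix.trace_fin_two] at het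
  let c : Fin 2 → R := ![e 0 0, e 1 1]
  have hs : IsUnit (dotProduct c (Matrix.mulVec e c)) := by
    by_contra h
    obtain ⟨p, hp, hsp⟩ := exists_max_ideal_of_mem_nonunits h
    refine hp.ne_top ((Ideal.eq_top_iff_one _).mpr ?_)
    rcases hR p hp (e 0 0) with hx | hx
    · have h1 : (1 : R) = dotProduct c (Matrix.mulVec e c) -
          (e 0 0 ^ 2 + e 1 1 * (e 0 1 + e 1 0) - (e 1 1 ^ 2 + e 1 1 + 1)) * e 0 0 := by
        simp [c, dotProduct, Matrix.mulVec, Fin.sum_univ_two]
        linear_combination -(e 1 1 ^ 2 + e 1 1 + 1) * het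
      exact h1 ▸ p.sub_mem hsp (p.mul_mem_left _ hx)
    · have h1 : (1 : R) = dotProduct c (Matrix.mulVec e c) -
          (e 0 0 ^ 2 + e 0 0 + 1 - (e 0 0 * (e 0 1 + e 1 0) + e 1 1 ^ 2)) * (e 0 0 - 1) := by
        simp [c, dotProduct, Matrix.mulVec, Fin.sum_univ_two]
        linear_combination -(e 0 0 * (e 0 1 + e 1 0) + e 1 1 ^ 2) * het
      exact h1 ▸ p.sub_mem hsp (p.mul_mem_left _ hx)
  obtain ⟨s, hs⟩ := hs.exists_left_inv
  obtain ⟨P, hP⟩ := exists_conj_of_units_of_vector u hmul (Matrix.mulVec e c) (s • c)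
    (by rw [← he, Matrix.mulVec_mulVec, hee]) (by rw [smul_dotProduct, smul_eq_mul, hs])
  obtain ⟨r', hr'⟩ := exists_map_of_units f hf r u P hP hmem
  exact ⟨r', P, hr'⟩

end Fermat.Agent.RepLemmas
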