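import Fermat.Agent.RepLemmas.Basic

/-!
# Carayol's theorem

Over a local ring, two representations with the same traces, one of which is residually
absolutely irreducible, are conjugate.
-/

set_option autoImplicit false

namespace Fermat.Agent.RepLemmas

variable {n A : Type*} [Fintype n] [DecidableEq n] [CommRing A]

/-- Endomorphisms of a matrix algebra over a local ring are inner. -/
theorem exists_conj_of_algHom [IsLocalRing A] [Nonempty n]
    (φ : Matrix n n A →ₐ[A] Matrix n n A) :
    ∃ P : (Matrix n n A)ˣ, ∀ X, φ X = (P : Matrix n n A) * X * ((P⁻¹ : (Matrix n n A)ˣ) : Matrix n n A) := by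
  classical
  obtain ⟨i₀⟩ := ‹Nonempty n›
  set e₀ := φ (Matrix.single i₀ i₀ 1) with he₀
  obtain ⟨a, b, hab⟩ : ∃ a b, IsUnit (e₀ a b) := by
    by_contra hno
    push Not at hno
    have hmap : ∀ X Y : Matrix n n A, (X * Y).map (IsLocalRing.residue A) =
        X.map (IsLocalRing.residue A) * Y.map (IsLocalRing.residue A) := fun X Y => Matrix.map_mul
    have h0 : e₀.map (IsLocalRing.residue A) = 0 := by
      ext a b; simpa [IsLocalRing.residue_eq_zero_iff] using hno a b
    have hkey : ∀ i, (φ (Matrix.single i i 1)).map (IsLocalRing.residue A) = 0 := by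
      intro i
      have : Matrix.single i i (1 : A) =
          Matrix.single i i₀ 1 * Matrix.single i₀ i₀ 1 * Matrix.single i₀ i 1 := by simp
      rw [this, map_mul, map_mul, hmap, hmap, ← he₀, h0, mul_zero, zero_mul]
    have h1 : (φ 1).map (IsLocalRing.residue A) = 0 := by
      rw [show (1 : Matrix n n A) = ∑ i, Matrix.single i i 1 by
        ext r c; simp [Matrix.sum_apply, Matrix.one_apply, Matrix.single_apply, ite_and]]
      rw [map_sum]
      ext r c
      simp only [Matrix.map_apply, Matrix.sum_apply, map_sum, Matrix.zero_apply]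
      exact Finset.sum_eq_zero fun i _ => congrFun (congrFun (hkey i) r) c
    rw [map_one] at h1
    have := congrFun (congrFun h1 i₀) i₀
    simp at this
  let P : Matrix n n A := fun r i => φ (Matrix.single i i₀ 1) r b
  let Q : Matrix n n A := fun j r => ↑hab.unit⁻¹ * φ (Matrix.single i₀ j 1) a r
  have hQP : Q * P = 1 := by
    ext j i
    simp only [Matrix.mul_apply, P, Q, mul_assoc, ← Finset.mul_sum]
    rw [← Matrix.mul_apply, ← map_mul]
    by_cases hji : j = i
    · subst hji
      simp [← he₀]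
    · simp [hji]
  let u : (Matrix n n A)ˣ := ⟨P, Q, mul_eq_one_comm.mp hQP, hQP⟩
  refine ⟨u, fun X => ?_⟩
  have hX : φ X * P = P * X := by
    let f₁ : Matrix n n A →ₗ[A] Matrix n n A := (LinearMap.mulRight A P).comp φ.toLinearMap
    let f₂ : Matrix n n A →ₗ[A] Matrix n n A := LinearMap.mulLeft A P
    suffices f₁ = f₂ from LinearMap.congr_fun this X
    refine Matrix.ext_linearMap A fun k l => LinearMap.ext_ring ?_
    ext r j
    simp only [f₁, f₂, LinearMap.comp_apply, Matrix.singleLinearMap_apply,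
      LinearMap.mulRight_apply, LinearMap.mulLeft_apply, AlgHom.toLinearMap_apply,
      Matrix.mul_apply, P]
    rw [← Matrix.mul_apply, ← map_mul]
    by_cases hlj : l = j
    · subst hlj; simp [Matrix.single_apply]
    · simp [hlj]
  calc φ X = φ X * P * Q := by rw [mul_assoc, mul_eq_one_comm.mp hQP, mul_one]
    _ = (u : Matrix n n A) * X * ((u⁻¹ : (Matrix n n A)ˣ) : Matrix n n A) := by rw [hX]; rfl

/-- The trace pairing of a matrix against the values of a representation. -/
def traceForm {G : Type*} (ρ : G → Matrix n n A) : Matrix n n A →ₗ[A] (G → A) :=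
  LinearMap.pi fun h => (Matrix.traceLinearMap n A A).comp (LinearMap.mulRight A (ρ h))

theorem traceForm_injective {G : Type*} (ρ : G → Matrix n n A)
    (hspan : Submodule.span A (Set.range ρ) = ⊤) : Function.Injective (traceForm ρ) := by
  rw [injective_iff_map_eq_zero]
  intro X hX
  refine Matrix.ext_iff_trace_mul_right.mpr fun Y => ?_
  rw [zero_mul, Matrix.trace_zero]
  induction (hspan ▸ Submodule.mem_top : Y ∈ Submodule.span A (Set.range ρ))
    using Submodule.span_induction with
  | mem y hy => obtain ⟨g, rfl⟩ := hy; simpa [traceForm] using congrFun hX g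
  | zero => simp
  | add y y' _ _ hy hy' => simp [mul_add, hy, hy']
  | smul c y _ hy => simp [hy]

theorem traceForm_comp_eq {G : Type*} [Monoid G] (ρ₁ ρ₂ : G →* Matrix n n A)
    (htr : ∀ g, (ρ₁ g).trace = (ρ₂ g).trace) :
    (traceForm ρ₁).comp (Finsupp.linearCombination A ρ₁) =
      (traceForm ρ₂).comp (Finsupp.linearCombination A ρ₂) := by
  refine Finsupp.lhom_ext fun g c => funext fun h => ?_
  simp [traceForm, ← map_mul, htr]

/-- If one of two representations with equal traces spans, then so does the other. -/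
theorem span_eq_top_of_trace_eq [IsLocalRing A] {G : Type*} [Monoid G]
    (ρ₁ ρ₂ : G →* Matrix n n A)
    (hspan : Submodule.span A (Set.range ρ₁) = ⊤)
    (htr : ∀ g, (ρ₁ g).trace = (ρ₂ g).trace) :
    Submodule.span A (Set.range ρ₂) = ⊤ := by
  refine span_eq_top_of_residue ρ₂ ?_
  let k := IsLocalRing.ResidueField A
  let f := IsLocalRing.residue A
  let r₁ : G →* Matrix n n k := f.mapMatrix.toMonoidHom.comp ρ₁
  let r₂ : G →* Matrix n n k := f.mapMatrix.toMonoidHom.comp ρ₂
  have hs₁ : Submodule.span k (Set.range r₁) = ⊤ := map_span_eq_top f ρ₁ hspan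
  have htr' : ∀ g, (r₁ g).trace = (r₂ g).trace := fun g => by
    simp [r₁, r₂, ← AddMonoidHom.map_trace, htr]
  have hrange : LinearMap.range ((traceForm r₂).comp (Finsupp.linearCombination k r₂)) =
      LinearMap.range (traceForm r₁) := by
    rw [← traceForm_comp_eq r₁ r₂ htr', LinearMap.range_comp, Finsupp.range_linearCombination,
      hs₁, Submodule.map_top]
  refine Submodule.eq_top_of_finrank_eq (le_antisymm (Submodule.finrank_le _) ?_)
  calc Module.finrank k (Matrix n n k) = Module.finrank k (LinearMap.range (traceForm r₁)) :=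
      (LinearMap.finrank_range_of_inj (traceForm_injective r₁ hs₁)).symm
    _ ≤ _ := by
      rw [← hrange, LinearMap.range_comp, Finsupp.range_linearCombination]
      exact Submodule.finrank_map_le _ _

/-- **Carayol**: equal traces and a spanning (= residually absolutely irreducible) image imply
conjugate. -/
theorem exists_conj_of_trace_eq [IsLocalRing A] {G : Type*} [Monoid G]
    (ρ₁ ρ₂ : G →* Matrix n n A)
    (hspan : Submodule.span A (Set.range ρ₁) = ⊤)
    (htr : ∀ g, (ρ₁ g).trace = (ρ₂ g).trace) :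
    ∃ P : (Matrix n n A)ˣ, ∀ g,
      ρ₂ g = (P : Matrix n n A) * ρ₁ g * ((P⁻¹ : (Matrix n n A)ˣ) : Matrix n n A) := by
  rcases isEmpty_or_nonempty n with hn | hn
  · exact ⟨1, fun g => Subsingleton.elim _ _⟩
  let L₁ := Finsupp.linearCombination A ρ₁
  let L₂ := Finsupp.linearCombination A ρ₂
  have hspan₂ := span_eq_top_of_trace_eq ρ₁ ρ₂ hspan htr
  have hsurj₁ : Function.Surjective L₁ :=
    LinearMap.range_eq_top.mp ((Finsupp.range_linearCombination (R := A) (v := ⇑ρ₁)).trans hspan)
  have hker : LinearMap.ker L₁ = LinearMap.ker L₂ := by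
    rw [← LinearMap.ker_comp_of_ker_eq_bot L₁
        (LinearMap.ker_eq_bot.mpr (traceForm_injective ρ₁ hspan)),
      ← LinearMap.ker_comp_of_ker_eq_bot L₂
        (LinearMap.ker_eq_bot.mpr (traceForm_injective ρ₂ hspan₂)), traceForm_comp_eq ρ₁ ρ₂ htr]
  let φ : Matrix n n A →ₗ[A] Matrix n n A :=
    ((LinearMap.ker L₁).liftQ L₂ hker.le).comp
      (L₁.quotKerEquivOfSurjective hsurj₁).symm.toLinearMap
  have hφ : ∀ g, φ (ρ₁ g) = ρ₂ g := by
    intro g
    have h1 : L₁ (Finsupp.single g 1) = ρ₁ g := by simp [L₁]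
    simp only [φ, LinearMap.comp_apply, LinearEquiv.coe_coe]
    rw [← h1, LinearMap.quotKerEquivOfSurjective_symm_apply]
    simp [L₂]
  have hφ1 : φ 1 = 1 := by simpa using hφ 1
  have hφmul : ∀ X Y, φ (X * Y) = φ X * φ Y := by
    intro X Y
    induction (hspan ▸ Submodule.mem_top : X ∈ Submodule.span A (Set.range ρ₁))
      using Submodule.span_induction with
    | mem x hx =>
      obtain ⟨g, rfl⟩ := hx
      induction (hspan ▸ Submodule.mem_top : Y ∈ Submodule.span A (Set.range ρ₁))
        using Submodule.span_induction with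
      | mem y hy => obtain ⟨g', rfl⟩ := hy; rw [← map_mul, hφ, hφ, hφ, map_mul]
      | zero => simp
      | add y y' _ _ hy hy' => simp [mul_add, hy, hy']
      | smul c y _ hy => simp [hy]
    | zero => simp
    | add x x' _ _ hx hx' => simp [add_mul, hx, hx']
    | smul c x _ hx => simp [hx]
  obtain ⟨P, hP⟩ := exists_conj_of_algHom (AlgHom.ofLinearMap φ hφ1 hφmul)
  exact ⟨P, fun g => by rw [← hφ g]; exact hP (ρ₁ g)⟩

/-- Module form of Carayol's theorem. -/
theorem exists_linearEquiv_of_trace_eq [IsLocalRing A] {G V₁ V₂ : Type*} [Monoid G]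
    [AddCommGroup V₁] [Module A V₁] [AddCommGroup V₂] [Module A V₂]
    (b₁ : Module.Basis n A V₁) (b₂ : Module.Basis n A V₂)
    (ρ₁ : G →* Module.End A V₁) (ρ₂ : G →* Module.End A V₂)
    (hspan : Submodule.span A (Set.range ρ₁) = ⊤)
    (htr : ∀ g, LinearMap.trace A V₁ (ρ₁ g) = LinearMap.trace A V₂ (ρ₂ g)) :
    ∃ e : V₁ ≃ₗ[A] V₂, ∀ g x, e (ρ₁ g x) = ρ₂ g (e x) := by
  let r₁ := toMatrixHom b₁ ρ₁
  let r₂ := toMatrixHom b₂ ρ₂
  let E₁ := (LinearMap.toMatrixAlgEquiv b₁).toLinearEquiv
  have hs : Submodule.span A (Set.range r₁) = ⊤ := by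
    have : (Submodule.span A (Set.range ρ₁)).map (E₁ : Module.End A V₁ →ₗ[A] Matrix n n A) =
        Submodule.span A (Set.range r₁) := by
      rw [Submodule.map_span, ← Set.range_comp]
      rfl
    rw [← this, hspan, Submodule.map_top, LinearEquiv.range]
  obtain ⟨P, hP⟩ := exists_conj_of_trace_eq r₁ r₂ hs fun g => by
    simp only [r₁, r₂, toMatrixHom_apply, ← LinearMap.trace_eq_matrix_trace]
    exact htr g
  let Pl : (n → A) ≃ₗ[A] (n → A) := LinearEquiv.ofLinearMap
    (Matrix.toLin' (P : Matrix n n A))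
    (Matrix.toLin' ((P⁻¹ : (Matrix n n A)ˣ) : Matrix n n A))
    (by rw [← Matrix.toLin'_mul, Units.mul_inv, Matrix.toLin'_one])
    (by rw [← Matrix.toLin'_mul, Units.inv_mul, Matrix.toLin'_one])
  refine ⟨b₁.equivFun.trans (Pl.trans b₂.equivFun.symm), fun g x => b₂.equivFun.injective ?_⟩
  simp only [LinearEquiv.trans_apply, LinearEquiv.apply_symm_apply]
  have h₁ : b₁.equivFun (ρ₁ g x) = (r₁ g).mulVec (b₁.equivFun x) :=
    (LinearMap.toMatrix_mulVec_repr b₁ b₁ (ρ₁ g) x).symm
  have h₂ : ∀ y, b₂.equivFun (ρ₂ g y) = (r₂ g).mulVec (b₂.equivFun y) := fun y =>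
    (LinearMap.toMatrix_mulVec_repr b₂ b₂ (ρ₂ g) y).symm
  rw [h₁, h₂, hP g, LinearEquiv.apply_symm_apply]
  simp [Pl, Matrix.mulVec_mulVec, mul_assoc]

end Fermat.Agent.RepLemmas
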