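import Mathlib.RingTheory.SimpleModule.Basic
import Mathlib.RepresentationTheory.AlgebraRepresentation.Basic
import Mathlib.LinearAlgebra.Matrix.ToLin
import Mathlib.LinearAlgebra.Matrix.Trace
import Mathlib.LinearAlgebra.Trace
import Mathlib.LinearAlgebra.Matrix.Charpoly.Coeff
import Mathlib.LinearAlgebra.Charpoly.ToMatrix
import Mathlib.LinearAlgebra.Dual.Lemmas
import Mathlib.RingTheory.LocalRing.ResidueField.Basic
import Mathlib.RingTheory.Nakayama

/-!
# Basic facts on linear group representations

Burnside's theorem, descent of "spans the whole matrix algebra", Schur's lemma.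
-/

set_option autoImplicit false

namespace Fermat.Agent.RepLemmas

open Module

section Irred

variable {G k V : Type*} [Monoid G] [Field k] [AddCommGroup V] [Module k V]

/-- Irreducibility of a linear representation. -/
def IsIrred (ρ : G →* Module.End k V) : Prop :=
  Nontrivial V ∧ ∀ W : Submodule k V, (∀ g, ∀ x ∈ W, ρ g x ∈ W) → W = ⊥ ∨ W = ⊤

/-- Burnside's theorem. -/
theorem span_range_eq_top_of_isIrred [IsAlgClosed k] [FiniteDimensional k V]
    {ρ : G →* Module.End k V} (h : IsIrred ρ) :
    Submodule.span k (Set.range ρ) = ⊤ := by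
  have := h.1
  let A : Subalgebra k (Module.End k V) := Algebra.adjoin k (Set.range ρ)
  have : IsSimpleModule A V := by
    rw [isSimpleModule_iff]
    refine ⟨fun W => ?_⟩
    rcases h.2 (W.restrictScalars k) fun g x hx =>
        W.smul_mem (⟨ρ g, Algebra.subset_adjoin ⟨g, rfl⟩⟩ : A) hx with hW | hW
    · exact Or.inl (by ext x; simpa using SetLike.ext_iff.mp hW x)
    · exact Or.inr (by ext x; simpa using SetLike.ext_iff.mp hW x)
  have hbij := IsSimpleModule.algebraMap_end_bijective_of_isAlgClosed (A := A) (V := V) k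
  have : Module.Finite (Module.End A V) V :=
    Module.Finite.of_restrictScalars_finite k (Module.End A V) V
  have hA : A = ⊤ := by
    refine eq_top_iff.mpr fun f _ => ?_
    let f' : Module.End (Module.End A V) V :=
      { toFun := f
        map_add' := map_add f
        map_smul' := fun φ x => by
          obtain ⟨c, rfl⟩ := hbij.2 φ
          simp }
    obtain ⟨a, ha⟩ := Module.Finite.toModuleEnd_moduleEnd_surjective (R := A) (M := V) f'
    have : (a : Module.End k V) = f := LinearMap.ext fun x => LinearMap.congr_fun ha x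
    exact this ▸ a.2
  have hcl : (Submonoid.closure (Set.range ρ) : Set (Module.End k V)) = Set.range ρ := by
    rw [← MonoidHom.coe_mrange, Submonoid.closure_eq]
  have := Algebra.adjoin_eq_span k (Set.range ρ)
  rw [hcl] at this
  rw [← this]
  change A.toSubmodule = ⊤
  rw [hA, Algebra.top_toSubmodule]

theorem isIrred_of_span_eq_top [Nontrivial V] {ρ : G →* Module.End k V}
    (h : Submodule.span k (Set.range ρ) = ⊤) : IsIrred ρ := by
  refine ⟨inferInstance, fun W hW => ?_⟩
  rw [or_iff_not_imp_left]
  intro hne
  obtain ⟨v, hvW, hv⟩ := W.exists_mem_ne_zero_of_ne_bot hne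
  refine eq_top_iff.mpr fun x _ => ?_
  obtain ⟨φ, hφ⟩ := Module.Projective.exists_dual_ne_zero k hv
  let f : Module.End k V := φ.smulRight ((φ v)⁻¹ • x)
  have hf : f v = x := by simp [f, smul_smul, mul_inv_cancel₀ hφ]
  have hle : Submodule.span k (Set.range ρ) ≤ Submodule.comap (LinearMap.applyₗ v) W :=
    Submodule.span_le.mpr (by rintro _ ⟨g, rfl⟩; exact hW g v hvW)
  rw [← hf]
  exact hle (show f ∈ Submodule.span k (Set.range ρ) from h ▸ Submodule.mem_top)

end Irred

section MatrixSpan

variable {n : Type*} [Fintype n] [DecidableEq n]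

/-- Burnside's theorem in matrix form. -/
theorem span_range_eq_top_of_forall_stable {G k : Type*} [Monoid G] [Field k] [IsAlgClosed k]
    [Nonempty n] {ρ : G →* Matrix n n k}
    (h : ∀ W : Submodule k (n → k), (∀ g, ∀ x ∈ W, (ρ g).mulVec x ∈ W) → W = ⊥ ∨ W = ⊤) :
    Submodule.span k (Set.range ρ) = ⊤ := by
  let e : Matrix n n k ≃ₐ[k] Module.End k (n → k) := Matrix.toLinAlgEquiv'
  let ρ' : G →* Module.End k (n → k) := e.toAlgHom.toRingHom.toMonoidHom.comp ρ
  have hirr : IsIrred ρ' := ⟨inferInstance, fun W hW => h W fun g x hx => by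
    simpa [ρ', e] using hW g x hx⟩
  have := span_range_eq_top_of_isIrred hirr
  have hmap : (Submodule.span k (Set.range ρ)).map (e.toLinearEquiv : Matrix n n k →ₗ[k] _) =
      Submodule.span k (Set.range ρ') := by
    rw [Submodule.map_span, ← Set.range_comp]
    rfl
  rw [this] at hmap
  refine Submodule.map_injective_of_injective
    (f := (e.toLinearEquiv : Matrix n n k →ₗ[k] Module.End k (n → k))) e.injective ?_
  rw [hmap, Submodule.map_top, LinearEquiv.range]

/-- A family of matrices over `k` spanning over an extension field spans over `k`. -/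
theorem span_eq_top_of_map_span_eq_top {ι k L : Type*} [Field k] [Field L] (f : k →+* L)
    (M : ι → Matrix n n k)
    (h : Submodule.span L (Set.range fun i => (M i).map f) = ⊤) :
    Submodule.span k (Set.range M) = ⊤ := by
  by_contra hne
  obtain ⟨φ, hφ0, hφ⟩ := Submodule.exists_dual_map_eq_bot_of_lt_top (lt_top_iff_ne_top.mpr hne)
    inferInstance
  let Φ : Matrix n n L →ₗ[L] L :=
    ∑ i, ∑ j, f (φ (Matrix.single i j 1)) • Matrix.entryLinearMap L L i j
  have hΦ : ∀ X : Matrix n n k, Φ (X.map f) = f (φ X) := by
    intro X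
    conv_rhs => rw [Matrix.matrix_eq_sum_single X]
    simp only [map_sum, LinearMap.sum_apply, LinearMap.smul_apply, Matrix.entryLinearMap_apply,
      Matrix.map_apply, Φ, smul_eq_mul]
    refine Finset.sum_congr rfl fun i _ => Finset.sum_congr rfl fun j _ => ?_
    rw [show Matrix.single i j (X i j) = X i j • Matrix.single i j 1 by simp, map_smul,
      smul_eq_mul, map_mul, mul_comm]
  have hker : (⊤ : Submodule L (Matrix n n L)) ≤ LinearMap.ker Φ := by
    rw [← h, Submodule.span_le]
    rintro _ ⟨i, rfl⟩
    have : φ (M i) ∈ (Submodule.span k (Set.range M)).map φ :=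
      Submodule.mem_map_of_mem (Submodule.subset_span ⟨i, rfl⟩)
    rw [hφ, Submodule.mem_bot] at this
    simp [hΦ, this]
  apply hφ0
  refine LinearMap.ext fun X => f.injective ?_
  rw [← hΦ]
  simp [LinearMap.mem_ker.mp (hker (Submodule.mem_top : X.map f ∈ ⊤))]

theorem map_span_eq_top {ι A B : Type*} [CommRing A] [CommRing B] (f : A →+* B)
    (M : ι → Matrix n n A) (h : Submodule.span A (Set.range M) = ⊤) :
    Submodule.span B (Set.range fun i => (M i).map f) = ⊤ := by
  rw [eq_top_iff]
  intro Y _
  rw [Matrix.matrix_eq_sum_single Y]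
  refine Submodule.sum_mem _ fun i _ => Submodule.sum_mem _ fun j _ => ?_
  rw [show Matrix.single i j (Y i j) = Y i j • Matrix.single i j 1 by simp]
  refine Submodule.smul_mem _ _ ?_
  have hgen : ∀ X ∈ Submodule.span A (Set.range M),
      X.map f ∈ Submodule.span B (Set.range fun i => (M i).map f) := by
    intro X hX
    induction hX using Submodule.span_induction with
    | mem x hx => obtain ⟨l, rfl⟩ := hx; exact Submodule.subset_span ⟨l, rfl⟩
    | zero => simp
    | add x y _ _ hx hy => simpa [Matrix.map_add] using Submodule.add_mem _ hx hy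
    | smul c x _ hx =>
      have : (c • x).map f = f c • x.map f := by ext a b; simp
      simpa [this] using Submodule.smul_mem _ (f c) hx
  have := hgen (Matrix.single i j 1) (h ▸ Submodule.mem_top)
  rwa [Matrix.map_single, map_one] at this

/-- Nakayama: spanning modulo the maximal ideal implies spanning. -/
theorem span_eq_top_of_residue {ι A : Type*} [CommRing A] [IsLocalRing A]
    (M : ι → Matrix n n A)
    (h : Submodule.span (IsLocalRing.ResidueField A)
      (Set.range fun i => (M i).map (IsLocalRing.residue A)) = ⊤) :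
    Submodule.span A (Set.range M) = ⊤ := by
  refine eq_top_iff.mpr (Submodule.le_of_le_smul_of_le_jacobson_bot
    (Module.Finite.fg_top) (IsLocalRing.maximalIdeal_le_jacobson ⊥) fun X _ => ?_)
  have hlift : ∀ Z ∈ Submodule.span (IsLocalRing.ResidueField A)
      (Set.range fun i => (M i).map (IsLocalRing.residue A)),
      ∃ Y ∈ Submodule.span A (Set.range M), Y.map (IsLocalRing.residue A) = Z := by
    intro Z hZ
    induction hZ using Submodule.span_induction with
    | mem x hx => obtain ⟨l, rfl⟩ := hx; exact ⟨M l, Submodule.subset_span ⟨l, rfl⟩, rfl⟩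
    | zero => exact ⟨0, Submodule.zero_mem _, by simp⟩
    | add x y _ _ hx hy =>
      obtain ⟨a, ha, rfl⟩ := hx
      obtain ⟨b, hb, rfl⟩ := hy
      exact ⟨a + b, Submodule.add_mem _ ha hb, by simp [Matrix.map_add]⟩
    | smul c x _ hx =>
      obtain ⟨a, ha, rfl⟩ := hx
      obtain ⟨c, rfl⟩ := IsLocalRing.residue_surjective c
      exact ⟨c • a, Submodule.smul_mem _ _ ha, by ext i j; simp⟩
  obtain ⟨Y, hY, hYX⟩ := hlift (X.map (IsLocalRing.residue A)) (h ▸ Submodule.mem_top)
  have : X - Y ∈ (IsLocalRing.maximalIdeal A) • (⊤ : Submodule A (Matrix n n A)) := by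
    rw [Matrix.matrix_eq_sum_single (X - Y)]
    refine Submodule.sum_mem _ fun i _ => Submodule.sum_mem _ fun j _ => ?_
    rw [show Matrix.single i j ((X - Y) i j) = (X - Y) i j • Matrix.single i j 1 by simp]
    refine Submodule.smul_mem_smul ?_ Submodule.mem_top
    rw [← IsLocalRing.residue_eq_zero_iff]
    have := congrFun (congrFun hYX i) j
    simp only [Matrix.map_apply] at this
    simp [this]
  have h2 := Submodule.add_mem_sup hY this
  rwa [add_sub_cancel] at h2

/-- Schur's lemma for a spanning family: the centraliser consists of scalars. -/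
theorem exists_eq_scalar_of_commute {ι A : Type*} [CommRing A] (M : ι → Matrix n n A)
    (h : Submodule.span A (Set.range M) = ⊤) (X : Matrix n n A)
    (hX : ∀ i, X * M i = M i * X) : ∃ c : A, X = c • (1 : Matrix n n A) := by
  have hall : ∀ Y : Matrix n n A, Y * X = X * Y := fun Y => by
    induction (h ▸ Submodule.mem_top : Y ∈ Submodule.span A (Set.range M))
      using Submodule.span_induction with
    | mem x hx => obtain ⟨l, rfl⟩ := hx; exact (hX l).symm
    | zero => simp
    | add x y _ _ hx hy => rw [add_mul, mul_add, hx, hy]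
    | smul c x _ hx => rw [smul_mul_assoc, mul_smul_comm, hx]
  obtain ⟨c, hc⟩ := Matrix.mem_range_scalar_of_commute_single
    (M := X) fun i j _ => hall (Matrix.single i j 1)
  exact ⟨c, hc ▸ by simp [Matrix.scalar, Matrix.smul_one_eq_diagonal]⟩

end MatrixSpan

section ToMatrix

variable {G A V : Type*} {n : Type*} [Monoid G] [CommRing A] [AddCommGroup V] [Module A V]
  [Fintype n] [DecidableEq n]

/-- The matrix representation attached to a basis. -/
noncomputable def toMatrixHom (b : Basis n A V) (ρ : G →* Module.End A V) :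
    G →* Matrix n n A :=
  (LinearMap.toMatrixAlgEquiv b).toAlgHom.toRingHom.toMonoidHom.comp ρ

theorem toMatrixHom_apply (b : Basis n A V) (ρ : G →* Module.End A V) (g : G) :
    toMatrixHom b ρ g = LinearMap.toMatrix b b (ρ g) := by
  rfl

end ToMatrix

end Fermat.Agent.RepLemmas
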