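import Fermat.Agent.RepLemmas.Quadratic
import Mathlib.FieldTheory.IsAlgClosed.AlgebraicClosure

/-!
# Brauer–Nesbitt in dimension two
-/

set_option autoImplicit false

namespace Fermat.Agent.RepLemmas

open Module

section Matrices

variable {G k : Type*} [Group G] [Field k]

theorem quadRel_trace_det (X : Matrix (Fin 2) (Fin 2) k) : QuadRel X X.trace X.det := by
  unfold QuadRel
  ext i j
  fin_cases i <;> fin_cases j <;>
    simp [Matrix.mul_apply, Matrix.trace_fin_two, Matrix.det_fin_two] <;> ring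

theorem eigen_root {X : Matrix (Fin 2) (Fin 2) k} {v : Fin 2 → k} (hv : v ≠ 0) {c : k}
    (h : X.mulVec v = c • v) : c * c - X.trace * c + X.det = 0 := by
  have h1 := congrArg (fun Z => Matrix.mulVec Z v) (show _ = (0 : Matrix (Fin 2) (Fin 2) k) from
    quadRel_trace_det X)
  simp only [Matrix.add_mulVec, Matrix.sub_mulVec, Matrix.smul_mulVec, ← Matrix.mulVec_mulVec,
    Matrix.one_mulVec, Matrix.zero_mulVec, h, Matrix.mulVec_smul, smul_smul, ← sub_smul,
    ← add_smul] at h1
  exact (smul_eq_zero.mp h1).resolve_right hv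

/-- An eigencharacter from a common eigenvector. -/
theorem exists_char_of_eigen {n : Type*} [Fintype n] [DecidableEq n] (r : G →* Matrix n n k)
    {v : n → k} (hv : v ≠ 0) (h : ∀ g, ∃ c : k, (r g).mulVec v = c • v) :
    ∃ χ : G →* k, ∀ g, (r g).mulVec v = χ g • v := by
  choose c hc using h
  obtain ⟨i, hi⟩ := Function.ne_iff.mp hv
  refine ⟨{ toFun := c, map_one' := ?_, map_mul' := fun g g' => ?_ }, hc⟩
  · have h1 := congrFun (hc 1) i
    simp only [map_one, Matrix.one_mulVec, Pi.smul_apply, smul_eq_mul] at h1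
    exact mul_right_cancel₀ hi (by rw [one_mul]; exact h1.symm)
  · have h1 := congrFun (hc (g * g')) i
    rw [map_mul, ← Matrix.mulVec_mulVec, hc, Matrix.mulVec_smul, hc, smul_smul] at h1
    simp only [Pi.smul_apply, smul_eq_mul] at h1
    exact mul_right_cancel₀ hi (by rw [← h1, mul_comm (c g') (c g)])

/-- A proper nonzero stable subspace of a plane is a common eigenline. -/
theorem exists_eigen_of_stable {n : Type*} [Fintype n] [DecidableEq n] (hn : Fintype.card n = 2)
    (r : G →* Matrix n n k) (W : Submodule k (n → k))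
    (hW : ∀ g, ∀ x ∈ W, (r g).mulVec x ∈ W) (h0 : W ≠ ⊥) (h1 : W ≠ ⊤) :
    ∃ v : n → k, v ≠ 0 ∧ ∀ g, ∃ c : k, (r g).mulVec v = c • v := by
  obtain ⟨v, hvW, hv⟩ := W.exists_mem_ne_zero_of_ne_bot h0
  have hlt : finrank k W < 2 := by
    have := Submodule.finrank_lt h1
    simpa [hn] using this
  have hWv : W = k ∙ v := (Submodule.eq_of_le_of_finrank_le
    ((Submodule.span_singleton_le_iff_mem _ _).mpr hvW)
    (by rw [finrank_span_singleton hv]; omega)).symm
  refine ⟨v, hv, fun g => ?_⟩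
  have := hW g v hvW
  rw [hWv, Submodule.mem_span_singleton] at this
  obtain ⟨c, hc⟩ := this
  exact ⟨c, hc.symm⟩

/-- Matrix form of the eigencharacter transfer. -/
theorem exists_eigen_matrix (r₁ r₂ : G →* Matrix (Fin 2) (Fin 2) k)
    (htr : ∀ g, (r₁ g).trace = (r₂ g).trace) (hdet : ∀ g, (r₁ g).det = (r₂ g).det)
    (χ : G →* k) (v : Fin 2 → k) (hv : v ≠ 0) (hχ : ∀ g, (r₁ g).mulVec v = χ g • v) :
    ∃ w : Fin 2 → k, w ≠ 0 ∧ ((∀ g, (r₂ g).mulVec w = χ g • w) ∨
      (∀ g, (r₂ g).mulVec w = ((r₁ g).det * χ g⁻¹) • w)) := by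
  let f : k →+* AlgebraicClosure k := algebraMap k (AlgebraicClosure k)
  let R₁ : G →* Matrix (Fin 2) (Fin 2) (AlgebraicClosure k) := f.mapMatrix.toMonoidHom.comp r₁
  let R₂ : G →* Matrix (Fin 2) (Fin 2) (AlgebraicClosure k) := f.mapMatrix.toMonoidHom.comp r₂
  have hV : ∀ g, (R₁ g).mulVec (f ∘ v) = f (χ g) • (f ∘ v) := fun g => by
    funext i
    have := congrArg f (congrFun (hχ g) i)
    rw [RingHom.map_mulVec] at this
    simpa [R₁] using this
  have hV0 : f ∘ v ≠ 0 := fun h0 => hv (funext fun i => f.injective (by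
    simpa using congrFun h0 i))
  -- `R₂` is reducible over the algebraic closure
  obtain ⟨W, hW, hW0, hW1⟩ : ∃ W : Submodule (AlgebraicClosure k) (Fin 2 → AlgebraicClosure k),
      (∀ g, ∀ x ∈ W, (R₂ g).mulVec x ∈ W) ∧ W ≠ ⊥ ∧ W ≠ ⊤ := by
    by_contra hno
    push Not at hno
    have hs₂ := span_range_eq_top_of_forall_stable (ρ := R₂) fun W hW => by
      by_cases hW0 : W = ⊥
      · exact Or.inl hW0
      · exact Or.inr (hno W hW hW0)
    have hs₁ := span_eq_top_of_trace_eq R₂ R₁ hs₂ fun g => by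
      simp [R₁, R₂, ← AddMonoidHom.map_trace, htr]
    let T : Matrix (Fin 2) (Fin 2) (AlgebraicClosure k) →ₗ[AlgebraicClosure k]
        (Fin 2 → AlgebraicClosure k) := (LinearMap.applyₗ (f ∘ v)).comp Matrix.toLin'.toLinearMap
    have hle : LinearMap.range T ≤ (AlgebraicClosure k) ∙ (f ∘ v) := by
      rw [LinearMap.range_eq_map, ← hs₁, Submodule.map_span, Submodule.span_le]
      rintro _ ⟨_, ⟨g, rfl⟩, rfl⟩
      exact Submodule.mem_span_singleton.mpr ⟨f (χ g), by simp [T, hV]⟩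
    have hsurj : LinearMap.range T = ⊤ := by
      obtain ⟨i, hi⟩ := Function.ne_iff.mp hV0
      rw [LinearMap.range_eq_top]
      intro y
      refine ⟨Matrix.of fun a b => if b = i then y a * ((f ∘ v) i)⁻¹ else 0, ?_⟩
      funext a
      simpa [T, Matrix.mulVec, dotProduct] using inv_mul_cancel_right₀ hi (y a)
    have := Submodule.finrank_mono (hsurj ▸ hle)
    rw [finrank_top, finrank_span_singleton hV0, Module.finrank_fin_fun] at this
    omega
  obtain ⟨w, hw, hwe⟩ := exists_eigen_of_stable (Fintype.card_fin 2) R₂ W hW hW0 hW1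
  obtain ⟨μ, hμ⟩ := exists_char_of_eigen R₂ hw hwe
  let ψ : G →* k := quotChar χ (Matrix.detMonoidHom.comp r₁)
  have hcases : ∀ g, μ g = f (χ g) ∨ μ g = f (ψ g) := by
    intro g
    have e1 : χ g + ψ g = (r₁ g).trace :=
      trace_of_root χ (Matrix.detMonoidHom.comp r₁) g (eigen_root hv (hχ g))
    have e2 : χ g * ψ g = (r₁ g).det := by
      have : χ g * χ g⁻¹ = 1 := by rw [← map_mul, mul_inv_cancel, map_one]
      change χ g * ((r₁ g).det * χ g⁻¹) = _
      linear_combination (r₁ g).det * this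
    have e3 := eigen_root hw (hμ g)
    simp only [R₂, MonoidHom.comp_apply, RingHom.toMonoidHom_eq_coe, MonoidHom.coe_coe,
      RingHom.mapMatrix_apply, ← AddMonoidHom.map_trace] at e3
    have e4 : ((r₂ g).map f).det = f (r₂ g).det := by
      rw [RingHom.map_det]; rfl
    rw [e4, ← htr, ← hdet, ← e1, ← e2, map_add, map_mul] at e3
    rcases mul_eq_zero.mp (show (μ g - f (χ g)) * (μ g - f (ψ g)) = 0 by
      linear_combination e3) with h | h
    · exact Or.inl (sub_eq_zero.mp h)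
    · exact Or.inr (sub_eq_zero.mp h)
  have hne : ∀ (φ : G →* k) (g : G), f (φ g) ≠ 0 := fun φ g => by
    rw [map_ne_zero]
    exact fun h0 => zero_ne_one' k (by
      rw [← map_one φ, ← mul_inv_cancel g, map_mul, h0, zero_mul])
  have hall : (∀ g, μ g = f (χ g)) ∨ ∀ g, μ g = f (ψ g) := by
    by_contra hno
    push Not at hno
    obtain ⟨⟨g, hg⟩, g', hg'⟩ := hno
    have h1 : μ g = f (ψ g) := (hcases g).resolve_left hg
    have h2 : μ g' = f (χ g') := (hcases g').resolve_right hg'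
    rcases hcases (g * g') with h | h <;> simp only [map_mul] at h
    · exact hg (mul_right_cancel₀ (hne χ g') (by rw [← h2] at h ⊢; exact h))
    · exact hg' (mul_left_cancel₀ (hne ψ g) (by rw [← h1] at h ⊢; exact h))
  obtain ⟨i, hi⟩ := Function.ne_iff.mp hw
  obtain ⟨φ, hφ⟩ := Module.Projective.exists_dual_ne_zero k hi
  have hdesc : ∀ c : G → k, (∀ g, μ g = f (c g)) →
      ∀ g, (r₂ g).mulVec (φ ∘ w) = c g • (φ ∘ w) := by
    intro c hc g
    funext a
    have h1 := congrArg φ (congrFun (hμ g) a)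
    simp only [Matrix.mulVec, dotProduct, R₂, MonoidHom.comp_apply, RingHom.toMonoidHom_eq_coe,
      MonoidHom.coe_coe, RingHom.mapMatrix_apply, Matrix.map_apply, map_sum, Pi.smul_apply,
      hc, smul_eq_mul, f, ← Algebra.smul_def, map_smul] at h1
    simpa [Matrix.mulVec, dotProduct] using h1
  refine ⟨φ ∘ w, fun h0 => hφ (congrFun h0 i), ?_⟩
  rcases hall with h | h
  · exact Or.inl (hdesc _ h)
  · exact Or.inr (hdesc _ h)

theorem det_linearCombination_eq (r₁ r₂ : G →* Matrix (Fin 2) (Fin 2) k)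
    (htr : ∀ g, (r₁ g).trace = (r₂ g).trace) (hdet : ∀ g, (r₁ g).det = (r₂ g).det)
    (c : G →₀ k) :
    (Finsupp.linearCombination k r₁ c).trace = (Finsupp.linearCombination k r₂ c).trace ∧
      (Finsupp.linearCombination k r₁ c).det = (Finsupp.linearCombination k r₂ c).det := by
  have hmul : ∀ (h : G) (c : G →₀ k),
      (Finsupp.linearCombination k r₁ c * r₁ h).trace =
        (Finsupp.linearCombination k r₂ c * r₂ h).trace := fun h c => by
    simpa [traceForm] using congrFun (LinearMap.congr_fun (traceForm_comp_eq r₁ r₂ htr) c) h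
  have htrc : ∀ c : G →₀ k, (Finsupp.linearCombination k r₁ c).trace =
      (Finsupp.linearCombination k r₂ c).trace := fun c => by simpa using hmul 1 c
  refine ⟨htrc c, ?_⟩
  induction c using Finsupp.induction with
  | zero => simp
  | single_add g a c _ _ ih =>
    have hadd : ∀ X Y : Matrix (Fin 2) (Fin 2) k,
        (X + Y).det = X.det + Y.det + X.trace * Y.trace - (Y * X).trace := by
      intro X Y
      simp [Matrix.det_fin_two, Matrix.trace_fin_two, Matrix.mul_apply]
      ring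
    simp only [map_add, Finsupp.linearCombination_single, hadd, Matrix.det_smul,
      Matrix.trace_smul, Matrix.mul_smul, ih, hdet, htr, htrc c, hmul g c]

end Matrices

section Modules

variable {G k V₁ V₂ : Type*} [Group G] [Field k] [AddCommGroup V₁] [Module k V₁]
  [AddCommGroup V₂] [Module k V₂] [FiniteDimensional k V₁] [FiniteDimensional k V₂]

theorem trace_det_of_charpoly_eq
    (b₁ : Basis (Fin 2) k V₁) (b₂ : Basis (Fin 2) k V₂) {f₁ : Module.End k V₁}
    {f₂ : Module.End k V₂} (h : f₁.charpoly = f₂.charpoly) :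
    (LinearMap.toMatrix b₁ b₁ f₁).trace = (LinearMap.toMatrix b₂ b₂ f₂).trace ∧
      (LinearMap.toMatrix b₁ b₁ f₁).det = (LinearMap.toMatrix b₂ b₂ f₂).det := by
  rw [← LinearMap.charpoly_toMatrix f₁ b₁, ← LinearMap.charpoly_toMatrix f₂ b₂] at h
  generalize LinearMap.toMatrix b₁ b₁ f₁ = M₁ at h ⊢
  generalize LinearMap.toMatrix b₂ b₂ f₂ = M₂ at h ⊢
  refine ⟨?_, ?_⟩
  · rw [Matrix.trace_eq_neg_charpoly_coeff, h, ← Matrix.trace_eq_neg_charpoly_coeff]
  · rw [Matrix.det_eq_sign_charpoly_coeff, h, ← Matrix.det_eq_sign_charpoly_coeff]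

omit [FiniteDimensional k V₁] in
theorem linearCombination_translate (ρ : G →* Module.End k V₁) (g : G) (c : G →₀ k) :
    Finsupp.linearCombination k ρ (Finsupp.mapDomain (g * ·) c) =
      ρ g * Finsupp.linearCombination k ρ c := by
  induction c using Finsupp.induction_linear with
  | zero => simp
  | add x y hx hy => rw [Finsupp.mapDomain_add, map_add, map_add, mul_add, hx, hy]
  | single h a => simp [Finsupp.mapDomain_single]

omit [FiniteDimensional k V₁] in
theorem toMatrix_linearCombination {n : Type*} [Fintype n] [DecidableEq n] (b : Basis n k V₁)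
    (ρ : G →* Module.End k V₁) (c : G →₀ k) :
    LinearMap.toMatrix b b (Finsupp.linearCombination k ρ c) =
      Finsupp.linearCombination k (toMatrixHom b ρ) c := by
  induction c using Finsupp.induction_linear with
  | zero => simp
  | add x y hx hy => rw [map_add, map_add, map_add, hx, hy]
  | single h a =>
    rw [Finsupp.linearCombination_single, Finsupp.linearCombination_single, map_smul,
      toMatrixHom_apply]

/-- A common translation-stable source mapping onto an irreducible `V₁` and compatibly to `V₂`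
gives an isomorphism. -/
theorem exists_linearEquiv_of_factor (ρ₁ : G →* Module.End k V₁) (ρ₂ : G →* Module.End k V₂)
    (hd : finrank k V₁ = finrank k V₂) (hirr₂ : IsIrred ρ₂) (D : Submodule k (G →₀ k))
    (E : D →ₗ[k] V₁) (F : D →ₗ[k] V₂) (hE : Function.Surjective E)
    (hker : ∀ c c', E c = E c' → F c = F c') (hF : F ≠ 0)
    (hEq : ∀ g c, ∃ c', E c' = ρ₁ g (E c) ∧ F c' = ρ₂ g (F c)) :
    ∃ e : V₁ ≃ₗ[k] V₂, ∀ g x, e (ρ₁ g x) = ρ₂ g (e x) := by
  obtain ⟨sec, hsec⟩ := E.exists_rightInverse_of_surjective (LinearMap.range_eq_top.mpr hE)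
  let e₀ : V₁ →ₗ[k] V₂ := F.comp sec
  have he₀ : ∀ c, e₀ (E c) = F c := fun c => hker _ _ (LinearMap.congr_fun hsec (E c))
  have heq : ∀ g x, e₀ (ρ₁ g x) = ρ₂ g (e₀ x) := by
    intro g x
    obtain ⟨c, rfl⟩ := hE x
    obtain ⟨c', h1, h2⟩ := hEq g c
    rw [← h1, he₀, h2, he₀]
  have hsurj : Function.Surjective e₀ := by
    refine LinearMap.range_eq_top.mp ((hirr₂.2 _ ?_).resolve_left ?_)
    · rintro g _ ⟨x, rfl⟩
      exact ⟨ρ₁ g x, heq g x⟩
    · intro h0
      apply hF
      refine LinearMap.ext fun c => ?_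
      rw [← he₀, LinearMap.range_eq_bot.mp h0]
      simp
  have hinj : Function.Injective e₀ :=
    (LinearMap.injective_iff_surjective_of_finrank_eq_finrank hd).mpr hsurj
  exact ⟨LinearEquiv.ofBijective e₀ ⟨hinj, hsurj⟩, heq⟩

end Modules

variable {G k V₁ V₂ : Type*} [Group G] [Field k] [AddCommGroup V₁] [Module k V₁]
  [AddCommGroup V₂] [Module k V₂] [FiniteDimensional k V₁] [FiniteDimensional k V₂]

/-- If two 2-dimensional representations have the same characteristic polynomials and the first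
has an eigencharacter `χ` (with eigenline over `k`), then the second has an eigencharacter which
is `χ` or `det / χ`. -/
theorem exists_eigenline_of_charpoly_eq (ρ₁ : G →* Module.End k V₁) (ρ₂ : G →* Module.End k V₂)
    (h₁ : finrank k V₁ = 2) (h₂ : finrank k V₂ = 2)
    (hcp : ∀ g, (ρ₁ g).charpoly = (ρ₂ g).charpoly)
    (χ : G →* k) (v : V₁) (hv : v ≠ 0) (hχ : ∀ g, ρ₁ g v = χ g • v) :
    ∃ w : V₂, w ≠ 0 ∧ ((∀ g, ρ₂ g w = χ g • w) ∨
      (∀ g, ρ₂ g w = (LinearMap.det (ρ₁ g) * χ g⁻¹) • w)) := by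
  let b₁ := Module.finBasisOfFinrankEq k V₁ h₁
  let b₂ := Module.finBasisOfFinrankEq k V₂ h₂
  obtain ⟨w, hw, hw'⟩ := exists_eigen_matrix (toMatrixHom b₁ ρ₁) (toMatrixHom b₂ ρ₂)
    (fun g => (trace_det_of_charpoly_eq b₁ b₂ (hcp g)).1)
    (fun g => (trace_det_of_charpoly_eq b₁ b₂ (hcp g)).2)
    χ (b₁.repr v) (fun h0 => hv (b₁.repr.injective (Finsupp.ext fun i => by
      simpa using congrFun h0 i)))
    (fun g => by
      rw [toMatrixHom_apply, LinearMap.toMatrix_mulVec_repr, hχ, map_smul, Finsupp.coe_smul])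
  refine ⟨b₂.equivFun.symm w, fun h0 => hw (b₂.equivFun.symm.map_eq_zero_iff.mp h0), ?_⟩
  have key : ∀ g, b₂.equivFun (ρ₂ g (b₂.equivFun.symm w)) = (toMatrixHom b₂ ρ₂ g).mulVec w :=
    fun g => by
      rw [toMatrixHom_apply]
      conv_rhs => rw [← LinearEquiv.apply_symm_apply b₂.equivFun w]
      exact (LinearMap.toMatrix_mulVec_repr b₂ b₂ (ρ₂ g) _).symm
  rcases hw' with h | h
  · exact Or.inl fun g => b₂.equivFun.injective (by
      rw [key, h, map_smul, LinearEquiv.apply_symm_apply])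
  · refine Or.inr fun g => b₂.equivFun.injective ?_
    rw [key, h, map_smul, LinearEquiv.apply_symm_apply, toMatrixHom_apply, LinearMap.det_toMatrix]

/-- Irreducibility transfers along equality of characteristic polynomials. -/
theorem isIrred_of_charpoly_eq (ρ₁ : G →* Module.End k V₁) (ρ₂ : G →* Module.End k V₂)
    (h₁ : finrank k V₁ = 2) (h₂ : finrank k V₂ = 2)
    (hcp : ∀ g, (ρ₁ g).charpoly = (ρ₂ g).charpoly) (hirr : IsIrred ρ₂) : IsIrred ρ₁ := by
  refine ⟨Module.nontrivial_of_finrank_eq_succ h₁, fun W hW => ?_⟩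
  by_contra hno
  push Not at hno
  obtain ⟨h0, htop⟩ := hno
  let b := Module.finBasisOfFinrankEq k V₁ h₁
  have hb : ∀ g x, (toMatrixHom b ρ₁ g).mulVec (b.equivFun x) = b.equivFun (ρ₁ g x) :=
    fun g x => LinearMap.toMatrix_mulVec_repr b b (ρ₁ g) x
  let W' := W.map (b.equivFun : V₁ →ₗ[k] (Fin 2 → k))
  obtain ⟨v, hv, hve⟩ := exists_eigen_of_stable (Fintype.card_fin 2) (toMatrixHom b ρ₁) W'
    (by
      rintro g _ ⟨x, hx, rfl⟩
      exact ⟨ρ₁ g x, hW g x hx, (hb g x).symm⟩)
    (fun h => h0 (Submodule.map_injective_of_injective b.equivFun.injective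
      (h.trans (Submodule.map_bot _).symm)))
    (fun h => htop (Submodule.map_injective_of_injective b.equivFun.injective
      (h.trans (by rw [Submodule.map_top, LinearEquiv.range]))))
  obtain ⟨χ, hχ⟩ := exists_char_of_eigen _ hv hve
  obtain ⟨w, hw, hw'⟩ := exists_eigenline_of_charpoly_eq ρ₁ ρ₂ h₁ h₂ hcp χ (b.equivFun.symm v)
    (fun h => hv (b.equivFun.symm.map_eq_zero_iff.mp h))
    (fun g => b.equivFun.injective (by
      rw [← hb, LinearEquiv.apply_symm_apply, map_smul, LinearEquiv.apply_symm_apply, hχ]))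
  have hline : ∀ c : G → k, (∀ g, ρ₂ g w = c g • w) → False := by
    intro c hc
    rcases hirr.2 (k ∙ w) (fun g x hx => by
      obtain ⟨a, rfl⟩ := Submodule.mem_span_singleton.mp hx
      rw [map_smul, hc]
      exact Submodule.smul_mem _ _ (Submodule.smul_mem _ _ (Submodule.mem_span_singleton_self w)))
      with h | h
    · exact hw (Submodule.span_singleton_eq_bot.mp h)
    · have := finrank_span_singleton (K := k) hw
      rw [h, finrank_top, h₂] at this
      omega
  rcases hw' with h | h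
  · exact hline _ h
  · exact hline _ h

/-- Irreducibility is determined by the characteristic polynomials. -/
theorem isIrred_iff_of_charpoly_eq (ρ₁ : G →* Module.End k V₁) (ρ₂ : G →* Module.End k V₂)
    (h₁ : finrank k V₁ = 2) (h₂ : finrank k V₂ = 2)
    (hcp : ∀ g, (ρ₁ g).charpoly = (ρ₂ g).charpoly) :
    IsIrred ρ₁ ↔ IsIrred ρ₂ :=
  ⟨fun h => isIrred_of_charpoly_eq ρ₂ ρ₁ h₂ h₁ (fun g => (hcp g).symm) h,
    fun h => isIrred_of_charpoly_eq ρ₁ ρ₂ h₁ h₂ hcp h⟩

/-- If `V₂` is irreducible, an element of the group algebra killing `V₁` kills `V₂`. -/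
theorem ker_le_ker_of_charpoly_eq (ρ₁ : G →* Module.End k V₁) (ρ₂ : G →* Module.End k V₂)
    (h₁ : finrank k V₁ = 2) (h₂ : finrank k V₂ = 2)
    (hcp : ∀ g, (ρ₁ g).charpoly = (ρ₂ g).charpoly) (hirr₂ : IsIrred ρ₂) :
    LinearMap.ker (Finsupp.linearCombination k ρ₁) ≤
      LinearMap.ker (Finsupp.linearCombination k ρ₂) := by
  intro c hc
  by_contra hne
  obtain ⟨v, hv⟩ : ∃ v, Finsupp.linearCombination k ρ₂ c v ≠ 0 := by
    by_contra hno
    push Not at hno
    exact hne (LinearMap.ext hno)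
  let S : Submodule k V₂ := (LinearMap.ker (Finsupp.linearCombination k ρ₁)).map
    ((LinearMap.applyₗ v).comp (Finsupp.linearCombination k ρ₂))
  have hS : S = ⊤ := by
    refine (hirr₂.2 S ?_).resolve_left ?_
    · rintro g _ ⟨d, hd, rfl⟩
      refine ⟨Finsupp.mapDomain (g * ·) d, ?_, by simp [linearCombination_translate ρ₂ g d]⟩
      simp only [SetLike.mem_coe, LinearMap.mem_ker] at hd ⊢
      rw [linearCombination_translate, hd, mul_zero]
    · intro h0
      have : Finsupp.linearCombination k ρ₂ c v ∈ S := ⟨c, hc, by simp⟩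
      rw [h0] at this
      exact hv ((Submodule.mem_bot k).mp this)
  obtain ⟨d, hd, hdv⟩ : v ∈ S := hS ▸ Submodule.mem_top
  let b₁ := Module.finBasisOfFinrankEq k V₁ h₁
  let b₂ := Module.finBasisOfFinrankEq k V₂ h₂
  have hz := det_linearCombination_eq (toMatrixHom b₁ ρ₁) (toMatrixHom b₂ ρ₂)
    (fun g => (trace_det_of_charpoly_eq b₁ b₂ (hcp g)).1)
    (fun g => (trace_det_of_charpoly_eq b₁ b₂ (hcp g)).2) d
  rw [← toMatrix_linearCombination b₁ ρ₁ d, ← toMatrix_linearCombination b₂ ρ₂ d,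
    show Finsupp.linearCombination k ρ₁ d = 0 from hd] at hz
  simp only [map_zero, Matrix.trace_zero, Matrix.det_fin_two, Matrix.zero_apply, mul_zero,
    sub_zero] at hz
  set M := LinearMap.toMatrix b₂ b₂ (Finsupp.linearCombination k ρ₂ d) with hM
  have hMv : M.mulVec (b₂.repr v) = b₂.repr v := by
    rw [hM, LinearMap.toMatrix_mulVec_repr]
    exact congrArg (fun z => ⇑(b₂.repr z)) (by simpa using hdv)
  have hv0 : (b₂.repr v : Fin 2 → k) ≠ 0 := fun h0 => hv (by
    have : v = 0 := b₂.repr.injective (Finsupp.ext fun i => by simpa using congrFun h0 i)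
    simp [this])
  have e1 := eigen_root (X := M) (c := (1 : k)) hv0 (by rw [one_smul]; exact hMv)
  rw [← hz.1, Matrix.det_fin_two, ← hz.2] at e1
  simp at e1

/-- **Brauer–Nesbitt**: an irreducible 2-dimensional representation is determined up to
isomorphism by its characteristic polynomials. -/
theorem exists_linearEquiv_of_charpoly_eq (ρ₁ : G →* Module.End k V₁) (ρ₂ : G →* Module.End k V₂)
    (h₁ : finrank k V₁ = 2) (h₂ : finrank k V₂ = 2) (hirr : IsIrred ρ₁)
    (hcp : ∀ g, (ρ₁ g).charpoly = (ρ₂ g).charpoly) :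
    ∃ e : V₁ ≃ₗ[k] V₂, ∀ g x, e (ρ₁ g x) = ρ₂ g (e x) := by
  have hirr₂ : IsIrred ρ₂ := (isIrred_iff_of_charpoly_eq ρ₁ ρ₂ h₁ h₂ hcp).mp hirr
  let b₁ := Module.finBasisOfFinrankEq k V₁ h₁
  let L₁ := Finsupp.linearCombination k ρ₁
  let L₂ := Finsupp.linearCombination k ρ₂
  let tr : G → (G →₀ k) → (G →₀ k) := fun g c => Finsupp.mapDomain (g * ·) c
  have hker : LinearMap.ker L₁ = LinearMap.ker L₂ :=
    le_antisymm (ker_le_ker_of_charpoly_eq ρ₁ ρ₂ h₁ h₂ hcp hirr₂)
      (ker_le_ker_of_charpoly_eq ρ₂ ρ₁ h₂ h₁ (fun g => (hcp g).symm) hirr)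
  have hd12 : finrank k V₁ = finrank k V₂ := h₁.trans h₂.symm
  let K₁ : Submodule k (G →₀ k) := LinearMap.ker ((LinearMap.applyₗ (b₁ 0)).comp L₁)
  have hst₁ : ∀ (u : V₁) g c, L₁ (tr g c) u = ρ₁ g (L₁ c u) := fun u g c =>
    LinearMap.congr_fun (linearCombination_translate ρ₁ g c) u
  have hst₂ : ∀ (u : V₂) g c, L₂ (tr g c) u = ρ₂ g (L₂ c u) := fun u g c =>
    LinearMap.congr_fun (linearCombination_translate ρ₂ g c) u
  -- the common part: a stable `D` and vectors `u`, `w` with enough non-vanishing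
  suffices ∃ (D : Submodule k (G →₀ k)) (u : V₁) (w : V₂) (c₀ : G →₀ k),
      (∀ g c, c ∈ D → tr g c ∈ D) ∧ c₀ ∈ D ∧ L₁ c₀ u ≠ 0 ∧ L₂ c₀ w ≠ 0 ∧
      ∀ c ∈ D, L₁ c u = 0 → L₁ c = 0 by
    obtain ⟨D, u, w, c₀, hD, hc₀, hu, hw, hinj⟩ := this
    refine exists_linearEquiv_of_factor ρ₁ ρ₂ hd12 hirr₂ D
      (((LinearMap.applyₗ u).comp L₁).comp (Submodule.subtype D))
      (((LinearMap.applyₗ w).comp L₂).comp (Submodule.subtype D)) ?_ ?_ ?_ ?_
    · refine LinearMap.range_eq_top.mp ((hirr.2 _ ?_).resolve_left ?_)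
      · rintro g _ ⟨c, rfl⟩
        exact ⟨⟨tr g c, hD g c c.2⟩, by simpa using hst₁ u g c⟩
      · intro h0
        have : L₁ c₀ u ∈ LinearMap.range
            (((LinearMap.applyₗ u).comp L₁).comp (Submodule.subtype D)) := ⟨⟨c₀, hc₀⟩, rfl⟩
        rw [h0, Submodule.mem_bot] at this
        exact hu this
    · rintro ⟨c, hc⟩ ⟨c', hc'⟩ heq
      have h1 : L₁ (c - c') u = 0 := by
        rw [map_sub, LinearMap.sub_apply, sub_eq_zero]
        exact heq
      have h2 : c - c' ∈ LinearMap.ker L₂ :=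
        hker ▸ LinearMap.mem_ker.mpr (hinj _ (D.sub_mem hc hc') h1)
      have h3 : L₂ (c - c') w = 0 := by rw [LinearMap.mem_ker.mp h2, LinearMap.zero_apply]
      rw [map_sub, LinearMap.sub_apply, sub_eq_zero] at h3
      exact h3
    · intro h0
      exact hw (LinearMap.congr_fun h0 ⟨c₀, hc₀⟩)
    · exact fun g c => ⟨⟨tr g c, hD g c c.2⟩, by simpa using hst₁ u g c,
        by simpa using hst₂ w g c⟩
  by_cases hK : K₁ ≤ LinearMap.ker L₁
  · have := hirr₂.1
    obtain ⟨w, hw⟩ := exists_ne (0 : V₂)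
    exact ⟨⊤, b₁ 0, w, Finsupp.single 1 1, fun _ _ _ => trivial, trivial,
      by simpa [L₁] using b₁.ne_zero 0, by simpa [L₂] using hw, fun c _ hc => hK hc⟩
  · obtain ⟨c₀, hc₀, hc₀'⟩ := SetLike.not_le_iff_exists.mp hK
    have hbase : ∀ c ∈ K₁, L₁ c (b₁ 1) = 0 → L₁ c = 0 := fun c hc h =>
      b₁.ext fun i => by
        fin_cases i
        · simpa using (show L₁ c (b₁ 0) = 0 from hc)
        · simpa using h
    obtain ⟨w, hw⟩ : ∃ w, L₂ c₀ w ≠ 0 := by
      by_contra hno
      push Not at hno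
      exact hc₀' (hker ▸ LinearMap.mem_ker.mpr (LinearMap.ext hno))
    refine ⟨K₁, b₁ 1, w, c₀, fun g c hc => ?_, hc₀, fun h => hc₀' (hbase c₀ hc₀ h), hw, hbase⟩
    have hc' : L₁ c (b₁ 0) = 0 := hc
    change L₁ (tr g c) (b₁ 0) = 0
    rw [hst₁, hc', map_zero]

end Fermat.Agent.RepLemmas
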